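import Fermat.Agent.LTF.Theta.Gauss
import Mathlib.NumberTheory.LSeries.PrimesInAP
import Mathlib.NumberTheory.ModularForms.SlashActions

/-!
# Binary theta series under `Γ₀(|D|)` (helper93)
-/

set_option autoImplicit false

namespace Fermat.Agent.LTF.Theta

open Complex Real Finset

/-- inversion -/
theorem th_inv (Q : BQ) (hQ : Q.Pos) (z : ℂ) (hz : 0 < z.im) :
    ∑' Y : ℤ × ℤ, e (-1 / z * ((Q.dual.ev Y : ℤ) / (Q.absD : ℝ))) =
      -I * z * (Real.sqrt Q.absD : ℝ) * th Q z := by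
  have hz0 : z ≠ 0 := by
    rintro rfl
    simp at hz
  have hw : 0 < (-1 / z : ℂ).im := by
    rw [neg_div, one_div, neg_im, inv_im]
    have := normSq_pos.mpr hz0
    rw [neg_div, neg_neg]
    positivity
  have hsq : ((Real.sqrt Q.absD : ℝ) : ℂ) ≠ 0 := by
    exact_mod_cast (Real.sqrt_pos.mpr hQ.absD_pos).ne'
  have h := th_transform Q hQ 1 0 (-1) 0 1 (by norm_num) one_pos (-1 / z) hw
  have e1 : (((0 : ℤ) : ℂ) * (-1 / z) + ((-1 : ℤ) : ℂ)) / (((1 : ℕ) : ℂ) * (-1 / z) + ((0 : ℤ) : ℂ))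
      = z := by
    push_cast
    field_simp
    ring
  rw [e1] at h
  have e2 : ∀ Y : ℤ × ℤ, gs Q 1 0 Y * e ((((1 : ℕ) : ℂ) * (-1 / z) + ((0 : ℤ) : ℂ)) /
      (((1 : ℤ) : ℂ) * ((1 : ℕ) : ℂ)) * ((Q.dual.ev Y : ℤ) / (Q.absD : ℝ))) =
      e (-1 / z * ((Q.dual.ev Y : ℤ) / (Q.absD : ℝ))) := by
    intro Y
    have : gs Q 1 0 Y = 1 := by
      unfold gs
      rw [Fintype.sum_eq_single (0, 0)]
      · rw [show ((((0 : ℤ) : ZMod 1)) * Q.ev ((0 : ZMod 1), (0 : ZMod 1)) + ((0 : ZMod 1), (0 : ZMod 1)).1 * (Y.1 : ZMod 1) +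
          ((0 : ZMod 1), (0 : ZMod 1)).2 * (Y.2 : ZMod 1)) = 0 from Subsingleton.elim _ _]
        exact AddChar.map_zero_eq_one _
      · intro x hx
        exact absurd (Subsingleton.elim x (0, 0)) hx
    rw [this, one_mul]
    congr 1
    push_cast
    ring
  rw [tsum_congr e2] at h
  have e3 : -I * (((1 : ℕ) : ℂ) * (-1 / z) + ((0 : ℤ) : ℂ)) / (((1 : ℤ) : ℂ) * ((1 : ℕ) : ℂ) *
      ((Real.sqrt Q.absD : ℝ) : ℂ)) = I / (z * ((Real.sqrt Q.absD : ℝ) : ℂ)) := by
    push_cast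
    field_simp
    ring
  rw [e3] at h
  rw [h]
  field_simp
  rw [show (I : ℂ) ^ 2 = -1 from I_sq]
  ring

/-- `(αz+β)/(γz+m)` with `|D| ∣ γ` and `m > 0`. -/
theorem th_gamma (Q : BQ) (hQ : Q.Pos) (m : ℕ) [NeZero m] (α β γ : ℤ)
    (hdet : α * m - β * γ = 1) (hD : Q.disc ∣ γ) (z : ℂ) (hz : 0 < z.im) :
    th Q ((α * z + β) / (γ * z + m)) = (γ * z + m) / m * gs Q m β (0, 0) * th Q z := by
  obtain ⟨g', hg'⟩ := hD
  have hz0 : z ≠ 0 := by
    rintro rfl
    simp at hz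
  have hw : 0 < (-1 / z : ℂ).im := by
    rw [neg_div, one_div, neg_im, inv_im]
    have := normSq_pos.mpr hz0
    rw [neg_div, neg_neg]
    positivity
  have hsq : ((Real.sqrt Q.absD : ℝ) : ℂ) ≠ 0 := by
    exact_mod_cast (Real.sqrt_pos.mpr hQ.absD_pos).ne'
  have hm : (m : ℂ) ≠ 0 := by exact_mod_cast NeZero.ne m
  have hD0 : (Q.absD : ℂ) ≠ 0 := by exact_mod_cast hQ.absD_pos.ne'
  have hne : (γ * z + m : ℂ) ≠ 0 := by
    intro h
    have h1 : (γ * z + m : ℂ).im = γ * z.im := by simp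
    have h2 : (γ * z + m : ℂ).re = γ * z.re + m := by simp
    rw [h] at h1 h2
    simp only [zero_im, zero_re] at h1 h2
    have h3 : (γ : ℝ) = 0 := by
      rcases mul_eq_zero.mp h1.symm with h | h
      · exact h
      · exact absurd h hz.ne'
    rw [h3] at h2
    have : (m : ℝ) = 0 := by linarith
    exact NeZero.ne m (by exact_mod_cast this)
  have h := th_transform Q hQ m β (-α) (-γ) 1 (by linarith) one_pos (-1 / z) hw
  have e1 : ((β : ℂ) * (-1 / z) + ((-α : ℤ) : ℂ)) / ((m : ℂ) * (-1 / z) + ((-γ : ℤ) : ℂ))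
      = (α * z + β) / (γ * z + m) := by
    have h1 : (m : ℂ) * (-1 / z) + ((-γ : ℤ) : ℂ) = -(γ * z + m) / z := by
      push_cast
      field_simp
      ring
    have h2 : (β : ℂ) * (-1 / z) + ((-α : ℤ) : ℂ) = -(α * z + β) / z := by
      push_cast
      field_simp
      ring
    rw [h1, h2]
    field_simp
  rw [e1] at h
  rw [h]
  have hmod : (β : ZMod m) * ((-Q.disc : ℤ) : ZMod m) * ((-g' : ℤ) : ZMod m) = -1 := by
    have h1 : (((β * γ : ℤ)) : ZMod m) = ((α * m - 1 : ℤ) : ZMod m) := by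
      congr 1; linarith
    rw [hg'] at h1
    push_cast at h1 ⊢
    simp only [CharP.cast_eq_zero, mul_zero, zero_sub] at h1
    linear_combination h1
  have e2 : ∀ Y : ℤ × ℤ, gs Q m β Y * e (((m : ℂ) * (-1 / z) + ((-γ : ℤ) : ℂ)) /
      (((1 : ℤ) : ℂ) * (m : ℂ)) * ((Q.dual.ev Y : ℤ) / (Q.absD : ℝ))) =
      gs Q m β (0, 0) * e (-1 / z * ((Q.dual.ev Y : ℤ) / (Q.absD : ℝ))) := by
    intro Y
    rw [gs_shift Q m β (-g') hmod Y, mul_assoc]
    congr 1
    have h1 : ((-g' : ℤ) : ZMod m) * (Q.dual.ev Y : ℤ) = ((-g' * Q.dual.ev Y : ℤ) : ZMod m) := by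
      push_cast; ring
    rw [h1, stdAddChar_eq, ← e_add]
    congr 1
    have h2 : (Q.absD : ℂ) = -(Q.disc : ℂ) := by
      unfold BQ.absD; push_cast; ring
    have h3 : (γ : ℂ) = Q.disc * g' := by rw [hg']; push_cast; ring
    have h4 : (Q.disc : ℂ) ≠ 0 := by
      intro h
      rw [h2, h] at hD0
      simp at hD0
    push_cast
    rw [h3, h2]
    field_simp
    ring
  rw [tsum_congr e2, tsum_mul_left, th_inv Q hQ z hz]
  push_cast
  field_simp
  rw [show (I : ℂ) ^ 2 = -1 from I_sq]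
  ring

theorem th_add_int (Q : BQ) (z : ℂ) (n : ℤ) : th Q (z + n) = th Q z := by
  unfold th
  refine tsum_congr fun x => ?_
  rw [add_mul, show (n : ℂ) * ((Q.ev x : ℤ) : ℂ) = ((n * Q.ev x : ℤ) : ℂ) by push_cast; ring,
    e_add_int]

/-- The transformation law, for `g` with lower row `(γ, δ)`, in terms of an odd prime
`p ≡ δ mod γ`. -/
theorem th_prime (Q : BQ) (hQ : Q.Pos) (α β γ δ : ℤ) (hdet : α * δ - β * γ = 1)
    (hD : Q.disc ∣ γ) (p : ℕ) [Fact p.Prime] (hp : p ≠ 2) (n : ℤ) (hn : (p : ℤ) = δ + n * γ)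
    (z : ℂ) (hz : 0 < z.im) :
    th Q ((α * z + β) / (γ * z + δ)) = chi p Q.disc * (γ * z + δ) * th Q z := by
  have hp0 : (p : ℂ) ≠ 0 := by exact_mod_cast (Fact.out : p.Prime).ne_zero
  -- z = w + n
  have h := th_gamma Q hQ p α (β + n * α) γ (by rw [hn]; linear_combination hdet) hD (z - n)
    (by simpa using hz)
  have hmod : ((β + n * α : ℤ) : ZMod p) * (γ : ZMod p) = -1 := by
    have h1 : ((((β + n * α) * γ : ℤ)) : ZMod p) = ((α * p - 1 : ℤ) : ZMod p) := by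
      congr 1
      rw [hn]
      linear_combination -hdet
    push_cast at h1 ⊢
    simp only [CharP.cast_eq_zero, mul_zero, zero_sub] at h1
    exact h1
  have hβ : ((β + n * α : ℤ) : ZMod p) ≠ 0 := by
    intro h0
    rw [h0, zero_mul] at hmod
    have : (1 : ZMod p) = 0 := by
      linear_combination hmod
    exact one_ne_zero this
  have hDp : (Q.disc : ZMod p) ≠ 0 := by
    intro h0
    obtain ⟨g', hg'⟩ := hD
    rw [hg'] at hmod
    push_cast at hmod
    rw [h0] at hmod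
    simp only [zero_mul, mul_zero] at hmod
    have : (1 : ZMod p) = 0 := by
      linear_combination hmod
    exact one_ne_zero this
  rw [gs_prime p Q hp _ hβ hDp] at h
  have e1 : ((α : ℂ) * (z - n) + ((β + n * α : ℤ) : ℂ)) = α * z + β := by push_cast; ring
  have hn' : (p : ℂ) = δ + n * γ := by
    have : ((p : ℤ) : ℂ) = ((δ + n * γ : ℤ) : ℂ) := by rw [hn]
    push_cast at this
    exact this
  have e2 : ((γ : ℂ) * (z - n) + (p : ℂ)) = γ * z + δ := by rw [hn']; ring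
  rw [e1, e2] at h
  rw [h]
  have e3 : th Q (z - n) = th Q z := by
    have := th_add_int Q (z - n) n
    rw [sub_add_cancel] at this
    exact this.symm
  rw [e3]
  field_simp

/-- existence of the auxiliary prime -/
theorem exists_prime_aux (γ δ : ℤ) (hγ : γ ≠ 0) (hco : IsCoprime δ γ) :
    ∃ p : ℕ, p.Prime ∧ p ≠ 2 ∧ ∃ n : ℤ, (p : ℤ) = δ + n * γ := by
  have hco' : IsCoprime δ ((γ.natAbs : ℕ) : ℤ) := by
    rcases Int.natAbs_eq γ with h | h
    · rw [← h]; exact hco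
    · rw [show ((γ.natAbs : ℕ) : ℤ) = -γ by omega]
      exact hco.neg_right
  obtain ⟨p, hp1, hp2, hp3⟩ := Nat.forall_exists_prime_gt_and_zmodEq 2
    (Int.natAbs_ne_zero.mpr hγ) hco'
  refine ⟨p, hp2, by omega, ?_⟩
  have h1 := hp3.symm.dvd
  rw [Int.natAbs_dvd] at h1
  obtain ⟨n, hn⟩ := h1
  exact ⟨n, by linarith⟩

/-- **Product of two theta series of the same discriminant**, the second one at `c z`. -/
theorem th_mul_th_aux (Q R : BQ) (hQ : Q.Pos) (hR : R.Pos) (hdisc : Q.disc = R.disc)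
    (c : ℕ) (hc : 0 < c) (α β γ δ : ℤ) (hdet : α * δ - β * γ = 1) (hg : Q.disc * c ∣ γ)
    (z : ℂ) (hz : 0 < z.im) :
    th Q ((α * z + β) / (γ * z + δ)) * th R (c * ((α * z + β) / (γ * z + δ))) =
      (γ * z + δ) ^ 2 * (th Q z * th R (c * z)) := by
  have hcz : 0 < ((c : ℂ) * z).im := by
    rw [show ((c : ℂ) * z) = (((c : ℝ)) : ℂ) * z by push_cast; ring, im_ofReal_mul]
    have : (0 : ℝ) < c := by exact_mod_cast hc
    positivity
  by_cases hγ : γ = 0
  · subst hγ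
    have h1 : α * δ = 1 := by linarith
    have hdd : δ * δ = 1 := by
      rcases Int.eq_one_or_neg_one_of_mul_eq_one' h1 with ⟨h, h'⟩ | ⟨h, h'⟩
      · rw [h']; norm_num
      · rw [h']; norm_num
    have hα : α = δ := by
      have : α * δ * δ = δ := by rw [h1, one_mul]
      rw [mul_assoc, hdd, mul_one] at this
      exact this
    have hδ2 : (δ : ℂ) ^ 2 = 1 := by
      rw [pow_two]; exact_mod_cast hdd
    have hδ0 : (δ : ℂ) ≠ 0 := by
      intro h; rw [h] at hδ2; norm_num at hδ2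
    have e1 : ((α : ℂ) * z + β) / (((0 : ℤ) : ℂ) * z + δ) = z + ((δ * β : ℤ) : ℂ) := by
      rw [hα]
      push_cast
      rw [zero_mul, zero_add]
      field_simp
      linear_combination (-β : ℂ) * hδ2
    have e2 : (c : ℂ) * (z + ((δ * β : ℤ) : ℂ)) = c * z + ((c * (δ * β) : ℤ) : ℂ) := by
      push_cast; ring
    rw [e1, e2, th_add_int, th_add_int]
    push_cast
    rw [zero_mul, zero_add, hδ2, one_mul]
  · have hco : IsCoprime δ γ := ⟨α, -β, by linarith⟩
    obtain ⟨p, hp, hp2, n, hn⟩ := exists_prime_aux γ δ hγ hco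
    have : Fact p.Prime := ⟨hp⟩
    have hD1 : Q.disc ∣ γ := (dvd_mul_right _ _).trans hg
    have h1 := th_prime Q hQ α β γ δ hdet hD1 p hp2 n hn z hz
    obtain ⟨g', hg'⟩ := hg
    have hc0 : (c : ℂ) ≠ 0 := by exact_mod_cast hc.ne'
    have h2 := th_prime R hR α (c * β) (R.disc * g') δ (by
        rw [← hdet, hg', hdisc]; ring) (dvd_mul_right _ _) p hp2 (n * c) (by
        rw [hn, hg', hdisc]; ring) (c * z) hcz
    have hγ' : (γ : ℂ) = (R.disc * g') * c := by
      rw [hg', hdisc]; push_cast; ring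
    have e3 : ((α : ℂ) * (c * z) + ((c * β : ℤ) : ℂ)) / (((R.disc * g' : ℤ) : ℂ) * (c * z) + δ) =
        c * ((α * z + β) / (γ * z + δ)) := by
      rw [hγ']
      push_cast
      rw [← mul_div_assoc]
      congr 1 <;> ring
    have e4 : (((R.disc * g' : ℤ) : ℂ) * (c * z) + δ) = γ * z + δ := by
      rw [hγ']
      push_cast
      ring
    rw [e3, e4] at h2
    have hDp : ((Q.disc : ℤ) : ZMod p) ≠ 0 := by
      intro h0
      rw [ZMod.intCast_zmod_eq_zero_iff_dvd] at h0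
      have h5 : (p : ℤ) ∣ γ := h0.trans hD1
      have h6 : (p : ℤ) ∣ δ := by
        have : δ = p - n * γ := by linarith
        rw [this]
        exact dvd_sub (dvd_refl _) (h5.mul_left _)
      have h7 := hco.isUnit_of_dvd' h6 h5
      rw [Int.isUnit_iff] at h7
      have := hp.two_le
      omega
    rw [h1, h2, ← hdisc]
    have h8 := chi_sq_eq_one p hDp
    linear_combination (γ * z + δ) ^ 2 * (th Q z * th R (c * z)) * h8

end Fermat.Agent.LTF.Theta
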