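import Mathlib
import Fermat.Agent.ClassL.Compare

/-!
Primes of degree one which are outside the kernels of a character of order two and a
character of order three of the ideal class group.
-/

set_option autoImplicit false
set_option linter.unusedSectionVars false

open Finset NumberField Module nonZeroDivisors Filter Topology

open scoped Classical

namespace Fermat.Agent.LTF.Theta

open Fermat.Agent.ClassL Fermat.Agent.FrobDensity

variable {K : Type*} [Field K] [NumberField K]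

theorem exists_prime_two_chars {ε : ClassGroup (𝓞 K) →* Multiplicative (ZMod 2)} (hε : ε ≠ 1)
    {χ : ClassGroup (𝓞 K) →* Multiplicative (ZMod 3)} (hχ : χ ≠ 1) (S : Finset ℕ) :
    ∃ (P : (Ideal (𝓞 K))⁰) (l : ℕ), l.Prime ∧ l ∉ S ∧ Ideal.absNorm (P : Ideal (𝓞 K)) = l ∧
      ε (ClassGroup.mk0 P) ≠ 1 ∧ χ (ClassGroup.mk0 P) ≠ 1 := by
  have : Fact (Nat.Prime 3) := ⟨Nat.prime_three⟩
  by_contra hcon
  push Not at hcon
  obtain ⟨B₁, hB₁⟩ := exists_kerCount_bound hε
  obtain ⟨B₃, hB₃⟩ := exists_kerCount_bound hχ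
  obtain ⟨B₂, hB₂⟩ := exists_bound K
  set D : ℝ := ∑ q ∈ S, (idealCount K q : ℝ) with hD
  have hlog : Tendsto (fun s : ℝ => Real.log (1 / (s - 1))) (𝓝[>] 1) atTop := by
    have h1 : Tendsto (fun s : ℝ => s - 1) (𝓝[>] 1) (𝓝[>] 0) := by
      refine tendsto_nhdsWithin_iff.mpr ⟨?_, ?_⟩
      · have : Tendsto (fun s : ℝ => s - 1) (𝓝 1) (𝓝 (1 - 1)) := (continuous_sub_right 1).tendsto 1
        rw [sub_self] at this
        exact this.mono_left nhdsWithin_le_nhds
      · filter_upwards [self_mem_nhdsWithin] with s hs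
        have hs' : (1 : ℝ) < s := hs
        exact sub_pos.mpr hs'
    have h2 := (Real.tendsto_log_atTop.comp tendsto_inv_nhdsGT_zero).comp h1
    simpa [Function.comp_def, one_div] using h2
  have hev : ∀ᶠ s in 𝓝[>] (1 : ℝ), 6 * (B₁ / 2 + B₃ / 3 + D + B₂) < Real.log (1 / (s - 1)) :=
    hlog.eventually_gt_atTop _
  obtain ⟨s, h1, h2, h3, h4, hs⟩ :=
    (hB₁.and (hB₂.and (hB₃.and (hev.and self_mem_nhdsWithin)))).exists
  have hs' : (1 : ℝ) < s := hs
  have hfin : Set.Finite {q : Nat.Primes | (q : ℕ) ∈ S} :=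
    Set.Finite.preimage (Subtype.val_injective.injOn) S.finite_toSet
  have hsumS : Summable fun q : Nat.Primes =>
      (if (q : ℕ) ∈ S then (idealCount K q : ℝ) else 0) := by
    refine summable_of_ne_finset_zero (s := hfin.toFinset) fun q hq => ?_
    rw [Set.Finite.mem_toFinset] at hq
    exact if_neg hq
  have hsumS_le : ∑' q : Nat.Primes, (if (q : ℕ) ∈ S then (idealCount K q : ℝ) else 0) ≤ D := by
    refine hsumS.tsum_le_of_sum_le fun F => ?_
    rw [← sum_filter]
    rw [← sum_image_primes (F.filter (fun q : Nat.Primes => (q : ℕ) ∈ S))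
      (fun n => (idealCount K n : ℝ))]
    refine sum_le_sum_of_subset_of_nonneg ?_ fun _ _ _ => by positivity
    intro n hn
    rw [mem_image] at hn
    obtain ⟨q, hq, rfl⟩ := hn
    exact (mem_filter.mp hq).2
  have hcount : ∀ q : Nat.Primes, (q : ℕ) ∉ S →
      nonkerCount ε (q : ℕ) ≤ kerCount χ (q : ℕ) := by
    intro q hq
    rw [nonkerCount, kerCount]
    have := finite_norm_eq (K := K) (q : ℕ)
    have : Finite {I : (Ideal (𝓞 K))⁰ // Ideal.absNorm (I : Ideal (𝓞 K)) = (q : ℕ) ∧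
        χ (ClassGroup.mk0 I) = 1} :=
      Finite.of_injective (fun I => (⟨I.1, I.2.1⟩ :
        {I : (Ideal (𝓞 K))⁰ // Ideal.absNorm (I : Ideal (𝓞 K)) = (q : ℕ)}))
        (fun I J h => Subtype.ext (congrArg (fun x => x.1) h))
    refine Nat.card_le_card_of_injective
      (fun I : {I : (Ideal (𝓞 K))⁰ // Ideal.absNorm (I : Ideal (𝓞 K)) = (q : ℕ) ∧
        ε (ClassGroup.mk0 I) ≠ 1} => (⟨I.1, I.2.1, hcon I.1 q q.2 hq I.2.1 I.2.2⟩ :
        {I : (Ideal (𝓞 K))⁰ // Ideal.absNorm (I : Ideal (𝓞 K)) = (q : ℕ) ∧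
        χ (ClassGroup.mk0 I) = 1})) (fun I J h => Subtype.ext (congrArg (fun x => x.1) h))
  have hterm : ∀ q : Nat.Primes, zterm K s q ≤
      ((kerCount ε (q : ℕ) : ℝ) * (q : ℝ) ^ (-s) + (kerCount χ (q : ℕ) : ℝ) * (q : ℝ) ^ (-s))
        + (if (q : ℕ) ∈ S then (idealCount K q : ℝ) else 0) := by
    intro q
    have hpos : (0 : ℝ) ≤ (q : ℝ) ^ (-s) := by positivity
    by_cases hq : (q : ℕ) ∈ S
    · rw [if_pos hq, zterm]
      have h7 : (q : ℝ) ^ (-s) ≤ 1 := Real.rpow_le_one_of_one_le_of_nonpos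
        (by exact_mod_cast q.2.one_lt.le) (by linarith)
      have h8 : (idealCount K q : ℝ) * (q : ℝ) ^ (-s) ≤ idealCount K q * 1 := by gcongr
      have h9 : 0 ≤ (kerCount ε (q : ℕ) : ℝ) * (q : ℝ) ^ (-s) := by positivity
      have h10 : 0 ≤ (kerCount χ (q : ℕ) : ℝ) * (q : ℝ) ^ (-s) := by positivity
      linarith
    · rw [if_neg hq, add_zero, zterm, ← add_mul]
      refine mul_le_mul_of_nonneg_right ?_ hpos
      rw [idealCount_eq_add ε q.2.ne_zero]
      push_cast
      have := hcount q hq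
      have : (nonkerCount ε (q : ℕ) : ℝ) ≤ kerCount χ (q : ℕ) := by exact_mod_cast this
      linarith
  have hsum := (summable_zterm_primes (K := K) hs').tsum_le_tsum hterm
    (((summable_kerCount ε hs').add (summable_kerCount χ hs')).add hsumS)
  rw [((summable_kerCount ε hs').add (summable_kerCount χ hs')).tsum_add hsumS,
    (summable_kerCount ε hs').tsum_add (summable_kerCount χ hs')] at hsum
  have h5 := abs_le.mp h2
  push_cast at h1 h3
  linarith [h5.1, h5.2]

end Fermat.Agent.LTF.Theta
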