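import Mathlib

/-!
# Counting characters of a Hecke ring by reduction modulo a prime

`T` a reduced commutative ring, finite and free over `ℤ`; `ψ` a ring homomorphism from the ring of
all algebraic integers to a field `k` of positive characteristic. If `k ⊗ T` surjects onto a local
`k`-algebra `B` (with residual character `φ : T → k`) then there are at least `dim_k B` characters
`x : T → Z̄` with `ψ ∘ x = φ`.
-/

set_option autoImplicit false
set_option linter.unusedSectionVars false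

open IsLocalRing TensorProduct

namespace Fermat.Agent.LTF.CountChar

section Field

universe u

attribute [local instance] Ideal.Quotient.field in
theorem formallyEtale_of_isReduced (K A : Type u) [Field K] [CharZero K] [CommRing A] [Algebra K A]
    [Module.Finite K A] [IsReduced A] : Algebra.FormallyEtale K A := by
  have h1 : IsArtinianRing A := .of_finite K _
  have h2 (I : MaximalSpectrum A) : Algebra.FormallyEtale K (A ⧸ I.asIdeal) := by
    rw [Algebra.FormallyEtale.iff_isSeparable]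
    infer_instance
  exact .of_equiv ((IsArtinianRing.equivPi A).restrictScalars K).symm

end Field

section Etale

variable (T : Type) [CommRing T] [Module.Finite ℤ T] [Module.Free ℤ T]

lemma exists_smul_eq (z : ℚ ⊗[ℤ] T) : ∃ n : ℤ, n ≠ 0 ∧ ∃ t : T, (n : ℚ) • z = 1 ⊗ₜ[ℤ] t := by
  induction z using TensorProduct.induction_on with
  | zero => exact ⟨1, one_ne_zero, 0, by simp⟩
  | tmul q t =>
    refine ⟨q.den, by exact_mod_cast q.den_ne_zero, q.num • t, ?_⟩
    rw [TensorProduct.smul_tmul', ← TensorProduct.smul_tmul]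
    congr 1
    rw [smul_eq_mul, zsmul_eq_mul, mul_one, Int.cast_natCast, mul_comm, Rat.mul_den_eq_num]
  | add x y hx hy =>
    obtain ⟨n, hn, t, ht⟩ := hx
    obtain ⟨m, hm, u, hu⟩ := hy
    refine ⟨n * m, mul_ne_zero hn hm, m • t + n • u, ?_⟩
    rw [smul_add, Int.cast_mul, mul_comm (n : ℚ), mul_smul, ht, mul_comm (m : ℚ), mul_smul, hu,
      TensorProduct.tmul_add, TensorProduct.tmul_smul, TensorProduct.tmul_smul,
      Int.cast_smul_eq_zsmul, Int.cast_smul_eq_zsmul]

theorem isReduced_rat [IsReduced T] : IsReduced (ℚ ⊗[ℤ] T) := by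
  refine ⟨fun z hz => ?_⟩
  obtain ⟨k, hk⟩ := hz
  obtain ⟨n, hn, t, ht⟩ := exists_smul_eq T z
  have hinj : Function.Injective (Algebra.TensorProduct.includeRight : T →ₐ[ℤ] ℚ ⊗[ℤ] T) :=
    Algebra.TensorProduct.includeRight_injective (algebraMap ℤ ℚ).injective_int
  have h1 : (Algebra.TensorProduct.includeRight : T →ₐ[ℤ] ℚ ⊗[ℤ] T) (t ^ k) = 0 := by
    rw [map_pow, Algebra.TensorProduct.includeRight_apply, ← ht, smul_pow, hk, smul_zero]
  have h2 : t ^ k = 0 := hinj (h1.trans (map_zero _).symm)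
  have h3 : t = 0 := IsReduced.eq_zero t ⟨k, h2⟩
  rw [h3, tmul_zero] at ht
  exact (smul_eq_zero.mp ht).resolve_left (by exact_mod_cast hn)

theorem formallyEtale_rat [IsReduced T] : Algebra.FormallyEtale ℚ (ℚ ⊗[ℤ] T) := by
  have h0 : IsReduced (ℚ ⊗[ℤ] T) := isReduced_rat T
  exact formallyEtale_of_isReduced ℚ (ℚ ⊗[ℤ] T)

theorem formallyEtale_complex [IsReduced T] : Algebra.FormallyEtale ℂ (ℂ ⊗[ℤ] T) := by
  have h0 := formallyEtale_rat T
  exact .of_equiv (Algebra.TensorProduct.cancelBaseChange ℤ ℚ ℂ ℂ T)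

variable {T}

/-- the `ℂ`-points of `T` separate `ℂ ⊗ T`. -/
theorem eq_zero_of_points [IsReduced T] (z : ℂ ⊗[ℤ] T)
    (h : ∀ x : T →+* ℂ, Algebra.TensorProduct.lift (Algebra.ofId ℂ ℂ) x.toIntAlgHom
      (fun _ _ => Commute.all _ _) z = 0) : z = 0 := by
  have h0 := formallyEtale_complex T
  set e := Algebra.FormallyEtale.equivPiOfIsSepClosed ℂ (ℂ ⊗[ℤ] T) with he
  apply e.injective
  rw [map_zero]
  funext P
  set g : ℂ ⊗[ℤ] T →ₐ[ℂ] ℂ := (Pi.evalAlgHom ℂ (fun _ => ℂ) P).comp e.toAlgHom with hg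
  have h1 : g = Algebra.TensorProduct.lift (Algebra.ofId ℂ ℂ)
      ((g : ℂ ⊗[ℤ] T →+* ℂ).comp
        (Algebra.TensorProduct.includeRight : T →ₐ[ℤ] ℂ ⊗[ℤ] T).toRingHom).toIntAlgHom
      (fun _ _ => Commute.all _ _) := by
    apply Algebra.TensorProduct.ext
    · ext
    · apply AlgHom.ext
      intro t
      simp
  have h2 := h ((g : ℂ ⊗[ℤ] T →+* ℂ).comp
        (Algebra.TensorProduct.includeRight : T →ₐ[ℤ] ℂ ⊗[ℤ] T).toRingHom)
  rw [← h1] at h2
  exact h2

theorem finite_hom : Finite (T →+* ℂ) := by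
  have h1 : Finite ((ℚ ⊗[ℤ] T) →ₐ[ℚ] ℂ) := @Fintype.finite _ (minpoly.AlgHom.fintype _ _ _)
  refine Finite.of_injective (β := (ℚ ⊗[ℤ] T) →ₐ[ℚ] ℂ)
    (fun x : T →+* ℂ => Algebra.TensorProduct.lift (Algebra.ofId ℚ ℂ) x.toIntAlgHom
      (fun _ _ => Commute.all _ _)) ?_
  intro x y hxy
  ext t
  have := DFunLike.congr_fun hxy (1 ⊗ₜ t)
  simpa using this

end Etale

section Place

universe u v

/-- two extensions of a field embed in a common extension. -/
theorem exists_amalgam (κ₀ : Type u) (κ k : Type u) [Field κ₀] [Field κ] [Field k] (f : κ₀ →+* κ)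
    (g : κ₀ →+* k) :
    ∃ (Ω : Type u) (_ : Field Ω) (a : κ →+* Ω) (b : k →+* Ω), a.comp f = b.comp g := by
  let _ := f.toAlgebra
  let _ := g.toAlgebra
  obtain ⟨M, hM⟩ := Ideal.exists_maximal (κ ⊗[κ₀] k)
  refine ⟨(κ ⊗[κ₀] k) ⧸ M, Ideal.Quotient.field M,
    (Ideal.Quotient.mk M).comp Algebra.TensorProduct.includeLeftRingHom,
    (Ideal.Quotient.mk M).comp
      (Algebra.TensorProduct.includeRight : k →ₐ[κ₀] κ ⊗[κ₀] k).toRingHom, ?_⟩
  ext x
  change Ideal.Quotient.mk M ((algebraMap κ₀ κ x) ⊗ₜ[κ₀] (1 : k)) =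
    Ideal.Quotient.mk M ((1 : κ) ⊗ₜ[κ₀] (algebraMap κ₀ k x))
  rw [Algebra.algebraMap_eq_smul_one, Algebra.algebraMap_eq_smul_one, TensorProduct.smul_tmul]

/-- a valuation ring of `ℂ` centred at the kernel of `ψ`, and a common extension of its residue
field and of `k`. -/
theorem exists_place {k : Type} [Field k] {p : ℕ} (hp : p.Prime) (hpk : (p : k) = 0)
    (ψ : integralClosure ℤ ℂ →+* k) :
    ∃ (O : ValuationSubring ℂ) (Ω : Type) (_ : Field Ω) (a : O →+* Ω) (b : k →+* Ω)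
      (h : ∀ z : integralClosure ℤ ℂ, (z : ℂ) ∈ O), ∀ z : integralClosure ℤ ℂ,
        a ⟨z, h z⟩ = b (ψ z) := by
  obtain ⟨O, h1, h2⟩ := Ideal.image_subset_nonunits_valuationSubring
    (A := (integralClosure ℤ ℂ).toSubring) (RingHom.ker ψ) (RingHom.ker_ne_top ψ)
  have h : ∀ z : integralClosure ℤ ℂ, (z : ℂ) ∈ O := fun z => h1 z.2
  have hprime : (RingHom.ker ψ).IsPrime := RingHom.ker_isPrime ψ
  have hmax : (RingHom.ker ψ).IsMaximal := by
    refine Ideal.isMaximal_of_isIntegral_of_isMaximal_comap (R := ℤ) _ ?_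
    have hne : (RingHom.ker ψ).comap (algebraMap ℤ (integralClosure ℤ ℂ)) ≠ ⊥ := by
      intro hbot
      have : (p : ℤ) ∈ (RingHom.ker ψ).comap (algebraMap ℤ (integralClosure ℤ ℂ)) := by
        rw [Ideal.mem_comap, RingHom.mem_ker, algebraMap_int_eq, eq_intCast, Int.cast_natCast,
          map_natCast, hpk]
      rw [hbot, Ideal.mem_bot] at this
      exact hp.ne_zero (by exact_mod_cast this)
    exact Ideal.IsPrime.isMaximal (Ideal.IsPrime.comap _) hne
  let _ := Ideal.Quotient.field (RingHom.ker ψ)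
  let incl : integralClosure ℤ ℂ →+* O :=
    { toFun := fun z => ⟨z, h z⟩
      map_one' := rfl
      map_mul' := fun _ _ => rfl
      map_zero' := rfl
      map_add' := fun _ _ => rfl }
  let f : (integralClosure ℤ ℂ) ⧸ RingHom.ker ψ →+* ResidueField O :=
    Ideal.Quotient.lift _ ((residue O).comp incl) (fun z hz => by
      rw [RingHom.comp_apply, residue_eq_zero_iff, mem_maximalIdeal, mem_nonunits_iff]
      have h3 : (z : ℂ) ∈ (O.nonunits : Set ℂ) := h2 ⟨z, hz, rfl⟩
      have h4 := O.image_maximalIdeal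
      rw [← h4] at h3
      obtain ⟨y, hy, hyz⟩ := h3
      have h5 : y = incl z := Subtype.ext hyz
      rw [← h5]
      exact (mem_nonunits_iff).mp ((mem_maximalIdeal _).mp hy))
  let g : (integralClosure ℤ ℂ) ⧸ RingHom.ker ψ →+* k :=
    Ideal.Quotient.lift _ ψ (fun z hz => hz)
  obtain ⟨Ω, iΩ, a, b, hab⟩ := exists_amalgam _ (ResidueField O) k f g
  refine ⟨O, Ω, iΩ, a.comp (residue O), b, h, fun z => ?_⟩
  exact RingHom.congr_fun hab (Ideal.Quotient.mk _ z)

end Place

section Main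

universe v

theorem exists_lift {O T Q : Type*} [CommRing O] [CommRing T] [CommRing Q] (g : O →+* Q)
    (h : T →+* Q) : ∃ F : O ⊗[ℤ] T →+* Q, ∀ y z, F (y ⊗ₜ[ℤ] z) = g y * h z :=
  ⟨(Algebra.TensorProduct.lift g.toIntAlgHom h.toIntAlgHom (fun _ _ => Commute.all _ _) :
    O ⊗[ℤ] T →ₐ[ℤ] Q).toRingHom, fun _ _ => rfl⟩

open scoped Classical in
/-- **Counting characters by reduction.** -/
theorem card_lifts {T : Type} [CommRing T] [Module.Finite ℤ T] [Module.Free ℤ T] [IsReduced T]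
    {k : Type} [Field k] {p : ℕ} (hp : p.Prime) (hpk : (p : k) = 0)
    (ψ : integralClosure ℤ ℂ →+* k) {B : Type v} [CommRing B] [IsLocalRing B] [Algebra k B]
    [Module.Finite k B] (f : T →+* B) (hf : Submodule.span k (Set.range f) = ⊤) (φ : T →+* k)
    (hφ : ∀ t, f t - algebraMap k B (φ t) ∈ maximalIdeal B) :
    Finite {x : T →+* integralClosure ℤ ℂ // ∀ t, ψ (x t) = φ t} ∧
    Module.finrank k B ≤ Nat.card {x : T →+* integralClosure ℤ ℂ // ∀ t, ψ (x t) = φ t} := by
  have hfinC : Finite (T →+* ℂ) := finite_hom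
  have hfinZ : Finite (T →+* integralClosure ℤ ℂ) :=
    Finite.of_injective (fun x : T →+* integralClosure ℤ ℂ =>
      ((integralClosure ℤ ℂ).subtype : integralClosure ℤ ℂ →+* ℂ).comp x) (fun x y h => by
        ext t
        exact RingHom.congr_fun h t)
  refine ⟨inferInstance, ?_⟩
  by_contra hlt
  rw [not_le] at hlt
  obtain ⟨O, Ω, iΩ, a, b, hZO, hab⟩ := exists_place hp hpk ψ
  -- a basis of `B` in the image of `T`
  let β := Module.Basis.ofSpan hf.ge
  have hβ : ∀ i, ∃ t : T, f t = β i := fun i => by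
    have : β i ∈ Set.range f := Module.Basis.ofSpan_subset hf.ge ⟨i, rfl⟩
    exact this
  choose t ht using hβ
  have hfinι := Module.Finite.finite_basis β
  let _ := Fintype.ofFinite ((linearIndepOn_empty k id).extend (Set.empty_subset (Set.range f)))
  let S := {x : T →+* integralClosure ℤ ℂ // ∀ t, ψ (x t) = φ t}
  let _ : Fintype S := Fintype.ofFinite S
  let S' := {x : T →+* integralClosure ℤ ℂ // ¬ ∀ t, ψ (x t) = φ t}
  let _ : Fintype S' := Fintype.ofFinite S'
  -- a linear relation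
  have hcard : Module.finrank ℂ (S → ℂ) <
      Module.finrank ℂ ((linearIndepOn_empty k id).extend (Set.empty_subset (Set.range f)) → ℂ) := by
    rw [Module.finrank_fintype_fun_eq_card, Module.finrank_fintype_fun_eq_card,
      ← Module.finrank_eq_card_basis β, ← Nat.card_eq_fintype_card]
    exact hlt
  have hker := LinearMap.ker_ne_bot_of_finrank_lt
    (f := Matrix.mulVecLin (Matrix.of fun (x : S) i => ((x.1 (t i) : integralClosure ℤ ℂ) : ℂ))) hcard
  obtain ⟨c, hc, hc0⟩ := Submodule.exists_mem_ne_zero_of_ne_bot hker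
  have hrel : ∀ x : S, ∑ i, ((x.1 (t i) : integralClosure ℤ ℂ) : ℂ) * c i = 0 := fun x =>
    congrFun hc x
  obtain ⟨i₁, hi₁⟩ : ∃ i, c i ≠ 0 := by
    by_contra h
    push Not at h
    exact hc0 (funext h)
  have hne : Nonempty ((linearIndepOn_empty k id).extend (Set.empty_subset (Set.range f))) := ⟨i₁⟩
  obtain ⟨i₀, hi₀⟩ := Finite.exists_max (fun i => O.valuation (c i))
  have hci₀ : c i₀ ≠ 0 := by
    intro h
    have h1 := hi₀ i₁
    rw [h, map_zero, le_zero_iff, map_eq_zero] at h1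
    exact hi₁ h1
  have hc' : ∀ i, c i / c i₀ ∈ O := fun i => by
    rw [← ValuationSubring.valuation_le_one_iff, map_div₀]
    exact div_le_one_of_le₀ (hi₀ i) zero_le
  -- the two elements
  set s : O ⊗[ℤ] T := ∑ i, (⟨c i / c i₀, hc' i⟩ : O) ⊗ₜ[ℤ] t i with hs
  have hu : ∀ x : S', ∃ u : T, ψ (x.1 u) ≠ φ u := fun x => by
    have := x.2
    push Not at this
    exact this
  choose u hu using hu
  set w : O ⊗[ℤ] T := ∏ x : S', ((1 : O) ⊗ₜ[ℤ] u x -
    (⟨((x.1 (u x) : integralClosure ℤ ℂ) : ℂ), hZO _⟩ : O) ⊗ₜ[ℤ] (1 : T)) with hw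
  -- the product vanishes
  let j : O ⊗[ℤ] T →ₐ[ℤ] ℂ ⊗[ℤ] T :=
    Algebra.TensorProduct.map (O.subtype : O →+* ℂ).toIntAlgHom (AlgHom.id ℤ T)
  have hj : Function.Injective j := by
    have h1 := Module.Flat.rTensor_preserves_injective_linearMap (M := T)
      ((O.subtype : O →+* ℂ).toIntAlgHom.toLinearMap) Subtype.val_injective
    exact h1
  have hsw : s * w = 0 := by
    apply hj
    rw [map_zero]
    apply eq_zero_of_points
    intro x
    have hint : ∀ y : T, x y ∈ integralClosure ℤ ℂ := fun y =>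
      (Algebra.IsIntegral.isIntegral (R := ℤ) y).map x.toIntAlgHom
    let x' : T →+* integralClosure ℤ ℂ := RingHom.codRestrict x (integralClosure ℤ ℂ) hint
    have hx' : ∀ y, ((x' y : integralClosure ℤ ℂ) : ℂ) = x y := fun y => rfl
    rw [map_mul, map_mul]
    by_cases hx : ∀ t, ψ (x' t) = φ t
    · have h1 := hrel ⟨x', hx⟩
      convert zero_mul _
      rw [hs, map_sum, map_sum]
      have h2 : ∀ i, (Algebra.TensorProduct.lift (Algebra.ofId ℂ ℂ) x.toIntAlgHom
          (fun _ _ => Commute.all _ _)) (j ((⟨c i / c i₀, hc' i⟩ : O) ⊗ₜ[ℤ] t i)) =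
          (c i₀)⁻¹ * (x (t i) * c i) := by
        intro i
        rw [show j ((⟨c i / c i₀, hc' i⟩ : O) ⊗ₜ[ℤ] t i) = (c i / c i₀) ⊗ₜ[ℤ] t i from rfl,
          Algebra.TensorProduct.lift_tmul]
        change (c i / c i₀) * x (t i) = _
        ring
      rw [Finset.sum_congr rfl (fun i _ => h2 i), ← Finset.mul_sum]
      have h3 : ∑ i, x (t i) * c i = 0 := h1
      rw [h3, mul_zero]
    · convert mul_zero _
      rw [hw, map_prod, map_prod]
      refine Finset.prod_eq_zero (Finset.mem_univ (⟨x', hx⟩ : S')) ?_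
      rw [map_sub, map_sub]
      rw [show j ((1 : O) ⊗ₜ[ℤ] u ⟨x', hx⟩) = (1 : ℂ) ⊗ₜ[ℤ] u ⟨x', hx⟩ from rfl,
        show j ((⟨((x' (u ⟨x', hx⟩) : integralClosure ℤ ℂ) : ℂ), hZO _⟩ : O) ⊗ₜ[ℤ] (1 : T)) =
          (x (u ⟨x', hx⟩)) ⊗ₜ[ℤ] (1 : T) from rfl,
        Algebra.TensorProduct.lift_tmul, Algebra.TensorProduct.lift_tmul]
      change (1 : ℂ) * x (u ⟨x', hx⟩) - x (u ⟨x', hx⟩) * x 1 = 0
      rw [map_one]; ring
  -- reduction
  let _ : Algebra k Ω := b.toAlgebra
  obtain ⟨F, hF0⟩ := exists_lift (O := O) (T := T) (Q := Ω ⊗[k] B)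
    ((algebraMap Ω (Ω ⊗[k] B)).comp a)
    ((Algebra.TensorProduct.includeRight : B →ₐ[k] Ω ⊗[k] B).toRingHom.comp f)
  have hF : ∀ (y : O) (z : T), F (y ⊗ₜ[ℤ] z) = (a y) ⊗ₜ[k] (f z) := by
    intro y z
    rw [hF0]
    change ((a y) ⊗ₜ[k] (1 : B)) * ((1 : Ω) ⊗ₜ[k] (f z)) = _
    rw [Algebra.TensorProduct.tmul_mul_tmul, mul_one, one_mul]
  have hFs : F s ≠ 0 := by
    intro h
    rw [hs, map_sum] at h
    let γ := Algebra.TensorProduct.basis Ω β
    have h1 : ∑ i, (a ⟨c i / c i₀, hc' i⟩) • γ i = 0 := by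
      rw [← h]
      refine Finset.sum_congr rfl fun i _ => ?_
      rw [hF, ht, Algebra.TensorProduct.basis_apply, TensorProduct.smul_tmul', smul_eq_mul, mul_one]
    have h2 := (Fintype.linearIndependent_iff.mp γ.linearIndependent) _ h1 i₀
    have h3 : (⟨c i₀ / c i₀, hc' i₀⟩ : O) = 1 := Subtype.ext (div_self hci₀)
    rw [h3, map_one] at h2
    exact one_ne_zero h2
  have hFw : IsUnit (F w) := by
    rw [hw, map_prod]
    refine IsUnit.prod_univ_iff.mpr fun x => ?_
    rw [map_sub, hF, hF, map_one, map_one]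
    have h1 : a (⟨((x.1 (u x) : integralClosure ℤ ℂ) : ℂ), hZO _⟩ : O) =
        algebraMap k Ω (ψ (x.1 (u x))) := hab _
    rw [h1]
    have h2 : (algebraMap k Ω (ψ (x.1 (u x)))) ⊗ₜ[k] (1 : B) =
        (1 : Ω) ⊗ₜ[k] (algebraMap k B (ψ (x.1 (u x)))) := by
      rw [Algebra.algebraMap_eq_smul_one, Algebra.algebraMap_eq_smul_one, TensorProduct.smul_tmul]
    rw [h2, ← TensorProduct.tmul_sub]
    have h3 : IsUnit (f (u x) - algebraMap k B (ψ (x.1 (u x)))) := by
      by_contra h4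
      have h5 : f (u x) - algebraMap k B (ψ (x.1 (u x))) ∈ maximalIdeal B :=
        (mem_maximalIdeal _).mpr h4
      have h6 := (maximalIdeal B).sub_mem h5 (hφ (u x))
      have h7 : f (u x) - algebraMap k B (ψ (x.1 (u x))) - (f (u x) - algebraMap k B (φ (u x))) =
          algebraMap k B (φ (u x) - ψ (x.1 (u x))) := by rw [map_sub]; ring
      rw [h7] at h6
      refine (mem_maximalIdeal _).mp h6 ?_
      refine IsUnit.map _ (isUnit_iff_ne_zero.mpr ?_)
      exact sub_ne_zero.mpr (hu x).symm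
    exact h3.map (Algebra.TensorProduct.includeRight : B →ₐ[k] Ω ⊗[k] B)
  apply hFs
  have h8 : F s * F w = 0 := by rw [← map_mul, hsw, map_zero]
  exact (hFw.mul_left_eq_zero).mp h8

end Main

end Fermat.Agent.LTF.CountChar
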