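import Mathlib

/-!
# The Hecke elements `ψ(λ)[λ] + ψ(λ)⁻¹[λ]⁻¹` generate the group algebra (helper93)
-/

set_option autoImplicit false

namespace Fermat.Agent.LTF.Theta

open MonoidAlgebra

section elt

variable {κ A : Type*} [Field κ] [CharP κ 2] [CommRing A] [Algebra κ A]

/-- If `h` is of `2`-power order and `φ + φ⁻¹ = 1` in characteristic `2`, every subalgebra
containing `φ h + φ⁻¹ h⁻¹` contains `h`. -/
theorem mem_of_add_inv_mem (A₀ : Subalgebra κ A) (a : ℕ) : ∀ (h hi : A) (_ : h * hi = 1)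
    (_ : h ^ (2 ^ a) = 1) (φ φi : κ) (_ : φ * φi = 1) (_ : φ + φi = 1)
    (_ : algebraMap κ A φ * h + algebraMap κ A φi * hi ∈ A₀), h ∈ A₀ := by
  induction a with
  | zero =>
    intro h hi _ ha φ φi _ _ _
    rw [pow_zero, pow_one] at ha
    rw [ha]
    exact A₀.one_mem
  | succ a ih =>
    intro h hi hhi ha φ φi hφ hφ' ht
    rcases subsingleton_or_nontrivial A with hA | hA
    · rw [Subsingleton.elim h 1]; exact A₀.one_mem
    have hchar : CharP A 2 := charP_of_injective_algebraMap (algebraMap κ A).injective 2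
    have h1 : (algebraMap κ A φ * h + algebraMap κ A φi * hi) ^ 2 =
        algebraMap κ A (φ ^ 2) * h ^ 2 + algebraMap κ A (φi ^ 2) * hi ^ 2 := by
      rw [add_pow_char (p := 2)]
      simp [mul_pow]
    have ha' : (h ^ 2) ^ (2 ^ a) = 1 := by
      rw [← pow_mul, ← ha]; congr 1; rw [pow_succ]; ring
    have hφ2 : φ ^ 2 + φi ^ 2 = 1 := by
      rw [← add_pow_char (p := 2), hφ', one_pow]
    have hsq : h ^ 2 ∈ A₀ := ih (h ^ 2) (hi ^ 2) (by rw [← mul_pow, hhi, one_pow]) ha' (φ ^ 2)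
      (φi ^ 2) (by rw [← mul_pow, hφ, one_pow]) hφ2 (by rw [← h1]; exact A₀.pow_mem ht 2)
    have hpos : 0 < 2 ^ a := by positivity
    have hisq : hi ^ 2 ∈ A₀ := by
      have e1 : hi ^ 2 = (h ^ 2) ^ (2 ^ a - 1) := by
        have e2 : (h ^ 2) ^ (2 ^ a - 1) * h ^ 2 = 1 := by
          rw [← pow_succ, Nat.sub_add_cancel hpos, ha']
        have e3 : h ^ 2 * hi ^ 2 = 1 := by rw [← mul_pow, hhi, one_pow]
        calc hi ^ 2 = ((h ^ 2) ^ (2 ^ a - 1) * h ^ 2) * hi ^ 2 := by rw [e2, one_mul]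
          _ = (h ^ 2) ^ (2 ^ a - 1) * (h ^ 2 * hi ^ 2) := by ring
          _ = _ := by rw [e3, mul_one]
      rw [e1]
      exact A₀.pow_mem hsq _
    set u : A := algebraMap κ A φ + algebraMap κ A φi * hi ^ 2 with hu
    have humem : u ∈ A₀ := A₀.add_mem (A₀.algebraMap_mem _) (A₀.mul_mem (A₀.algebraMap_mem _) hisq)
    have hu1 : u ^ (2 ^ a) = 1 := by
      rw [hu, add_pow_char_pow (p := 2), mul_pow, ← map_pow, ← map_pow]
      have e4 : (hi ^ 2) ^ 2 ^ a = 1 := by
        have e5 : (h ^ 2) ^ 2 ^ a * (hi ^ 2) ^ 2 ^ a = 1 := by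
          rw [← mul_pow, ← mul_pow, hhi, one_pow, one_pow]
        rwa [ha', one_mul] at e5
      rw [e4, mul_one, ← map_add, ← add_pow_char_pow (p := 2), hφ', one_pow, map_one]
    have hhu : h * u = algebraMap κ A φ * h + algebraMap κ A φi * hi := by
      rw [hu]
      linear_combination (algebraMap κ A φi * hi) * hhi
    have e6 : h = (algebraMap κ A φ * h + algebraMap κ A φi * hi) * u ^ (2 ^ a - 1) := by
      rw [← hhu, mul_assoc, ← pow_succ', Nat.sub_add_cancel hpos, hu1, mul_one]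
    rw [e6]
    exact A₀.mul_mem ht (A₀.pow_mem humem _)

end elt

/-- a proper subgroup of a commutative group of exponent `2 ^ a` is killed by a quadratic
character -/
theorem exists_quad_char {G : Type*} [CommGroup G] (a : ℕ) (hG : ∀ g : G, g ^ (2 ^ a) = 1)
    (H : Subgroup G) (hH : H ≠ ⊤) : ∃ ε : G →* Multiplicative (ZMod 2), ε ≠ 1 ∧ ∀ h ∈ H, ε h = 1 := by
  set P : Subgroup G := H ⊔ (powMonoidHom 2 : G →* G).range with hP
  have hPne : P ≠ ⊤ := by
    intro htop
    apply hH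
    have key : ∀ n : ℕ, ∀ g : G, ∃ h ∈ H, ∃ x : G, g = h * x ^ (2 ^ n) := by
      intro n
      induction n with
      | zero => intro g; exact ⟨1, H.one_mem, g, by simp⟩
      | succ n ih =>
        intro g
        obtain ⟨h, hh, x, hx⟩ := ih g
        have hxP : x ∈ P := by rw [htop]; trivial
        rw [hP, Subgroup.mem_sup] at hxP
        obtain ⟨h', hh', y, ⟨z, hz⟩, hy⟩ := hxP
        refine ⟨h * h' ^ (2 ^ n), H.mul_mem hh (H.pow_mem hh' _), z, ?_⟩
        rw [hx, ← hy, ← hz]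
        simp only [powMonoidHom_apply]
        rw [mul_pow, ← pow_mul, ← pow_succ', mul_assoc]
    rw [eq_top_iff]
    intro g _
    obtain ⟨h, hh, x, hx⟩ := key a g
    rw [hx, hG, mul_one]
    exact hh
  obtain ⟨g, hg⟩ : ∃ g : G, g ∉ P := by
    by_contra hcon
    push Not at hcon
    exact hPne (eq_top_iff.mpr fun g _ => hcon g)
  let V := Additive (G ⧸ P)
  have h2 : ∀ v : V, 2 • v = 0 := by
    intro v
    obtain ⟨x, hx⟩ := QuotientGroup.mk_surjective (Additive.toMul v)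
    apply Additive.toMul.injective
    show (Additive.toMul v) ^ 2 = 1
    rw [← hx, ← QuotientGroup.mk_pow, QuotientGroup.eq_one_iff]
    exact (le_sup_right : _ ≤ P) ⟨x, rfl⟩
  let _ : Module (ZMod 2) V := AddCommGroup.zmodModule h2
  have hv : (Additive.ofMul (QuotientGroup.mk g : G ⧸ P) : V) ≠ 0 := by
    intro h
    apply hg
    rw [← QuotientGroup.eq_one_iff]
    exact h
  obtain ⟨f, hf⟩ : ∃ f : Module.Dual (ZMod 2) V,
      f (Additive.ofMul (QuotientGroup.mk g : G ⧸ P)) ≠ 0 := by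
    by_contra hcon
    push Not at hcon
    exact hv ((Module.forall_dual_apply_eq_zero_iff (ZMod 2) _).mp hcon)
  refine ⟨(AddMonoidHom.toMultiplicative f.toAddMonoidHom).comp
    ((MulEquiv.toMonoidHom (MulEquiv.multiplicativeAdditive (G ⧸ P)).symm).comp
    (QuotientGroup.mk' P)), ?_, ?_⟩
  · intro h
    apply hf
    have := DFunLike.congr_fun h g
    exact this
  · intro h hh
    have h3 : (QuotientGroup.mk' P) h = 1 := by
      rw [QuotientGroup.mk'_apply, QuotientGroup.eq_one_iff]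
      exact (le_sup_left : H ≤ P) hh
    rw [MonoidHom.comp_apply, MonoidHom.comp_apply, h3]
    simp

/-- **Generation**: the elements `ψ(x)[π x] + ψ(x)⁻¹[π x]⁻¹` (with `ψ x + ψ(x)⁻¹ = 1`) and the
group elements `[y]`, `y ∈ Y`, generate the group algebra of a `2`-group in characteristic `2`,
as soon as no quadratic character kills all the `π x` and `y`. -/
theorem subalgebra_eq_top' {κ : Type*} [Field κ] [CharP κ 2] {G : Type*} [CommGroup G] (a : ℕ)
    (hG : ∀ g : G, g ^ (2 ^ a) = 1) {X : Type*} (π : X → G) (φ φi : X → κ)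
    (hφ : ∀ x, φ x * φi x = 1) (hφ' : ∀ x, φ x + φi x = 1)
    (A₀ : Subalgebra κ (MonoidAlgebra κ G))
    (hA : ∀ x, MonoidAlgebra.single (π x) (φ x) + MonoidAlgebra.single (π x)⁻¹ (φi x) ∈ A₀)
    (Y : Set G) (hY : ∀ y ∈ Y, MonoidAlgebra.single y (1 : κ) ∈ A₀)
    (hX : ∀ ε : G →* Multiplicative (ZMod 2), ε ≠ 1 →
      (∃ x, ε (π x) ≠ 1) ∨ ∃ y ∈ Y, ε y ≠ 1) : A₀ = ⊤ := by
  have hone : ∀ x, MonoidAlgebra.of κ G (π x) ∈ A₀ := by
    intro x
    refine mem_of_add_inv_mem A₀ a (MonoidAlgebra.of κ G (π x)) (MonoidAlgebra.of κ G (π x)⁻¹)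
      (by rw [← map_mul, mul_inv_cancel, map_one]) (by rw [← map_pow, hG, map_one]) (φ x) (φi x)
      (hφ x) (hφ' x) ?_
    have := hA x
    convert this using 2
    · rw [← Algebra.smul_def, MonoidAlgebra.of_apply, MonoidAlgebra.smul_single, smul_eq_mul,
        mul_one]
    · rw [← Algebra.smul_def, MonoidAlgebra.of_apply, MonoidAlgebra.smul_single, smul_eq_mul,
        mul_one]
  let H : Subgroup G := Subgroup.closure (Set.range π ∪ Y)
  have hH : H = ⊤ := by
    by_contra hne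
    obtain ⟨ε, hε, hk⟩ := exists_quad_char a hG H hne
    rcases hX ε hε with ⟨x, hx⟩ | ⟨y, hy, hy'⟩
    · exact hx (hk _ (Subgroup.subset_closure (Or.inl ⟨x, rfl⟩)))
    · exact hy' (hk _ (Subgroup.subset_closure (Or.inr hy)))
  have hall : ∀ g : G, MonoidAlgebra.of κ G g ∈ A₀ := by
    intro g
    have hg : g ∈ H := by rw [hH]; trivial
    refine Subgroup.closure_induction (p := fun g _ => MonoidAlgebra.of κ G g ∈ A₀) ?_ ?_ ?_ ?_ hg
    · rintro y (⟨x, rfl⟩ | hy)
      · exact hone x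
      · exact hY y hy
    · rw [map_one]; exact A₀.one_mem
    · intro x y _ _ hx hy
      rw [map_mul]; exact A₀.mul_mem hx hy
    · intro x _ hx
      have hpos : 0 < 2 ^ a := by positivity
      have : x⁻¹ = x ^ (2 ^ a - 1) := by
        rw [inv_eq_iff_mul_eq_one, ← pow_succ', Nat.sub_add_cancel hpos, hG]
      rw [this, map_pow]
      exact A₀.pow_mem hx _
  rw [eq_top_iff]
  intro f _
  refine MonoidAlgebra.induction_on (motive := fun f => f ∈ A₀) f hall
    (fun f g hf hg => A₀.add_mem hf hg) ?_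
  intro r f hf
  exact A₀.smul_mem hf r

theorem subalgebra_eq_top {κ : Type*} [Field κ] [CharP κ 2] {G : Type*} [CommGroup G] (a : ℕ)
    (hG : ∀ g : G, g ^ (2 ^ a) = 1) {X : Type*} (π : X → G) (φ φi : X → κ)
    (hφ : ∀ x, φ x * φi x = 1) (hφ' : ∀ x, φ x + φi x = 1)
    (A₀ : Subalgebra κ (MonoidAlgebra κ G))
    (hA : ∀ x, MonoidAlgebra.single (π x) (φ x) + MonoidAlgebra.single (π x)⁻¹ (φi x) ∈ A₀)
    (hX : ∀ ε : G →* Multiplicative (ZMod 2), ε ≠ 1 → ∃ x, ε (π x) ≠ 1) : A₀ = ⊤ :=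
  subalgebra_eq_top' a hG π φ φi hφ hφ' A₀ hA ∅ (fun _ h => h.elim) fun ε hε => Or.inl (hX ε hε)

end Fermat.Agent.LTF.Theta
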