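import Mathlib
import Fermat.Agent.RT.GroupRing
import Fermat.Agent.LTF.Theta.CountChar
import Fermat.Agent.LTF.Theta.Gen

/-!
# The group algebra of a finite abelian `2`-group in characteristic two: counting points

The target of the Hecke ring of the theta family is `κ[G]`, `G = Cl₂ × (ℤ/2)^Q`: it is a local
algebra of dimension `|G|` over `κ`, generated by the elements `ψ(λ) [λ] + ψ(λ)⁻¹ [λ]⁻¹` and the
`u_q`; so the Hecke ring has at least `|G|` points above the augmentation.
-/

set_option autoImplicit false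
set_option linter.unusedSectionVars false
set_option linter.style.haveILetI false

open IsLocalRing Fermat.Agent.RT

namespace Fermat.Agent.LTF.GroupAlg

section Basic

variable {κ : Type*} [Field κ] {G : Type*} [CommGroup G]

theorem two_mem_maximalIdeal [CharP κ 2] : ((2 : ℕ) : κ) ∈ maximalIdeal κ := by
  rw [CharP.cast_eq_zero]; exact zero_mem _

/-- The group algebra of a finite commutative `2`-group in characteristic two is local. -/
theorem isLocalRing [CharP κ 2] [Finite G] (hG : IsPGroup 2 G) :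
    IsLocalRing (MonoidAlgebra κ G) := by
  haveI : Fact (Nat.Prime 2) := ⟨Nat.prime_two⟩
  exact isLocalRing_groupRing (𝒪 := κ) (p := 2) two_mem_maximalIdeal hG

theorem mem_maximalIdeal_iff [CharP κ 2] [Finite G] (hG : IsPGroup 2 G)
    [IsLocalRing (MonoidAlgebra κ G)] {b : MonoidAlgebra κ G} :
    b ∈ maximalIdeal (MonoidAlgebra κ G) ↔ aug κ G b = 0 := by
  haveI : Fact (Nat.Prime 2) := ⟨Nat.prime_two⟩
  rw [maximalIdeal_groupRing (𝒪 := κ) (p := 2) two_mem_maximalIdeal hG, mem_ker_resAug,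
    IsLocalRing.maximalIdeal_eq_bot, Ideal.mem_bot]

theorem finrank_eq [Finite G] : Module.finrank κ (MonoidAlgebra κ G) = Nat.card G := by
  classical
  haveI := Fintype.ofFinite G
  rw [Module.finrank_eq_card_basis (MonoidAlgebra.basis G κ), Nat.card_eq_fintype_card]

theorem aug_single (g : G) (c : κ) : aug κ G (MonoidAlgebra.single g c) = c := by
  have : (MonoidAlgebra.single g c : MonoidAlgebra κ G) = c • gr κ G g := by
    rw [gr, MonoidAlgebra.of_apply, MonoidAlgebra.smul_single, smul_eq_mul, mul_one]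
  rw [this, map_smul, aug_gr, smul_eq_mul, mul_one]

theorem isPGroup_of_pow (a : ℕ) (hG : ∀ g : G, g ^ (2 ^ a) = 1) : IsPGroup 2 G :=
  fun g => ⟨a, hG g⟩

theorem exists_pow_eq_one [Finite G] (hG : IsPGroup 2 G) : ∃ a : ℕ, ∀ g : G, g ^ (2 ^ a) = 1 := by
  haveI : Fact (Nat.Prime 2) := ⟨Nat.prime_two⟩
  obtain ⟨a, ha⟩ := IsPGroup.iff_card.1 hG
  exact ⟨a, fun g => by rw [← ha]; exact pow_card_eq_one'⟩

/-- the range of a ring hom spans iff it generates as an algebra -/
theorem span_range_eq_top {T B : Type*} [CommRing T] [CommRing B] [Algebra κ B] (f : T →+* B)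
    (h : ∀ A : Subalgebra κ B, (∀ t, f t ∈ A) → A = ⊤) :
    Submodule.span κ (Set.range f) = ⊤ := by
  have h1 : Algebra.adjoin κ (Set.range f) = ⊤ :=
    h _ fun t => Algebra.subset_adjoin ⟨t, rfl⟩
  have h2 := Algebra.adjoin_eq_span (R := κ) (s := Set.range f)
  have h3 : Submonoid.closure (Set.range f) = MonoidHom.mrange (f : T →* B) := by
    have : Set.range f = ((MonoidHom.mrange (f : T →* B) : Submonoid B) : Set B) := by
      ext x; simp
    rw [this, Submonoid.closure_eq]
  have h4 : ((Submonoid.closure (Set.range f) : Submonoid B) : Set B) = Set.range f := by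
    rw [h3]; ext x; simp
  rw [h4, h1] at h2
  rw [← h2]
  exact Algebra.top_toSubmodule

end Basic

section Prod

theorem card_prod_pi {Cl : Type*} {Q : Type*} [Fintype Q] :
    Nat.card (Cl × (Q → Multiplicative (ZMod 2))) = Nat.card Cl * 2 ^ Fintype.card Q := by
  rw [Nat.card_prod, Nat.card_fun]
  congr 2
  · rw [Nat.card_eq_fintype_card]; exact ZMod.card 2
  · exact Nat.card_eq_fintype_card

theorem pow_eq_one_prod {Cl : Type*} [CommGroup Cl] {Q : Type*} {a : ℕ} (ha : 0 < a)
    (h : ∀ g : Cl, g ^ (2 ^ a) = 1) (g : Cl × (Q → Multiplicative (ZMod 2))) :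
    g ^ (2 ^ a) = 1 := by
  refine Prod.ext (h g.1) ?_
  funext q
  change (g.2 q) ^ (2 ^ a) = 1
  obtain ⟨b, rfl⟩ : ∃ b, a = b + 1 := ⟨a - 1, by omega⟩
  have h2 : ∀ x : Multiplicative (ZMod 2), x ^ 2 = 1 := by decide
  rw [pow_succ', pow_mul, h2, one_pow]

end Prod

/-- **The count**: a reduced finite free `ℤ`-algebra `T` with a ring hom to the group algebra
`κ[G]` of a finite commutative `2`-group in characteristic `2`, whose image contains the elements
`φ(x) [π x] + φ(x)⁻¹ [π x]⁻¹` and `[y]`, `y ∈ Y`, has at least `|G|` points with values in the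
algebraic integers which reduce to the augmentation. -/
theorem card_points {T : Type} [CommRing T] [Module.Finite ℤ T] [Module.Free ℤ T] [IsReduced T]
    {κ : Type} [Field κ] [CharP κ 2] (ψ : integralClosure ℤ ℂ →+* κ)
    {G : Type*} [CommGroup G] [Finite G] (a : ℕ) (hG : ∀ g : G, g ^ (2 ^ a) = 1)
    (f : T →+* MonoidAlgebra κ G) {X : Type*} (π : X → G) (φ φi : X → κ)
    (hφ : ∀ x, φ x * φi x = 1) (hφ' : ∀ x, φ x + φi x = 1)
    (hA : ∀ x, ∃ t : T, f t = MonoidAlgebra.single (π x) (φ x) +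
      MonoidAlgebra.single (π x)⁻¹ (φi x))
    (Y : Set G) (hY : ∀ y ∈ Y, ∃ t : T, f t = MonoidAlgebra.single y (1 : κ))
    (hX : ∀ ε : G →* Multiplicative (ZMod 2), ε ≠ 1 →
      (∃ x, ε (π x) ≠ 1) ∨ ∃ y ∈ Y, ε y ≠ 1) :
    Finite {x : T →+* integralClosure ℤ ℂ // ∀ t, ψ (x t) = aug κ G (f t)} ∧
    Nat.card G ≤ Nat.card {x : T →+* integralClosure ℤ ℂ // ∀ t, ψ (x t) = aug κ G (f t)} := by
  have hPG : IsPGroup 2 G := isPGroup_of_pow a hG
  haveI : IsLocalRing (MonoidAlgebra κ G) := isLocalRing hPG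
  have hspan : Submodule.span κ (Set.range f) = ⊤ := by
    refine span_range_eq_top f fun A hfA => ?_
    refine Theta.subalgebra_eq_top' a hG π φ φi hφ hφ' A (fun x => ?_) Y (fun y hy => ?_) hX
    · obtain ⟨t, ht⟩ := hA x
      rw [← ht]; exact hfA t
    · obtain ⟨t, ht⟩ := hY y hy
      rw [← ht]; exact hfA t
  have key := CountChar.card_lifts Nat.prime_two (k := κ) (CharP.cast_eq_zero κ 2) ψ f hspan
    ((aug κ G : MonoidAlgebra κ G →+* κ).comp f) (fun t => by
      rw [mem_maximalIdeal_iff hPG, map_sub, AlgHom.commutes]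
      exact sub_self _)
  rw [finrank_eq] at key
  exact key

end Fermat.Agent.LTF.GroupAlg
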