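import Mathlib
import Fermat.Agent.LTF.Theta.GroupAlg
import Fermat.Agent.LTF.Theta.Dens
import Fermat.Agent.LTF.Gal.Defs

/-!
# The group `Cl₂ × (ℤ/2)^Q`, the universal character and the count of the theta family
-/

set_option autoImplicit false
set_option linter.unusedSectionVars false
set_option linter.style.haveILetI false

open IsLocalRing NumberField Fermat.Agent.RT Fermat.Agent.LTF.GroupAlg
open scoped nonZeroDivisors

noncomputable section

namespace Fermat.Agent.LTF.GroupSurj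

section TwoPart

variable (C : Type*) [CommGroup C]

/-- The largest quotient of `2`-power order of a finite commutative group. -/
def TwoPart : Type _ := C ⧸ (powMonoidHom (2 ^ (Nat.card C).factorization 2) : C →* C).range

instance : CommGroup (TwoPart C) :=
  inferInstanceAs (CommGroup (C ⧸ (powMonoidHom (2 ^ (Nat.card C).factorization 2) : C →* C).range))

instance [Finite C] : Finite (TwoPart C) :=
  inferInstanceAs (Finite (C ⧸ (powMonoidHom (2 ^ (Nat.card C).factorization 2) : C →* C).range))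

/-- the projection -/
def pr : C →* TwoPart C :=
  QuotientGroup.mk' (powMonoidHom (2 ^ (Nat.card C).factorization 2) : C →* C).range

theorem pr_surjective : Function.Surjective (pr C) := QuotientGroup.mk'_surjective _

variable {C}

theorem TwoPart.pow_eq_one (g : TwoPart C) : g ^ 2 ^ (Nat.card C).factorization 2 = 1 := by
  obtain ⟨x, rfl⟩ := pr_surjective C g
  rw [← map_pow]
  exact (QuotientGroup.eq_one_iff _).2 ⟨x, rfl⟩

theorem TwoPart.card_eq [Finite C] :
    Nat.card (TwoPart C) = 2 ^ (Nat.card C).factorization 2 := by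
  haveI : Fact (Nat.Prime 2) := ⟨Nat.prime_two⟩
  set a := (Nat.card C).factorization 2 with ha
  set f : C →* C := powMonoidHom (2 ^ a) with hf
  have hn0 : Nat.card C ≠ 0 := Nat.card_pos.ne'
  have hP : IsPGroup 2 (TwoPart C) := fun g => ⟨a, TwoPart.pow_eq_one g⟩
  obtain ⟨b, hb⟩ := IsPGroup.iff_card.1 hP
  have hmul : Nat.card C = Nat.card (TwoPart C) * Nat.card f.range :=
    Subgroup.card_eq_card_quotient_mul_card_subgroup f.range
  have hodd : ¬ 2 ∣ Nat.card f.range := by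
    intro h2
    obtain ⟨y, hy⟩ := exists_prime_orderOf_dvd_card' (G := f.range) 2 h2
    obtain ⟨x, hx⟩ := y.2
    have h1 : y ^ (Nat.card C / 2 ^ a) = 1 := by
      apply Subtype.ext
      rw [Subgroup.coe_pow, Subgroup.coe_one, ← hx]
      change (x ^ 2 ^ a) ^ (Nat.card C / 2 ^ a) = 1
      rw [← pow_mul, ha, Nat.ordProj_mul_ordCompl_eq_self, pow_card_eq_one']
    have h3 := orderOf_dvd_of_pow_eq_one h1
    rw [hy] at h3
    exact Nat.not_dvd_ordCompl Nat.prime_two hn0 h3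
  rw [hb]
  congr 1
  have h4 : (Nat.card C).factorization 2 = (Nat.card (TwoPart C) * Nat.card f.range).factorization 2 :=
    congrArg (fun n => n.factorization 2) hmul
  rw [Nat.factorization_mul (by rw [hb]; positivity) (fun h => hodd (by rw [h]; exact dvd_zero 2)),
    Finsupp.add_apply, hb, Nat.factorization_eq_zero_of_not_dvd hodd, add_zero,
    Nat.Prime.factorization_pow Nat.prime_two, Finsupp.single_eq_same] at h4
  rw [ha, h4]

end TwoPart

section Char

variable {κ : Type*} [Field κ] [CharP κ 2] {ω : κ} (hω : ω ^ 2 + ω + 1 = 0)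

include hω in
theorem omega_pow_three : ω ^ 3 = 1 := by
  have : ω ^ 3 - 1 = (ω - 1) * (ω ^ 2 + ω + 1) := by ring
  rw [hω, mul_zero, sub_eq_zero] at this
  exact this

include hω in
theorem omega_add : ω + ω ^ 2 = 1 := by
  have h2 : (2 : κ) = 0 := CharTwo.two_eq_zero
  linear_combination hω - h2

include hω in
theorem omega_pow_mod (n : ℕ) : ω ^ (n % 3) = ω ^ n := by
  conv_rhs => rw [← Nat.div_add_mod n 3, pow_add, pow_mul, omega_pow_three hω, one_pow, one_mul]

/-- the character of `ℤ/3` with values the cube roots of unity of `κ`. -/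
def wc : Multiplicative (ZMod 3) →* κ where
  toFun x := ω ^ (Multiplicative.toAdd x).val
  map_one' := by simp
  map_mul' x y := by
    rw [toAdd_mul, ZMod.val_add, omega_pow_mod hω, pow_add]

theorem wc_mul_inv (x : Multiplicative (ZMod 3)) : wc hω x * wc hω x⁻¹ = 1 := by
  rw [← map_mul, mul_inv_cancel, map_one]

theorem wc_add_inv (x : Multiplicative (ZMod 3)) :
    wc hω x + wc hω x⁻¹ = if x = 1 then 0 else 1 := by
  have h2 : (1 : κ) + 1 = 0 := by rw [one_add_one_eq_two]; exact CharTwo.two_eq_zero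
  have h0 : wc hω (Multiplicative.ofAdd (0 : ZMod 3)) = 1 := map_one (wc hω)
  have h1 : wc hω (Multiplicative.ofAdd (1 : ZMod 3)) = ω := pow_one ω
  have h3 : wc hω (Multiplicative.ofAdd (2 : ZMod 3)) = ω ^ 2 := rfl
  have key : ∀ z : ZMod 3, z = 0 ∨ z = 1 ∨ z = 2 := by decide
  rcases key (Multiplicative.toAdd x) with h | h | h
  · have hx : x = 1 := Multiplicative.toAdd.injective h
    rw [if_pos hx, hx, inv_one, map_one, h2]
  · have hx : x = Multiplicative.ofAdd 1 := Multiplicative.toAdd.injective h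
    have hxi : x⁻¹ = Multiplicative.ofAdd 2 := by rw [hx]; decide
    rw [if_neg (by rw [hx]; decide), hxi, hx, h1, h3, omega_add hω]
  · have hx : x = Multiplicative.ofAdd 2 := Multiplicative.toAdd.injective h
    have hxi : x⁻¹ = Multiplicative.ofAdd 1 := by rw [hx]; decide
    rw [if_neg (by rw [hx]; decide), hxi, hx, h1, h3, add_comm, omega_add hω]

end Char

section Main

variable {K : Type} [Field K] [NumberField K]

/-- the group `Cl₂ × (ℤ/2)^Q`. -/
abbrev GK (K : Type) [Field K] [NumberField K] (Q : Finset ℕ) : Type :=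
  TwoPart (ClassGroup (𝓞 K)) × (Q → Multiplicative (ZMod 2))

theorem card_GK (Q : Finset ℕ) : Nat.card (GK K Q) = Gal.h2 K * 2 ^ Q.card := by
  rw [card_prod_pi, TwoPart.card_eq, Fintype.card_coe]
  rfl

theorem GK_pow (Q : Finset ℕ) (g : GK K Q) :
    g ^ 2 ^ ((Nat.card (ClassGroup (𝓞 K))).factorization 2 + 1) = 1 :=
  pow_eq_one_prod (Nat.succ_pos _)
    (fun x => by rw [pow_succ, pow_mul, TwoPart.pow_eq_one, one_pow]) g

/-- the class in `Cl₂ × (ℤ/2)^Q`. -/
def clG (Q : Finset ℕ) : ClassGroup (𝓞 K) →* GK K Q :=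
  (MonoidHom.inl _ _).comp (pr (ClassGroup (𝓞 K)))

/-- the element `u_q`. -/
def ugen {Q : Finset ℕ} (q : Q) : GK K Q :=
  (1, Pi.mulSingle q (Multiplicative.ofAdd 1))

theorem ugen_mul_self {Q : Finset ℕ} (q : Q) : (ugen q : GK K Q) * ugen q = 1 := by
  refine Prod.ext (mul_one _) ?_
  change (Pi.mulSingle q (Multiplicative.ofAdd (1 : ZMod 2)) : Q → Multiplicative (ZMod 2)) *
    Pi.mulSingle q (Multiplicative.ofAdd (1 : ZMod 2)) = 1
  rw [← Pi.mulSingle_mul]
  have : Multiplicative.ofAdd (1 : ZMod 2) * Multiplicative.ofAdd (1 : ZMod 2) = 1 := by decide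
  rw [this, Pi.mulSingle_one]

variable {κ : Type} [Field κ] [CharP κ 2] {ω : κ} (hω : ω ^ 2 + ω + 1 = 0)
  (ψ : ClassGroup (𝓞 K) →* Multiplicative (ZMod 3)) (Q : Finset ℕ)

/-- The universal character `Ξ(C) = ψ(C) [C]` with values in `κ[Cl₂ × (ℤ/2)^Q]`. -/
def Xi : ClassGroup (𝓞 K) →* MonoidAlgebra κ (GK K Q) where
  toFun c := MonoidAlgebra.single (clG Q c) (wc hω (ψ c))
  map_one' := by rw [map_one, map_one, map_one]; rfl
  map_mul' x y := by
    rw [map_mul, map_mul, map_mul, MonoidAlgebra.single_mul_single]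

theorem Xi_apply (c : ClassGroup (𝓞 K)) :
    Xi hω ψ Q c = MonoidAlgebra.single (clG Q c) (wc hω (ψ c)) := rfl

theorem Xi_inv (c : ClassGroup (𝓞 K)) :
    Xi hω ψ Q c⁻¹ = MonoidAlgebra.single (clG Q c)⁻¹ (wc hω (ψ c)⁻¹) := by
  rw [Xi_apply, map_inv, map_inv]

theorem aug_Xi (c : ClassGroup (𝓞 K)) : aug κ (GK K Q) (Xi hω ψ Q c) = wc hω (ψ c) :=
  aug_single _ _

theorem aug_Xi_add (c : ClassGroup (𝓞 K)) :
    aug κ (GK K Q) (Xi hω ψ Q c + Xi hω ψ Q c⁻¹) = if ψ c = 1 then 0 else 1 := by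
  rw [map_add, aug_Xi, aug_Xi, map_inv, wc_add_inv]

variable {ψ}

theorem closure_ugen : Subgroup.closure (Set.range fun q : Q =>
    (Pi.mulSingle q (Multiplicative.ofAdd 1) : Q → Multiplicative (ZMod 2))) = ⊤ := by
  rw [eq_top_iff]
  intro g _
  have h : g = ∏ q : Q, Pi.mulSingle q (g q) := (Finset.univ_prod_mulSingle g).symm
  rw [h]
  refine Subgroup.prod_mem _ fun q _ => ?_
  have key : ∀ z : Multiplicative (ZMod 2), z = 1 ∨ z = Multiplicative.ofAdd 1 := by decide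
  rcases key (g q) with h | h
  · rw [h, Pi.mulSingle_one]; exact one_mem _
  · rw [h]; exact Subgroup.subset_closure ⟨q, rfl⟩

/-- The classes of the prime ideals of degree one on which `ψ` is non trivial and the `u_q`
generate `Cl₂ × (ℤ/2)^Q`. -/
theorem exists_ne_one (hψ : ψ ≠ 1) (S : Finset ℕ) (ε : GK K Q →* Multiplicative (ZMod 2))
    (hε : ε ≠ 1) :
    (∃ x : {P : (Ideal (𝓞 K))⁰ // ∃ l : ℕ, l.Prime ∧ l ∉ S ∧ Ideal.absNorm (P : Ideal (𝓞 K)) = l ∧
      ψ (ClassGroup.mk0 P) ≠ 1}, ε (clG Q (ClassGroup.mk0 x.1)) ≠ 1) ∨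
    ∃ y ∈ Set.range (ugen : Q → GK K Q), ε y ≠ 1 := by
  by_contra hcon
  push Not at hcon
  obtain ⟨h1, h2⟩ := hcon
  -- trivial on the second factor
  have h3 : ε.comp (MonoidHom.inr _ _) = 1 := by
    refine MonoidHom.eq_of_eqOn_dense (s := Set.range fun q : Q =>
      (Pi.mulSingle q (Multiplicative.ofAdd 1) : Q → Multiplicative (ZMod 2)))
      (closure_ugen Q) ?_
    rintro _ ⟨q, rfl⟩
    exact h2 _ ⟨q, rfl⟩
  have h4 : ε.comp (clG Q) ≠ 1 := by
    intro h
    apply hε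
    ext1 g
    obtain ⟨g₁, g₂⟩ := g
    obtain ⟨c, rfl⟩ := pr_surjective _ g₁
    have e1 : ((pr (ClassGroup (𝓞 K)) c, g₂) : GK K Q) = clG Q c * MonoidHom.inr _ _ g₂ := by
      refine Prod.ext ?_ ?_
      · exact (mul_one _).symm
      · exact (one_mul _).symm
    rw [e1, map_mul]
    have e2 : ε (clG Q c) = 1 := DFunLike.congr_fun h c
    have e3 : ε (MonoidHom.inr _ _ g₂) = 1 := DFunLike.congr_fun h3 g₂
    rw [e2, e3, mul_one]
    rfl
  obtain ⟨P, l, hl, hlS, hP, hPε, hPψ⟩ := Theta.exists_prime_two_chars h4 hψ S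
  exact hPε (h1 ⟨P, l, hl, hlS, hP, hPψ⟩)

/-- **The count of the theta family.** -/
theorem card_family {T : Type} [CommRing T] [Module.Finite ℤ T] [Module.Free ℤ T] [IsReduced T]
    (ψ₀ : integralClosure ℤ ℂ →+* κ) (hψ : ψ ≠ 1) (S : Finset ℕ)
    (f : T →+* MonoidAlgebra κ (GK K Q))
    (hA : ∀ (P : (Ideal (𝓞 K))⁰) (l : ℕ), l.Prime → l ∉ S → Ideal.absNorm (P : Ideal (𝓞 K)) = l →
      ∃ t : T, f t = Xi hω ψ Q (ClassGroup.mk0 P) + Xi hω ψ Q (ClassGroup.mk0 P)⁻¹)
    (hU : ∀ q : Q, ∃ t : T, f t = MonoidAlgebra.single (ugen q) 1) :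
    Finite {x : T →+* integralClosure ℤ ℂ // ∀ t, ψ₀ (x t) = aug κ (GK K Q) (f t)} ∧
    Gal.h2 K * 2 ^ Q.card ≤
      Nat.card {x : T →+* integralClosure ℤ ℂ // ∀ t, ψ₀ (x t) = aug κ (GK K Q) (f t)} := by
  rw [← card_GK]
  refine card_points ψ₀ _ (GK_pow Q) f
    (X := {P : (Ideal (𝓞 K))⁰ // ∃ l : ℕ, l.Prime ∧ l ∉ S ∧ Ideal.absNorm (P : Ideal (𝓞 K)) = l ∧
      ψ (ClassGroup.mk0 P) ≠ 1}) (fun x => clG Q (ClassGroup.mk0 x.1))
    (fun x => wc hω (ψ (ClassGroup.mk0 x.1))) (fun x => wc hω (ψ (ClassGroup.mk0 x.1))⁻¹)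
    (fun x => wc_mul_inv hω _) (fun x => ?_) (fun x => ?_)
    (Set.range (ugen : Q → GK K Q)) ?_ (exists_ne_one Q hψ S)
  · obtain ⟨P, l, hl, hlS, hP, hPψ⟩ := x
    rw [wc_add_inv, if_neg hPψ]
  · obtain ⟨P, l, hl, hlS, hP, hPψ⟩ := x
    obtain ⟨t, ht⟩ := hA P l hl hlS hP
    exact ⟨t, by rw [ht, Xi_apply, Xi_inv]⟩
  · rintro _ ⟨q, rfl⟩
    exact hU q

end Main

end Fermat.Agent.LTF.GroupSurj

end
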