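import Fermat.Agent.LTF.Theta.Cusp
import Mathlib.Analysis.Complex.LocallyUniformLimit

/-!
# Binary theta series: the statements used for packaging (helper93)
-/

set_option autoImplicit false

namespace Fermat.Agent.LTF.Theta

open Complex Real Finset UpperHalfPlane
open scoped MatrixGroups

/-- **holomorphy** -/
theorem differentiableOn_th {Q : BQ} (h : Q.Pos) :
    DifferentiableOn ℂ (th Q) {z : ℂ | 0 < z.im} := by
  intro z₀ hz₀
  have hz₀' : (0 : ℝ) < z₀.im := hz₀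
  have hopen : IsOpen {z : ℂ | z₀.im / 2 < z.im} := isOpen_lt continuous_const continuous_im
  have hmem : z₀ ∈ {z : ℂ | z₀.im / 2 < z.im} := by
    show z₀.im / 2 < z₀.im
    linarith
  have h1 : DifferentiableOn ℂ (fun z => ∑' x : ℤ × ℤ, e (z * (Q.ev x : ℤ)))
      {z : ℂ | z₀.im / 2 < z.im} := by
    refine Complex.differentiableOn_tsum_of_summable_norm
      (summable_exp_ev h (t := z₀.im / 2) (by positivity)) (fun x => ?_) hopen (fun x w hw => ?_)
    · unfold e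
      fun_prop
    · rw [norm_e_mul_int, Real.exp_le_exp]
      have hw' : z₀.im / 2 < w.im := hw
      have h3 : (0 : ℝ) ≤ ((Q.ev x : ℤ) : ℝ) := by exact_mod_cast ev_nonneg h x
      have h4 : 2 * π * (z₀.im / 2) * ((Q.ev x : ℤ) : ℝ) ≤ 2 * π * w.im * ((Q.ev x : ℤ) : ℝ) :=
        mul_le_mul_of_nonneg_right (mul_le_mul_of_nonneg_left hw'.le (by positivity)) h3
      linarith
  exact (h1.differentiableAt (hopen.mem_nhds hmem)).differentiableWithinAt

/-- **transformation law** for the product of two theta series of the same discriminant. -/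
theorem th_mul_th (Q R : BQ) (hQ : Q.Pos) (hR : R.Pos) (hdisc : Q.disc = R.disc)
    (c : ℕ) (hc : 0 < c) (g : SL(2, ℤ)) (hg : Q.disc * c ∣ g 1 0) (z : ℍ) :
    th Q ↑(g • z) * th R (c * ↑(g • z)) =
      (((g 1 0 : ℤ) : ℂ) * z + ((g 1 1 : ℤ) : ℂ)) ^ 2 * (th Q z * th R (c * z)) := by
  have hdet : g 0 0 * g 1 1 - g 0 1 * g 1 0 = 1 := by
    have := g.det_coe
    rw [Matrix.det_fin_two] at this
    exact this
  have h := th_mul_th_aux Q R hQ hR hdisc c hc (g 0 0) (g 0 1) (g 1 0) (g 1 1) hdet hg z z.im_pos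
  have e1 : ((g • z : ℍ) : ℂ) = (((g 0 0 : ℤ) : ℂ) * z + ((g 0 1 : ℤ) : ℂ)) /
      (((g 1 0 : ℤ) : ℂ) * z + ((g 1 1 : ℤ) : ℂ)) := by
    rw [UpperHalfPlane.specialLinearGroup_apply]
    simp
  rw [e1]
  exact h

/-- the value of `g • z` -/
theorem coe_smul_SL (g : SL(2, ℤ)) (z : ℍ) : ((g • z : ℍ) : ℂ) =
    (((g 0 0 : ℤ) : ℂ) * z + ((g 0 1 : ℤ) : ℂ)) / (((g 1 0 : ℤ) : ℂ) * z + ((g 1 1 : ℤ) : ℂ)) := by
  rw [UpperHalfPlane.specialLinearGroup_apply]
  simp

end Fermat.Agent.LTF.Theta
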