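import Fermat.Agent.LTF.Theta.Pack
import Fermat.Agent.LTF.Theta.Api
import Fermat.Agent.Oldforms.Newform

/-!
# The weight two forms attached to pairs of binary forms (helper64)

Unconditional versions (from helper93's transformation laws) of the packaging theorems, and the
descent `U_4` to squarefree level.
-/

set_option autoImplicit false

noncomputable section

namespace Fermat.Agent.LTF.Theta

open UpperHalfPlane ModularForm MatrixGroups Complex Filter CongruenceSubgroup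
open ModularFormClass
open scoped Manifold Topology

theorem growth {Q : BQ} (hQ : Q.Pos) : Growth Q := by
  intro a b c d h
  obtain ⟨C, -, hC⟩ := th_bdd hQ a b c d h
  exact ⟨C, hC⟩

theorem invLaw {Q R : BQ} (hQ : Q.Pos) (hR : R.Pos) (hdisc : Q.disc = R.disc) {c : ℕ}
    (hc : 0 < c) : InvLaw Q R c :=
  fun g hg z => th_mul_th Q R hQ hR hdisc c hc g hg z

/-- vanishing of differences of theta series of the same genus at all cusps -/
theorem tendsto_diff {Q Q' : BQ} (hQ : Q.Pos) (hQ' : Q'.Pos) (hdisc : Q.disc = Q'.disc)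
    (hG : ∀ m : ℤ, m ≠ 0 → Genus Q Q' m) (g : SL(2, ℤ)) :
    Tendsto (fun z : ℍ => ‖th Q (g • z : ℍ) - th Q' (g • z : ℍ)‖ /
      ‖(((g 1 0 : ℤ) : ℂ) * z + ((g 1 1 : ℤ) : ℂ))‖) atImInfty (𝓝 0) := by
  have hdet : 0 < (g 0 0 : ℤ) * g 1 1 - g 0 1 * g 1 0 := by
    have := g.det_coe
    rw [Matrix.det_fin_two] at this
    rw [this]; norm_num
  obtain ⟨C, ε, hC, hε, hb⟩ := th_diff' hQ hQ' hdisc (g 0 0) (g 0 1) (g 1 0) (g 1 1) hdet
    (fun h => hG _ h)
  have h1 : Tendsto (fun z : ℍ => C * Real.exp (-(ε * z.im))) atImInfty (𝓝 0) := by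
    have h2 : Tendsto (fun t : ℝ => C * Real.exp (-(ε * t))) atTop (𝓝 0) := by
      have h3 : Tendsto (fun t : ℝ => ε * t) atTop atTop := tendsto_id.const_mul_atTop hε
      have h4 := (Real.tendsto_exp_neg_atTop_nhds_zero.comp h3).const_mul C
      simpa using h4
    exact h2.comp tendsto_comap
  refine squeeze_zero_norm' ?_ h1
  rw [atImInfty, Filter.eventually_comap]
  filter_upwards [Filter.eventually_ge_atTop (1 : ℝ)] with t ht z hz
  have hz1 : 1 ≤ (z : ℂ).im := by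
    rw [UpperHalfPlane.coe_im, hz]; exact ht
  have hd := denom_pos g z
  have h5 := hb z hz1
  rw [Real.norm_eq_abs, abs_of_nonneg (by positivity), div_le_iff₀ hd, coe_smul_eq]
  calc _ ≤ _ := h5
    _ = _ := by rw [UpperHalfPlane.coe_im]; ring

/-- **modular forms** -/
theorem exists_modularForm_prod {Q R : BQ} (hQ : Q.Pos) (hR : R.Pos) (hdisc : Q.disc = R.disc)
    {c : ℕ} (hc : 0 < c) {M : ℕ} [NeZero M] (hM : (M : ℤ) = -Q.disc * c) :
    ∃ F : ModularForm (Gamma0 M) 2, ⇑F = pf Q R c ∧ ∀ n, qCoeff F n = (cf Q R c n : ℂ) :=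
  exists_prodMF hQ hR hc (invLaw hQ hR hdisc hc) (differentiableOn_th hQ) (differentiableOn_th hR)
    (growth hQ) (growth hR) hM

/-- **cusp forms from differences inside a genus** -/
theorem exists_cuspForm_diff {Q Q' R : BQ} (hQ : Q.Pos) (hQ' : Q'.Pos) (hR : R.Pos)
    (hdisc : Q.disc = R.disc) (hdisc' : Q'.disc = R.disc) (hG : ∀ m : ℤ, m ≠ 0 → Genus Q Q' m)
    {c : ℕ} (hc : 0 < c) {M : ℕ} [NeZero M] (hM : (M : ℤ) = -Q.disc * c) (w : ℂ) :
    ∃ F : CuspForm (Gamma0 M) 2, ∀ n, qCoeff F n = w * ((cf Q R c n : ℂ) - cf Q' R c n) :=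
  exists_prodCF hQ hQ' hR (hdisc'.trans hdisc.symm) hc (invLaw hQ hR hdisc hc)
    (invLaw hQ' hR hdisc' hc) (differentiableOn_th hQ) (differentiableOn_th hQ')
    (differentiableOn_th hR) (growth hR) (tendsto_diff hQ hQ' (hdisc.trans hdisc'.symm) hG) hM w

/-- `U_2` from level `2 M` to level `M`, `M` even -/
theorem exists_lower_two {L M : ℕ} [NeZero L] (hL : L = 2 * M) (hM : 2 ∣ M)
    (f : CuspForm (Gamma0 L) 2) :
    ∃ g : CuspForm (Gamma0 M) 2, ∀ n, qCoeff g n = qCoeff f (2 * n) := by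
  let p : Nat.Primes := ⟨2, Nat.prime_two⟩
  refine ⟨Oldforms.lowerU (N := L) 2 p hL hM f, fun n => ?_⟩
  have h1 : qCoeff ⇑(Oldforms.lowerU (N := L) 2 p hL hM f) n =
      qCoeff ⇑(FermatAgent.HeckeEigen.heckeOp L 2 p f) n := rfl
  rw [h1, FermatAgent.HeckeEigen.qCoeff_heckeOp_two, if_pos ⟨M, hL⟩, zero_mul, add_zero]

/-- `U_4` from level `4 M` to level `M`, `M` even -/
theorem exists_lower_four {L M : ℕ} [NeZero L] (hL : L = 4 * M) (hM : 2 ∣ M)
    (f : CuspForm (Gamma0 L) 2) :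
    ∃ g : CuspForm (Gamma0 M) 2, ∀ n, qCoeff g n = qCoeff f (4 * n) := by
  have hM0 : NeZero (2 * M) := ⟨by have := NeZero.ne L; omega⟩
  obtain ⟨g, hg⟩ := exists_lower_two (L := L) (M := 2 * M) (by rw [hL]; ring) (Dvd.intro M rfl) f
  obtain ⟨g', hg'⟩ := exists_lower_two (L := 2 * M) rfl hM g
  refine ⟨g', fun n => ?_⟩
  rw [hg', hg]
  congr 1
  ring

/-- **[AN], squarefree level, in terms of binary forms**: `Q`, `Q'`, `R` of discriminant `-4N`,
`N` even, `Q` and `Q'` in the same genus. -/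
theorem exists_cuspForm_diff_four {Q Q' R : BQ} (hQ : Q.Pos) (hQ' : Q'.Pos) (hR : R.Pos)
    {N : ℕ} (hN : Even N) (hdQ : Q.disc = -4 * N) (hdQ' : Q'.disc = -4 * N)
    (hdR : R.disc = -4 * N) (hG : ∀ m : ℤ, m ≠ 0 → Genus Q Q' m)
    {c : ℕ} (hc : 0 < c) (w : ℂ) :
    ∃ F : CuspForm (Gamma0 (N * c)) 2,
      ∀ n, qCoeff F n = w * ((cf Q R c (4 * n) : ℂ) - cf Q' R c (4 * n)) := by
  have hN0 : N ≠ 0 := by
    rintro rfl
    have := hQ.neg
    rw [hdQ] at this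
    simp at this
  have : NeZero (N * c) := ⟨mul_ne_zero hN0 hc.ne'⟩
  have : NeZero (4 * (N * c)) := ⟨by have := NeZero.ne (N * c); omega⟩
  obtain ⟨F, hF⟩ := exists_cuspForm_diff (M := 4 * (N * c)) hQ hQ' hR (hdQ.trans hdR.symm)
    (hdQ'.trans hdR.symm) hG hc (by rw [hdQ]; push_cast; ring) w
  obtain ⟨G, hG'⟩ := exists_lower_four (L := 4 * (N * c)) rfl (Dvd.dvd.mul_right hN.two_dvd c) F
  exact ⟨G, fun n => by rw [hG', hF]⟩

theorem rep_zero {Q : BQ} (hQ : Q.Pos) : Q.rep 0 = 1 := by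
  unfold BQ.rep
  rw [Nat.card_eq_one_iff_unique]
  refine ⟨⟨?_⟩, ⟨⟨(0, 0), by simp [BQ.ev]⟩⟩⟩
  have h0 : ∀ x : ℤ × ℤ, Q.ev x = ((0 : ℕ) : ℤ) → x = 0 := by
    intro x hx
    by_contra hne
    have := ev_pos hQ hne
    rw [hx] at this
    simp at this
  rintro ⟨x, hx⟩ ⟨y, hy⟩
  exact Subtype.ext ((h0 x hx).trans (h0 y hy).symm)

/-- halving the difference of the coefficients -/
theorem half_cf_sub {Q Q' R : BQ} (hQ : Q.Pos) (hQ' : Q'.Pos) {u u' : ℕ → ℕ}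
    (hu : ∀ n, 1 ≤ n → Q.rep n = 2 * u n) (hu' : ∀ n, 1 ≤ n → Q'.rep n = 2 * u' n)
    (h0 : u 0 = u' 0) (c n : ℕ) :
    (1 / 2 : ℂ) * ((cf Q R c n : ℂ) - cf Q' R c n) =
      ∑ k ∈ (Finset.range (n + 1)).filter (fun k => c * k ≤ n),
        ((u (n - c * k) : ℂ) - u' (n - c * k)) * R.rep k := by
  unfold cf
  push_cast
  rw [← Finset.sum_sub_distrib, Finset.mul_sum]
  refine Finset.sum_congr rfl fun k _ => ?_
  rcases Nat.eq_zero_or_pos (n - c * k) with h | h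
  · rw [h, rep_zero hQ, rep_zero hQ', h0]
    ring
  · rw [hu _ h, hu' _ h]
    push_cast
    ring

/-- **[AN]**: the cusp form of level `N c` with coefficients
`∑_{s + c t = 4 n} (u(s) - u'(s)) R(t)`. -/
theorem exists_AN {Q Q' R : BQ} (hQ : Q.Pos) (hQ' : Q'.Pos) (hR : R.Pos)
    {N : ℕ} (hN : Even N) (hdQ : Q.disc = -4 * N) (hdQ' : Q'.disc = -4 * N)
    (hdR : R.disc = -4 * N) (hG : ∀ m : ℤ, m ≠ 0 → Genus Q Q' m)
    {c : ℕ} (hc : 0 < c) {u u' : ℕ → ℕ} (hu : ∀ n, 1 ≤ n → Q.rep n = 2 * u n)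
    (hu' : ∀ n, 1 ≤ n → Q'.rep n = 2 * u' n) (h0 : u 0 = u' 0) :
    ∃ F : CuspForm (Gamma0 (N * c)) 2,
      ∀ n, qCoeff F n = ∑ k ∈ (Finset.range (4 * n + 1)).filter (fun k => c * k ≤ 4 * n),
        ((u (4 * n - c * k) : ℂ) - u' (4 * n - c * k)) * R.rep k := by
  obtain ⟨F, hF⟩ := exists_cuspForm_diff_four hQ hQ' hR hN hdQ hdQ' hdR hG hc (1 / 2)
  exact ⟨F, fun n => by rw [hF, half_cf_sub hQ hQ' hu hu' h0]⟩

/-- the principal form `x² + N y²` -/
def prin (N : ℕ) : BQ := ⟨1, 0, N⟩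

theorem prin_pos {N : ℕ} (hN : 0 < N) : (prin N).Pos := by
  refine ⟨by simp [prin], ?_⟩
  simp only [prin, BQ.disc]
  have : (0 : ℤ) < N := by exact_mod_cast hN
  linarith

theorem prin_disc (N : ℕ) : (prin N).disc = -4 * N := by
  simp only [prin, BQ.disc]
  ring

theorem prin_rep (N k : ℕ) :
    (prin N).rep k = Nat.card {x : ℤ × ℤ // x.1 ^ 2 + N * x.2 ^ 2 = k} := by
  unfold BQ.rep BQ.ev prin
  refine Nat.card_congr (Equiv.subtypeEquivRight fun x => ?_)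
  push_cast
  rw [show (1 : ℤ) * x.1 ^ 2 + 0 * x.1 * x.2 + N * x.2 ^ 2 = x.1 ^ 2 + N * x.2 ^ 2 by ring]

end Fermat.Agent.LTF.Theta

end
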