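import Fermat.Agent.LTF.Theta.Gamma0

/-!
# Binary theta series at the cusps (helper93)
-/

set_option autoImplicit false

namespace Fermat.Agent.LTF.Theta

open Complex Real Finset

theorem ev_pos {Q : BQ} (h : Q.Pos) {x : ℤ × ℤ} (hx : x ≠ 0) : 1 ≤ Q.ev x := by
  have hD := h.absD_pos
  rw [BQ.absD_eq] at hD
  have ha : (0 : ℝ) < Q.a := by exact_mod_cast h.pos
  have hc := C_pos _ _ _ ha hD
  have h1 := qf_ge Q.a Q.b Q.c ha hD x.1 x.2
  have h2 : (0 : ℝ) < ((Q.ev x : ℤ) : ℝ) := by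
    rw [ev_qf]
    refine lt_of_lt_of_le ?_ h1
    by_cases hx1 : x.1 = 0
    · have hx2 : x.2 ≠ 0 := fun h => hx (Prod.ext hx1 h)
      have : (0 : ℝ) < (x.2 : ℝ) ^ 2 := by
        have : (x.2 : ℝ) ≠ 0 := by exact_mod_cast hx2
        positivity
      positivity
    · have : (0 : ℝ) < (x.1 : ℝ) ^ 2 := by
        have : (x.1 : ℝ) ≠ 0 := by exact_mod_cast hx1
        positivity
      positivity
  have h3 : 0 < Q.ev x := by exact_mod_cast h2
  linarith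

theorem norm_e_mul_int (z : ℂ) (k : ℤ) : ‖e (z * (k : ℂ))‖ = Real.exp (-(2 * π * z.im * k)) := by
  rw [norm_e]
  congr 1
  rw [show (z * (k : ℂ)) = ((k : ℝ) : ℂ) * z by push_cast; ring, im_ofReal_mul]
  ring

theorem summable_exp_ev {Q : BQ} (h : Q.Pos) {t : ℝ} (ht : 0 < t) :
    Summable (fun x : ℤ × ℤ => Real.exp (-(2 * π * t * (Q.ev x : ℤ)))) := by
  have := (summable_th Q h (t * I) (by simpa using ht)).norm
  refine this.congr fun x => ?_
  rw [norm_e_mul_int]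
  simp

/-- Uniform tail estimate for theta series with bounded coefficients. -/
theorem tail {Q : BQ} (h : Q.Pos) {t₀ : ℝ} (ht₀ : 0 < t₀) : ∃ C : ℝ, 0 ≤ C ∧
    ∀ (f : ℤ × ℤ → ℂ) (B : ℝ), (∀ x, ‖f x‖ ≤ B) → ∀ z : ℂ, t₀ ≤ z.im →
      ‖(∑' x : ℤ × ℤ, f x * e (z * (Q.ev x : ℤ))) - f 0‖ ≤ B * C * Real.exp (-(2 * π * z.im)) := by
  have hs := summable_exp_ev h ht₀
  refine ⟨Real.exp (2 * π * t₀) * ∑' x : ℤ × ℤ, Real.exp (-(2 * π * t₀ * (Q.ev x : ℤ))),
    mul_nonneg (Real.exp_pos _).le (tsum_nonneg fun x => (Real.exp_pos _).le), ?_⟩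
  intro f B hB z hz
  have hB0 : 0 ≤ B := (norm_nonneg _).trans (hB 0)
  have hz0 : 0 < z.im := ht₀.trans_le hz
  have hsum : Summable (fun x : ℤ × ℤ => f x * e (z * (Q.ev x : ℤ))) := by
    refine Summable.of_norm_bounded (g := fun x => B * ‖e (z * (Q.ev x : ℤ))‖)
      ((summable_th Q h z hz0).norm.mul_left B) fun x => ?_
    rw [norm_mul]
    exact mul_le_mul_of_nonneg_right (hB x) (norm_nonneg _)
  rw [hsum.tsum_eq_add_tsum_ite 0]
  have h0 : f 0 * e (z * (Q.ev (0 : ℤ × ℤ) : ℤ)) = f 0 := by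
    have : Q.ev (0 : ℤ × ℤ) = 0 := by unfold BQ.ev; simp
    rw [this]
    push_cast
    rw [mul_zero, e_zero, mul_one]
  rw [h0, add_sub_cancel_left]
  have hbd : ∀ x : ℤ × ℤ, ‖(if x = 0 then 0 else f x * e (z * (Q.ev x : ℤ)))‖ ≤
      B * Real.exp (-(2 * π * (z.im - t₀))) * Real.exp (-(2 * π * t₀ * (Q.ev x : ℤ))) := by
    intro x
    split_ifs with hx
    · rw [norm_zero]; positivity
    · rw [norm_mul, norm_e_mul_int, mul_assoc B, ← Real.exp_add]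
      refine mul_le_mul (hB x) ?_ (Real.exp_pos _).le hB0
      rw [Real.exp_le_exp]
      have h1 : (1 : ℝ) ≤ ((Q.ev x : ℤ) : ℝ) := by exact_mod_cast ev_pos h hx
      have h2 : 0 ≤ z.im - t₀ := sub_nonneg.mpr hz
      have h3 : 0 ≤ (2 * π) * ((z.im - t₀) * (((Q.ev x : ℤ) : ℝ) - 1)) := by
        have := sub_nonneg.mpr h1
        positivity
      nlinarith
  refine (tsum_of_norm_bounded (hs.hasSum.mul_left _) hbd).trans (le_of_eq ?_)
  have : Real.exp (-(2 * π * (z.im - t₀))) =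
      Real.exp (2 * π * t₀) * Real.exp (-(2 * π * z.im)) := by
    rw [← Real.exp_add]; congr 1; ring
  rw [this]
  ring

/-- `th Q` tends to `1`. -/
theorem th_sub_one {Q : BQ} (h : Q.Pos) {t₀ : ℝ} (ht₀ : 0 < t₀) : ∃ C : ℝ, 0 ≤ C ∧
    ∀ z : ℂ, t₀ ≤ z.im → ‖th Q z - 1‖ ≤ C * Real.exp (-(2 * π * z.im)) := by
  obtain ⟨C, hC, hb⟩ := tail h ht₀
  refine ⟨C, hC, fun z hz => ?_⟩
  have := hb (fun _ => 1) 1 (fun _ => by simp) z hz
  simpa [th] using this

theorem norm_gs_le (Q : BQ) (m : ℕ) [NeZero m] (a : ℤ) (Y : ℤ × ℤ) :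
    ‖gs Q m a Y‖ ≤ (m : ℝ) ^ 2 := by
  unfold gs
  refine (norm_sum_le _ _).trans ?_
  have : ∀ r ∈ (Finset.univ : Finset (ZMod m × ZMod m)), ‖ZMod.stdAddChar (N := m)
    ((a : ZMod m) * Q.ev r + r.1 * (Y.1 : ZMod m) + r.2 * (Y.2 : ZMod m))‖ = 1 := by
    intro r _
    rw [ZMod.stdAddChar_apply]
    exact Circle.norm_coe _
  rw [Finset.sum_congr rfl this]
  simp [ZMod.card, pow_two]

/-- **Behaviour at a cusp** of `th Q`, for an integral matrix `(a b; m d)`, `m > 0`. -/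
theorem th_cusp {Q : BQ} (h : Q.Pos) (m : ℕ) [NeZero m] (a b d n : ℤ)
    (hdet : a * d - b * m = n) (hn : 0 < n) : ∃ C ε : ℝ, 0 ≤ C ∧ 0 < ε ∧ ∀ z : ℂ, 1 ≤ z.im →
      ‖th Q ((a * z + b) / (m * z + d)) -
        (-I * (m * z + d) / (n * m * (Real.sqrt Q.absD : ℝ))) * gs Q m a (0, 0)‖ ≤
        C * ‖(m * z + d : ℂ)‖ * Real.exp (-(ε * z.im)) := by
  have hD := h.absD_pos
  have hm : (0 : ℝ) < m := by exact_mod_cast Nat.pos_of_ne_zero (NeZero.ne m)
  have hn' : (0 : ℝ) < n := by exact_mod_cast hn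
  have ht₀ : 0 < 1 / (n * Q.absD) := by positivity
  obtain ⟨C, hC, hb⟩ := tail h.dual ht₀
  refine ⟨1 / (n * m * Real.sqrt Q.absD) * ((m : ℝ) ^ 2 * C), 2 * π / (n * Q.absD), ?_, ?_, ?_⟩
  · have := Real.sqrt_pos.mpr hD
    positivity
  · positivity
  intro z hz
  have hz0 : 0 < z.im := one_pos.trans_le hz
  rw [th_transform Q h m a b d n hdet hn z hz0, ← mul_sub, norm_mul]
  have hsq := Real.sqrt_pos.mpr hD
  have h1 : ‖-I * (m * z + d) / (n * m * (Real.sqrt Q.absD : ℝ))‖ =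
      1 / (n * m * Real.sqrt Q.absD) * ‖(m * z + d : ℂ)‖ := by
    rw [norm_div, norm_mul, norm_neg, norm_I, one_mul, norm_mul, norm_mul, Complex.norm_intCast,
      Complex.norm_natCast, Complex.norm_real, Real.norm_eq_abs, abs_of_pos hsq, abs_of_pos hn']
    ring
  rw [h1]
  set w : ℂ := (m * z + d) / (n * m * Q.absD) with hw
  have hwim : w.im = z.im / (n * Q.absD) := by
    have : w = ((1 / (n * m * Q.absD : ℝ) : ℝ) : ℂ) * (m * z + d) := by
      rw [hw]; push_cast; ring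
    rw [this, im_ofReal_mul]
    have h6 : (m * z + d : ℂ).im = m * z.im := by simp
    rw [h6]
    field_simp
  have h2 : ∀ Y : ℤ × ℤ, gs Q m a Y * e ((m * z + d) / (n * m) *
      ((Q.dual.ev Y : ℤ) / (Q.absD : ℝ))) = gs Q m a Y * e (w * (Q.dual.ev Y : ℤ)) := by
    intro Y
    congr 2
    rw [hw]
    have : (Q.absD : ℂ) ≠ 0 := by exact_mod_cast hD.ne'
    have : (n : ℂ) ≠ 0 := by exact_mod_cast hn.ne'
    have : (m : ℂ) ≠ 0 := by exact_mod_cast NeZero.ne m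
    field_simp
  rw [tsum_congr h2]
  have h3 := hb (fun Y => gs Q m a Y) ((m : ℝ) ^ 2) (norm_gs_le Q m a) w (by
    rw [hwim]
    exact div_le_div_of_nonneg_right hz (by positivity))
  rw [hwim] at h3
  have h4 : -(2 * π * (z.im / (n * Q.absD))) = -(2 * π / (n * Q.absD) * z.im) := by ring
  rw [h4] at h3
  calc _ ≤ 1 / (n * m * Real.sqrt Q.absD) * ‖(m * z + d : ℂ)‖ *
      ((m : ℝ) ^ 2 * C * Real.exp (-(2 * π / (n * Q.absD) * z.im))) :=
        mul_le_mul_of_nonneg_left h3 (by positivity)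
    _ = _ := by ring

/-- invertible substitutions do not change the Gauss sum -/
theorem gs_comp (Q : BQ) (m : ℕ) [NeZero m] (a : ℤ) (s t u v : ℤ)
    (hdet : IsUnit ((s * v - t * u : ℤ) : ZMod m)) :
    ∑ r : ZMod m × ZMod m, ZMod.stdAddChar (N := m)
      ((a : ZMod m) * Q.ev ((s : ZMod m) * r.1 + t * r.2, (u : ZMod m) * r.1 + v * r.2)) =
      gs Q m a (0, 0) := by
  obtain ⟨w, hw⟩ := hdet
  have hw1 : ((w⁻¹ : (ZMod m)ˣ) : ZMod m) * ((s : ZMod m) * v - t * u) = 1 := by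
    have : ((s : ZMod m) * v - t * u) = (w : ZMod m) := by rw [hw]; push_cast; ring
    rw [this]; exact Units.inv_mul w
  unfold gs
  let E : ZMod m × ZMod m ≃ ZMod m × ZMod m :=
    { toFun := fun r => ((s : ZMod m) * r.1 + t * r.2, (u : ZMod m) * r.1 + v * r.2)
      invFun := fun r => (((w⁻¹ : (ZMod m)ˣ) : ZMod m) * ((v : ZMod m) * r.1 - t * r.2),
        ((w⁻¹ : (ZMod m)ˣ) : ZMod m) * (-(u : ZMod m) * r.1 + s * r.2))
      left_inv := by
        intro r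
        ext
        · show ((w⁻¹ : (ZMod m)ˣ) : ZMod m) * ((v : ZMod m) * ((s : ZMod m) * r.1 + t * r.2) -
            t * ((u : ZMod m) * r.1 + v * r.2)) = r.1
          linear_combination r.1 * hw1
        · show ((w⁻¹ : (ZMod m)ˣ) : ZMod m) * (-(u : ZMod m) * ((s : ZMod m) * r.1 + t * r.2) +
            s * ((u : ZMod m) * r.1 + v * r.2)) = r.2
          linear_combination r.2 * hw1
      right_inv := by
        intro r
        ext
        · show (s : ZMod m) * (((w⁻¹ : (ZMod m)ˣ) : ZMod m) * ((v : ZMod m) * r.1 - t * r.2)) +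
            t * (((w⁻¹ : (ZMod m)ˣ) : ZMod m) * (-(u : ZMod m) * r.1 + s * r.2)) = r.1
          linear_combination r.1 * hw1
        · show (u : ZMod m) * (((w⁻¹ : (ZMod m)ˣ) : ZMod m) * ((v : ZMod m) * r.1 - t * r.2)) +
            v * (((w⁻¹ : (ZMod m)ˣ) : ZMod m) * (-(u : ZMod m) * r.1 + s * r.2)) = r.2
          linear_combination r.2 * hw1 }
  refine Fintype.sum_equiv E _ _ fun r => ?_
  congr 1
  show _ = (a : ZMod m) * Q.ev ((s : ZMod m) * r.1 + t * r.2, (u : ZMod m) * r.1 + v * r.2) +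
    ((s : ZMod m) * r.1 + t * r.2) * ((0 : ℤ) : ZMod m) +
    ((u : ZMod m) * r.1 + v * r.2) * ((0 : ℤ) : ZMod m)
  push_cast
  ring

/-- Two forms which become equal after integral substitutions of determinant prime to `m` (e.g.
two forms in the same genus) have the same Gauss sums modulo `m`. -/
structure Genus (Q₁ Q₂ : BQ) (m : ℤ) : Prop where
  ex : ∃ s t u v s' t' u' v' : ℤ, IsCoprime (s * v - t * u) m ∧ IsCoprime (s' * v' - t' * u') m ∧
    ∀ x y : ℤ, Q₁.ev (s * x + t * y, u * x + v * y) = Q₂.ev (s' * x + t' * y, u' * x + v' * y)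

theorem Genus.gs_eq {Q₁ Q₂ : BQ} {m : ℕ} [NeZero m] (h : Genus Q₁ Q₂ m) (a : ℤ) :
    gs Q₁ m a (0, 0) = gs Q₂ m a (0, 0) := by
  obtain ⟨s, t, u, v, s', t', u', v', h1, h2, h3⟩ := h.ex
  have hu : ∀ k : ℤ, IsCoprime k (m : ℤ) → IsUnit ((k : ℤ) : ZMod m) := by
    intro k hk
    obtain ⟨x, y, hxy⟩ := hk
    have : ((x : ℤ) : ZMod m) * ((k : ℤ) : ZMod m) = 1 := by
      have h4 : (((x * k + y * m : ℤ)) : ZMod m) = 1 := by rw [hxy]; simp
      push_cast at h4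
      rw [CharP.cast_eq_zero, mul_zero, add_zero] at h4
      exact h4
    exact IsUnit.of_mul_eq_one_right _ this
  rw [← gs_comp Q₁ m a s t u v (hu _ h1), ← gs_comp Q₂ m a s' t' u' v' (hu _ h2)]
  refine Finset.sum_congr rfl fun r _ => ?_
  congr 2
  have h5 := h3 (r.1.val : ℤ) (r.2.val : ℤ)
  have h6 : ((Q₁.ev (s * (r.1.val : ℤ) + t * (r.2.val : ℤ), u * (r.1.val : ℤ) +
      v * (r.2.val : ℤ)) : ℤ) : ZMod m) = ((Q₂.ev (s' * (r.1.val : ℤ) + t' * (r.2.val : ℤ),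
      u' * (r.1.val : ℤ) + v' * (r.2.val : ℤ)) : ℤ) : ZMod m) := by rw [h5]
  unfold BQ.ev at h6 ⊢
  push_cast at h6
  simpa using h6

theorem Genus.neg {Q₁ Q₂ : BQ} {m : ℤ} (h : Genus Q₁ Q₂ m) : Genus Q₁ Q₂ (-m) := by
  obtain ⟨s, t, u, v, s', t', u', v', h1, h2, h3⟩ := h.ex
  exact ⟨s, t, u, v, s', t', u', v', h1.neg_right, h2.neg_right, h3⟩

/-- boundedness, `m > 0` -/
theorem th_bdd_aux {Q : BQ} (h : Q.Pos) (m : ℕ) [NeZero m] (a b d n : ℤ)
    (hdet : a * d - b * m = n) (hn : 0 < n) : ∃ C : ℝ, 0 ≤ C ∧ ∀ z : ℂ, 1 ≤ z.im →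
      ‖th Q ((a * z + b) / (m * z + d))‖ ≤ C * ‖(m * z + d : ℂ)‖ := by
  obtain ⟨C, ε, hC, hε, hb⟩ := th_cusp h m a b d n hdet hn
  have hsq := Real.sqrt_pos.mpr h.absD_pos
  have hm : (0 : ℝ) < m := by exact_mod_cast Nat.pos_of_ne_zero (NeZero.ne m)
  have hn' : (0 : ℝ) < n := by exact_mod_cast hn
  refine ⟨C + 1 / (n * m * Real.sqrt Q.absD) * (m : ℝ) ^ 2, by positivity, fun z hz => ?_⟩
  have hz0 : 0 < z.im := one_pos.trans_le hz
  have h1 : ‖-I * (m * z + d) / (n * m * (Real.sqrt Q.absD : ℝ))‖ =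
      1 / (n * m * Real.sqrt Q.absD) * ‖(m * z + d : ℂ)‖ := by
    rw [norm_div, norm_mul, norm_neg, norm_I, one_mul, norm_mul, norm_mul, Complex.norm_intCast,
      Complex.norm_natCast, Complex.norm_real, Real.norm_eq_abs, abs_of_pos hsq, abs_of_pos hn']
    ring
  have h2 : ‖th Q ((a * z + b) / (m * z + d))‖ ≤
      ‖th Q ((a * z + b) / (m * z + d)) -
        (-I * (m * z + d) / (n * m * (Real.sqrt Q.absD : ℝ))) * gs Q m a (0, 0)‖ +
      ‖(-I * (m * z + d) / (n * m * (Real.sqrt Q.absD : ℝ))) * gs Q m a (0, 0)‖ := by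
    have := norm_add_le (th Q ((a * z + b) / (m * z + d)) -
        (-I * (m * z + d) / (n * m * (Real.sqrt Q.absD : ℝ))) * gs Q m a (0, 0))
        ((-I * (m * z + d) / (n * m * (Real.sqrt Q.absD : ℝ))) * gs Q m a (0, 0))
    rwa [sub_add_cancel] at this
  refine h2.trans ?_
  rw [norm_mul, h1, add_mul]
  have h3 : Real.exp (-(ε * z.im)) ≤ 1 := by
    rw [Real.exp_le_one_iff]
    have : 0 < ε * z.im := by positivity
    linarith
  have h4 : C * ‖(m * z + d : ℂ)‖ * Real.exp (-(ε * z.im)) ≤ C * ‖(m * z + d : ℂ)‖ :=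
    mul_le_of_le_one_right (by positivity) h3
  have h5 : 1 / (n * m * Real.sqrt Q.absD) * ‖(m * z + d : ℂ)‖ * ‖gs Q m a (0, 0)‖ ≤
      1 / (n * m * Real.sqrt Q.absD) * (m : ℝ) ^ 2 * ‖(m * z + d : ℂ)‖ := by
    have := mul_le_mul_of_nonneg_left (norm_gs_le Q m a (0, 0))
      (show 0 ≤ 1 / (n * m * Real.sqrt Q.absD) * ‖(m * z + d : ℂ)‖ by positivity)
    linarith
  linarith [hb z hz]

/-- the affine case -/
theorem th_affine {Q : BQ} (h : Q.Pos) (a b d : ℤ) (had : 0 < a * d) : ∃ C ε : ℝ, 0 ≤ C ∧ 0 < ε ∧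
    ∀ z : ℂ, 1 ≤ z.im → ‖th Q ((a * z + b) / d) - 1‖ ≤ C * ‖(d : ℂ)‖ * Real.exp (-(ε * z.im)) := by
  have had' : (0 : ℝ) < (a : ℝ) * d := by exact_mod_cast had
  have hd : (d : ℝ) ≠ 0 := by
    rintro h0
    rw [h0] at had'
    simp at had'
  have hq : (0 : ℝ) < a / d := by
    have : (a : ℝ) / d = a * d / d ^ 2 := by field_simp
    rw [this]; positivity
  obtain ⟨C, hC, hb⟩ := th_sub_one h hq
  have hd1 : (1 : ℝ) ≤ ‖(d : ℂ)‖ := by
    rw [Complex.norm_intCast]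
    have : d ≠ 0 := by exact_mod_cast hd
    exact_mod_cast Int.one_le_abs this
  refine ⟨C, 2 * π * (a / d), hC, by positivity, fun z hz => ?_⟩
  have him : ((a * z + b) / d : ℂ).im = a / d * z.im := by
    have : ((a * z + b) / d : ℂ) = ((a / d : ℝ) : ℂ) * z + ((b / d : ℝ) : ℂ) := by
      push_cast
      have : (d : ℂ) ≠ 0 := by exact_mod_cast hd
      field_simp
    rw [this, add_im, im_ofReal_mul, ofReal_im, add_zero]
  have := hb ((a * z + b) / d) (by rw [him]; nlinarith)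
  rw [him] at this
  refine this.trans ?_
  have e1 : -(2 * π * (a / d * z.im)) = -(2 * π * (a / d) * z.im) := by ring
  rw [e1]
  refine mul_le_mul_of_nonneg_right ?_ (Real.exp_pos _).le
  nlinarith

/-- **Boundedness at all cusps** of `th Q | M`. -/
theorem th_bdd {Q : BQ} (h : Q.Pos) (a b c d : ℤ) (hdet : 0 < a * d - b * c) :
    ∃ C : ℝ, 0 ≤ C ∧ ∀ z : ℂ, 1 ≤ z.im →
      ‖th Q ((a * z + b) / (c * z + d))‖ ≤ C * ‖(c * z + d : ℂ)‖ := by
  rcases lt_trichotomy c 0 with hc | hc | hc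
  · have : NeZero c.natAbs := ⟨by omega⟩
    have e0 : ((c.natAbs : ℕ) : ℤ) = -c := by omega
    have e1 : ((c.natAbs : ℕ) : ℂ) = -(c : ℂ) := by
      have : (((c.natAbs : ℕ) : ℤ) : ℂ) = ((-c : ℤ) : ℂ) := by rw [e0]
      rw [Int.cast_natCast, Int.cast_neg] at this
      exact this
    obtain ⟨C, hC, hb⟩ := th_bdd_aux h c.natAbs (-a) (-b) (-d) (a * d - b * c)
      (by rw [e0]; ring) hdet
    refine ⟨C, hC, fun z hz => ?_⟩
    have := hb z hz
    rw [e1] at this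
    have e2 : (((-a : ℤ) : ℂ) * z + ((-b : ℤ) : ℂ)) / (-(c : ℂ) * z + ((-d : ℤ) : ℂ)) =
        (a * z + b) / (c * z + d) := by
      rw [← neg_div_neg_eq]
      push_cast
      congr 1 <;> ring
    have e3 : ‖(-(c : ℂ) * z + ((-d : ℤ) : ℂ))‖ = ‖(c * z + d : ℂ)‖ := by
      rw [← norm_neg]
      congr 1
      push_cast
      ring
    rwa [e2, e3] at this
  · subst hc
    obtain ⟨C, ε, hC, hε, hb⟩ := th_affine h a b d (by linarith)
    have hd1 : (1 : ℝ) ≤ ‖(d : ℂ)‖ := by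
      rw [Complex.norm_intCast]
      have : d ≠ 0 := by
        rintro rfl
        simp at hdet
      exact_mod_cast Int.one_le_abs this
    refine ⟨C + 1, by linarith, fun z hz => ?_⟩
    have h1 := hb z hz
    push_cast
    rw [zero_mul, zero_add]
    have h2 : ‖th Q ((a * z + b) / d)‖ ≤ ‖th Q ((a * z + b) / d) - 1‖ + 1 := by
      have := norm_add_le (th Q ((a * z + b) / d) - 1) 1
      rw [sub_add_cancel, norm_one] at this
      exact this
    have h3 : Real.exp (-(ε * z.im)) ≤ 1 := by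
      rw [Real.exp_le_one_iff]
      have : 0 < ε * z.im := by positivity
      linarith
    have h4 : C * ‖(d : ℂ)‖ * Real.exp (-(ε * z.im)) ≤ C * ‖(d : ℂ)‖ :=
      mul_le_of_le_one_right (by positivity) h3
    linarith
  · have : NeZero c.toNat := ⟨by omega⟩
    have e0 : ((c.toNat : ℕ) : ℤ) = c := by omega
    have e1 : ((c.toNat : ℕ) : ℂ) = (c : ℂ) := by
      have : (((c.toNat : ℕ) : ℤ) : ℂ) = ((c : ℤ) : ℂ) := by rw [e0]
      push_cast at this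
      exact this
    obtain ⟨C, hC, hb⟩ := th_bdd_aux h c.toNat a b d (a * d - b * c) (by rw [e0]) hdet
    refine ⟨C, hC, fun z hz => ?_⟩
    have := hb z hz
    rwa [e1] at this

/-- **Difference of two theta series of the same genus**: vanishes at all cusps. -/
theorem th_diff' {Q₁ Q₂ : BQ} (h₁ : Q₁.Pos) (h₂ : Q₂.Pos) (hdisc : Q₁.disc = Q₂.disc)
    (a b c d : ℤ) (hdet : 0 < a * d - b * c) (hG : c ≠ 0 → Genus Q₁ Q₂ c) :
    ∃ C ε : ℝ, 0 ≤ C ∧ 0 < ε ∧ ∀ z : ℂ, 1 ≤ z.im →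
      ‖th Q₁ ((a * z + b) / (c * z + d)) - th Q₂ ((a * z + b) / (c * z + d))‖ ≤
        C * ‖(c * z + d : ℂ)‖ * Real.exp (-(ε * z.im)) := by
  have main : ∀ (m : ℕ) [NeZero m] (a b d n : ℤ) (_ : a * d - b * m = n) (_ : 0 < n)
      (_ : Genus Q₁ Q₂ m), ∃ C ε : ℝ, 0 ≤ C ∧ 0 < ε ∧ ∀ z : ℂ, 1 ≤ z.im →
      ‖th Q₁ ((a * z + b) / (m * z + d)) - th Q₂ ((a * z + b) / (m * z + d))‖ ≤
        C * ‖(m * z + d : ℂ)‖ * Real.exp (-(ε * z.im)) := by
    intro m _ a b d n hdet hn hG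
    obtain ⟨C₁, ε₁, hC₁, hε₁, hb₁⟩ := th_cusp h₁ m a b d n hdet hn
    obtain ⟨C₂, ε₂, hC₂, hε₂, hb₂⟩ := th_cusp h₂ m a b d n hdet hn
    refine ⟨C₁ + C₂, min ε₁ ε₂, by positivity, lt_min hε₁ hε₂, fun z hz => ?_⟩
    have hz0 : 0 < z.im := one_pos.trans_le hz
    have hD : Q₁.absD = Q₂.absD := by unfold BQ.absD; rw [hdisc]
    have e1 := hb₁ z hz
    have e2 := hb₂ z hz
    rw [hG.gs_eq, hD] at e1
    have key : th Q₁ ((a * z + b) / (m * z + d)) - th Q₂ ((a * z + b) / (m * z + d)) =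
      (th Q₁ ((a * z + b) / (m * z + d)) -
        (-I * (m * z + d) / (n * m * (Real.sqrt Q₂.absD : ℝ))) * gs Q₂ m a (0, 0)) -
      (th Q₂ ((a * z + b) / (m * z + d)) -
        (-I * (m * z + d) / (n * m * (Real.sqrt Q₂.absD : ℝ))) * gs Q₂ m a (0, 0)) := by ring
    rw [key]
    refine (norm_sub_le _ _).trans ?_
    have f1 : Real.exp (-(ε₁ * z.im)) ≤ Real.exp (-(min ε₁ ε₂ * z.im)) := by
      rw [Real.exp_le_exp]
      have := mul_le_mul_of_nonneg_right (min_le_left ε₁ ε₂) hz0.le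
      linarith
    have f2 : Real.exp (-(ε₂ * z.im)) ≤ Real.exp (-(min ε₁ ε₂ * z.im)) := by
      rw [Real.exp_le_exp]
      have := mul_le_mul_of_nonneg_right (min_le_right ε₁ ε₂) hz0.le
      linarith
    have g1 := mul_le_mul_of_nonneg_left f1 (show 0 ≤ C₁ * ‖(m * z + d : ℂ)‖ by positivity)
    have g2 := mul_le_mul_of_nonneg_left f2 (show 0 ≤ C₂ * ‖(m * z + d : ℂ)‖ by positivity)
    linarith
  rcases lt_trichotomy c 0 with hc | hc | hc
  · have : NeZero c.natAbs := ⟨by omega⟩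
    have e0 : ((c.natAbs : ℕ) : ℤ) = -c := by omega
    have e1 : ((c.natAbs : ℕ) : ℂ) = -(c : ℂ) := by
      have : (((c.natAbs : ℕ) : ℤ) : ℂ) = ((-c : ℤ) : ℂ) := by rw [e0]
      rw [Int.cast_natCast, Int.cast_neg] at this
      exact this
    obtain ⟨C, ε, hC, hε, hb⟩ := main c.natAbs (-a) (-b) (-d) (a * d - b * c)
      (by rw [e0]; ring) hdet (by rw [e0]; exact (hG hc.ne).neg)
    refine ⟨C, ε, hC, hε, fun z hz => ?_⟩
    have := hb z hz
    rw [e1] at this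
    have e2 : (((-a : ℤ) : ℂ) * z + ((-b : ℤ) : ℂ)) / (-(c : ℂ) * z + ((-d : ℤ) : ℂ)) =
        (a * z + b) / (c * z + d) := by
      rw [← neg_div_neg_eq]
      push_cast
      congr 1 <;> ring
    have e3 : ‖(-(c : ℂ) * z + ((-d : ℤ) : ℂ))‖ = ‖(c * z + d : ℂ)‖ := by
      rw [← norm_neg]
      congr 1
      push_cast
      ring
    rwa [e2, e3] at this
  · subst hc
    obtain ⟨C₁, ε₁, hC₁, hε₁, hb₁⟩ := th_affine h₁ a b d (by linarith)
    obtain ⟨C₂, ε₂, hC₂, hε₂, hb₂⟩ := th_affine h₂ a b d (by linarith)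
    refine ⟨C₁ + C₂, min ε₁ ε₂, by positivity, lt_min hε₁ hε₂, fun z hz => ?_⟩
    have hz0 : 0 < z.im := one_pos.trans_le hz
    have e1 := hb₁ z hz
    have e2 := hb₂ z hz
    push_cast
    rw [zero_mul, zero_add]
    have key : th Q₁ ((a * z + b) / d) - th Q₂ ((a * z + b) / d) =
      (th Q₁ ((a * z + b) / d) - 1) - (th Q₂ ((a * z + b) / d) - 1) := by ring
    rw [key]
    refine (norm_sub_le _ _).trans ?_
    have f1 : Real.exp (-(ε₁ * z.im)) ≤ Real.exp (-(min ε₁ ε₂ * z.im)) := by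
      rw [Real.exp_le_exp]
      have := mul_le_mul_of_nonneg_right (min_le_left ε₁ ε₂) hz0.le
      linarith
    have f2 : Real.exp (-(ε₂ * z.im)) ≤ Real.exp (-(min ε₁ ε₂ * z.im)) := by
      rw [Real.exp_le_exp]
      have := mul_le_mul_of_nonneg_right (min_le_right ε₁ ε₂) hz0.le
      linarith
    have g1 := mul_le_mul_of_nonneg_left f1 (show 0 ≤ C₁ * ‖(d : ℂ)‖ by positivity)
    have g2 := mul_le_mul_of_nonneg_left f2 (show 0 ≤ C₂ * ‖(d : ℂ)‖ by positivity)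
    linarith
  · have : NeZero c.toNat := ⟨by omega⟩
    have e0 : ((c.toNat : ℕ) : ℤ) = c := by omega
    have e1 : ((c.toNat : ℕ) : ℂ) = (c : ℂ) := by
      have : (((c.toNat : ℕ) : ℤ) : ℂ) = ((c : ℤ) : ℂ) := by rw [e0]
      push_cast at this
      exact this
    obtain ⟨C, ε, hC, hε, hb⟩ := main c.toNat a b d (a * d - b * c) (by rw [e0]) hdet
      (by rw [e0]; exact hG hc.ne')
    refine ⟨C, ε, hC, hε, fun z hz => ?_⟩
    have := hb z hz
    rwa [e1] at this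

/-- **Difference of two theta series of the same genus**: vanishes at all cusps. -/
theorem th_diff {Q₁ Q₂ : BQ} (h₁ : Q₁.Pos) (h₂ : Q₂.Pos) (hdisc : Q₁.disc = Q₂.disc)
    (a b c d : ℤ) (hdet : 0 < a * d - b * c) (hG : Genus Q₁ Q₂ c) :
    ∃ C ε : ℝ, 0 ≤ C ∧ 0 < ε ∧ ∀ z : ℂ, 1 ≤ z.im →
      ‖th Q₁ ((a * z + b) / (c * z + d)) - th Q₂ ((a * z + b) / (c * z + d))‖ ≤
        C * ‖(c * z + d : ℂ)‖ * Real.exp (-(ε * z.im)) :=
  th_diff' h₁ h₂ hdisc a b c d hdet fun _ => hG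

end Fermat.Agent.LTF.Theta
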