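import Mathlib

/-!
The ring of integers of `ℚ(√-N)`, `N` even and squarefree.
-/

set_option autoImplicit false

open NumberField Module nonZeroDivisors

namespace Fermat.Agent.LTF.Theta

/-- `K = ℚ(s)`, `s² = -N`, `N` even squarefree. -/
structure IQ (K : Type*) [Field K] [NumberField K] (N : ℕ) (s : K) : Prop where
  rank : finrank ℚ K = 2
  sqf : Squarefree N
  even : Even N
  ssq : s ^ 2 = -(N : K)

namespace IQ

variable {K : Type*} [Field K] [NumberField K] {N : ℕ} {s : K} (h : IQ K N s)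

include h

lemma N_ne_zero : N ≠ 0 := h.sqf.ne_zero

lemma N_pos : 0 < N := Nat.pos_of_ne_zero h.N_ne_zero

lemma two_le : 2 ≤ N := by
  obtain ⟨k, hk⟩ := h.even
  have := h.N_pos
  omega

lemma s_ne (q : ℚ) : algebraMap ℚ K q ≠ s := by
  intro hq
  have h1 : algebraMap ℚ K (q ^ 2) = algebraMap ℚ K (-(N : ℚ)) := by
    rw [map_pow, hq, h.ssq]; simp
  have h2 := (algebraMap ℚ K).injective h1
  have h3 : (0 : ℚ) < N := by exact_mod_cast h.N_pos
  nlinarith [sq_nonneg q]

lemma linInd : LinearIndependent ℚ ![(1 : K), s] := by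
  rw [LinearIndependent.pair_iff]
  intro a b hab
  have hb : b = 0 := by
    by_contra hb
    apply h.s_ne (-a / b)
    rw [Algebra.smul_def, Algebra.smul_def, mul_one] at hab
    rw [map_div₀, map_neg]
    have hb' : algebraMap ℚ K b ≠ 0 := by
      intro h0
      exact hb ((algebraMap ℚ K).injective (by rw [h0, map_zero]))
    field_simp
    linear_combination -hab
  subst hb
  rw [zero_smul, add_zero, Algebra.smul_def, mul_one] at hab
  exact ⟨(algebraMap ℚ K).injective (by rw [hab, map_zero]), rfl⟩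

/-- the basis `1, s` -/
noncomputable def bas : Basis (Fin 2) ℚ K :=
  basisOfLinearIndependentOfCardEqFinrank h.linInd (by rw [h.rank, Fintype.card_fin])

lemma bas_zero : h.bas 0 = 1 := by simp [bas]

lemma bas_one : h.bas 1 = s := by simp [bas]

lemma exists_coord (x : K) : ∃ a b : ℚ, x = algebraMap ℚ K a + algebraMap ℚ K b * s := by
  refine ⟨h.bas.repr x 0, h.bas.repr x 1, ?_⟩
  conv_lhs => rw [← h.bas.sum_repr x]
  rw [Fin.sum_univ_two, h.bas_zero, h.bas_one, Algebra.smul_def, Algebra.smul_def, mul_one]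

lemma repr_eq (a b : ℚ) (x : K) (hx : x = algebraMap ℚ K a + algebraMap ℚ K b * s) :
    h.bas.repr x 0 = a ∧ h.bas.repr x 1 = b := by
  have h1 : x = a • h.bas 0 + b • h.bas 1 := by
    rw [hx, h.bas_zero, h.bas_one, Algebra.smul_def, Algebra.smul_def, mul_one]
  rw [h1]
  constructor <;> simp

lemma mulMat (a b : ℚ) : Algebra.leftMulMatrix h.bas (algebraMap ℚ K a + algebraMap ℚ K b * s) =
    !![a, -(b * N); b, a] := by
  have h0 := h.repr_eq a b ((algebraMap ℚ K a + algebraMap ℚ K b * s) * h.bas 0)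
    (by rw [h.bas_zero, mul_one])
  have h1 := h.repr_eq (-(b * N)) a ((algebraMap ℚ K a + algebraMap ℚ K b * s) * h.bas 1) (by
    rw [h.bas_one, map_neg, map_mul, map_natCast]
    linear_combination (algebraMap ℚ K b) * h.ssq)
  ext i j
  rw [Algebra.leftMulMatrix_eq_repr_mul]
  fin_cases i <;> fin_cases j
  · exact h0.1
  · exact h1.1
  · exact h0.2
  · exact h1.2

lemma norm_eq (a b : ℚ) :
    Algebra.norm ℚ (algebraMap ℚ K a + algebraMap ℚ K b * s) = a ^ 2 + N * b ^ 2 := by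
  rw [Algebra.norm_eq_matrix_det h.bas, h.mulMat, Matrix.det_fin_two_of]
  ring

lemma trace_eq (a b : ℚ) :
    Algebra.trace ℚ K (algebraMap ℚ K a + algebraMap ℚ K b * s) = 2 * a := by
  rw [Algebra.trace_eq_matrix_trace h.bas, h.mulMat, Matrix.trace_fin_two_of]
  ring

lemma isIntegral_s : IsIntegral ℤ s := by
  refine ⟨Polynomial.X ^ 2 + Polynomial.C (N : ℤ), ?_, ?_⟩
  · exact Polynomial.monic_X_pow_add_C _ (by norm_num)
  · simp [h.ssq]

/-- `s` as an algebraic integer -/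
noncomputable def sO : 𝓞 K := ⟨s, h.isIntegral_s⟩

@[simp] lemma coe_sO : algebraMap (𝓞 K) K h.sO = s := rfl

lemma sO_sq : h.sO ^ 2 = -(N : 𝓞 K) := by
  apply RingOfIntegers.coe_injective
  rw [map_pow, h.coe_sO, h.ssq, map_neg, map_natCast]

/-- an integer which is a square of an integer over... auxiliary: `B ∈ ℤ` if `N B² ∈ ℤ`. -/
lemma int_of_sq (B : ℚ) (m : ℤ) (hB : (N : ℚ) * B ^ 2 = m) : ∃ k : ℤ, B = k := by
  have hden : ((B.den : ℤ) ^ 2) ∣ (N : ℤ) := by
    have h1 : (N : ℤ) * B.num ^ 2 = m * (B.den : ℤ) ^ 2 := by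
      have hB' : B = (B.num : ℚ) / B.den := (Rat.num_div_den B).symm
      have hd : (B.den : ℚ) ≠ 0 := by exact_mod_cast B.den_nz
      rw [hB'] at hB
      field_simp at hB
      have hB2 : (N : ℤ) * B.num ^ 2 = (B.den : ℤ) ^ 2 * m := by exact_mod_cast hB
      rw [hB2, mul_comm]
    have hcop : IsCoprime ((B.den : ℤ) ^ 2) (B.num ^ 2) := by
      apply IsCoprime.pow
      rw [Int.isCoprime_iff_gcd_eq_one, Int.gcd_comm]
      have := B.reduced
      rwa [Int.gcd, Int.natAbs_natCast]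
    exact hcop.dvd_of_dvd_mul_right (Dvd.intro_left m h1.symm)
  have hd1 : B.den = 1 := by
    have h2 : (B.den * B.den) ∣ N := by
      have := Int.natCast_dvd_natCast.mp (by push_cast; rw [← pow_two]; exact hden : ((B.den * B.den : ℕ) : ℤ) ∣ (N : ℤ))
      exact this
    have := h.sqf _ h2
    exact Nat.isUnit_iff.mp this
  exact ⟨B.num, by rw [← Rat.num_div_den B, hd1]; simp⟩

lemma exists_int_coord (x : 𝓞 K) : ∃ a b : ℤ, x = (a : 𝓞 K) + (b : 𝓞 K) * h.sO := by
  obtain ⟨a, b, hab⟩ := h.exists_coord (x : K)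
  have hint : IsIntegral ℤ (x : K) := x.2
  -- trace
  obtain ⟨A, hA⟩ : ∃ A : ℤ, (A : ℚ) = 2 * a := by
    have h1 : IsIntegral ℤ (Algebra.trace ℚ K (x : K)) := Algebra.isIntegral_trace hint
    rw [hab, h.trace_eq] at h1
    obtain ⟨A, hA⟩ := IsIntegrallyClosed.isIntegral_iff.mp h1
    exact ⟨A, by simpa using hA⟩
  obtain ⟨n, hn⟩ : ∃ n : ℤ, (n : ℚ) = a ^ 2 + N * b ^ 2 := by
    have h1 : IsIntegral ℤ (Algebra.norm ℚ (x : K)) := Algebra.isIntegral_norm ℚ hint
    rw [hab, h.norm_eq] at h1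
    obtain ⟨A, hA⟩ := IsIntegrallyClosed.isIntegral_iff.mp h1
    exact ⟨A, by simpa using hA⟩
  obtain ⟨B, hB⟩ := h.int_of_sq (2 * b) (4 * n - A ^ 2) (by
    push_cast
    rw [hA, hn]
    ring)
  -- A ^ 2 + N B ^ 2 = 4 n
  have h4 : A ^ 2 + (N : ℤ) * B ^ 2 = 4 * n := by
    have : (A : ℚ) ^ 2 + (N : ℚ) * (B : ℚ) ^ 2 = 4 * n := by
      rw [hA, ← hB, hn]; ring
    exact_mod_cast this
  obtain ⟨m, hm⟩ := h.even
  have hmodd : m % 2 = 1 := by
    rcases Nat.mod_two_eq_zero_or_one m with h0 | h0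
    · exfalso
      obtain ⟨k, hk⟩ := Nat.dvd_of_mod_eq_zero h0
      have : 2 * 2 ∣ N := ⟨k, by omega⟩
      have := h.sqf 2 this
      rw [Nat.isUnit_iff] at this
      omega
    · exact h0
  have hN : (N : ℤ) = 2 * m := by exact_mod_cast (by omega : N = 2 * m)
  have hmo : (m : ℤ) % 2 = 1 := by exact_mod_cast congrArg (Nat.cast (R := ℤ)) hmodd
  have hA2 : A % 2 = 0 := by
    rcases Int.emod_two_eq_zero_or_one A with h0 | h0
    · exact h0
    · exfalso
      have h5 : A ^ 2 % 2 = 1 := by rw [pow_two, Int.mul_emod, h0]; norm_num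
      rw [hN] at h4
      have h6 : A ^ 2 = 2 * (2 * n - m * B ^ 2) := by linarith
      omega
  obtain ⟨A', hA'⟩ := Int.dvd_of_emod_eq_zero hA2
  have hB2 : B % 2 = 0 := by
    rcases Int.emod_two_eq_zero_or_one B with h0 | h0
    · exact h0
    · exfalso
      have h5 : ((m : ℤ) * B ^ 2) % 2 = 1 := by
        rw [pow_two, Int.mul_emod, hmo, Int.mul_emod B B, h0]; norm_num
      rw [hN, hA'] at h4
      have h6 : (m : ℤ) * B ^ 2 = 2 * n - 2 * A' ^ 2 := by linarith [h4]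
      omega
  obtain ⟨B', hB'⟩ := Int.dvd_of_emod_eq_zero hB2
  refine ⟨A', B', RingOfIntegers.coe_injective ?_⟩
  have ha : a = A' := by
    have : (2 : ℚ) * a = 2 * A' := by rw [← hA, hA']; push_cast; ring
    linarith
  have hb : b = B' := by
    have : (2 : ℚ) * b = 2 * B' := by rw [hB, hB']; push_cast; ring
    linarith
  change (x : K) = _
  rw [hab, ha, hb, map_add, map_mul, h.coe_sO]
  simp

lemma coord_unique {a b a' b' : ℤ}
    (hh : (a : 𝓞 K) + (b : 𝓞 K) * h.sO = (a' : 𝓞 K) + (b' : 𝓞 K) * h.sO) : a = a' ∧ b = b' := by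
  have h1 := congrArg (fun x : 𝓞 K => (x : K)) hh
  simp only [map_add, map_mul, map_intCast, h.coe_sO] at h1
  have e1 := h.repr_eq a b ((a : K) + (b : K) * s) (by simp)
  have e2 := h.repr_eq a' b' ((a : K) + (b : K) * s) (by rw [h1]; simp)
  constructor
  · have := e1.1.symm.trans e2.1
    exact_mod_cast this
  · have := e1.2.symm.trans e2.2
    exact_mod_cast this

lemma linIndO : LinearIndependent ℤ ![(1 : 𝓞 K), h.sO] := by
  rw [LinearIndependent.pair_iff]
  intro a b hab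
  apply h.coord_unique (a' := 0) (b' := 0)
  simpa [zsmul_eq_mul] using hab

lemma spanO : ⊤ ≤ Submodule.span ℤ (Set.range ![(1 : 𝓞 K), h.sO]) := by
  intro x _
  obtain ⟨a, b, rfl⟩ := h.exists_int_coord x
  have e1 : (1 : 𝓞 K) ∈ Submodule.span ℤ (Set.range ![(1 : 𝓞 K), h.sO]) :=
    Submodule.subset_span ⟨0, rfl⟩
  have e2 : h.sO ∈ Submodule.span ℤ (Set.range ![(1 : 𝓞 K), h.sO]) :=
    Submodule.subset_span ⟨1, rfl⟩
  have := Submodule.add_mem _ (Submodule.smul_mem _ a e1) (Submodule.smul_mem _ b e2)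
  simpa [zsmul_eq_mul] using this

/-- the `ℤ`-basis `1, s` -/
noncomputable def basO : Basis (Fin 2) ℤ (𝓞 K) := Basis.mk h.linIndO h.spanO

lemma basO_zero : h.basO 0 = 1 := by simp [basO]

lemma basO_one : h.basO 1 = h.sO := by simp [basO]

lemma reprO_eq (a b : ℤ) (x : 𝓞 K) (hx : x = (a : 𝓞 K) + (b : 𝓞 K) * h.sO) :
    h.basO.repr x 0 = a ∧ h.basO.repr x 1 = b := by
  have h1 : x = a • h.basO 0 + b • h.basO 1 := by
    rw [hx, h.basO_zero, h.basO_one, zsmul_eq_mul, zsmul_eq_mul, mul_one]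
  rw [h1, map_add, map_smul, map_smul, Basis.repr_self, Basis.repr_self]
  constructor <;> simp

lemma normO_eq (a b : ℤ) :
    Algebra.norm ℤ ((a : 𝓞 K) + (b : 𝓞 K) * h.sO) = a ^ 2 + N * b ^ 2 := by
  have h1 := Algebra.coe_norm_int ((a : 𝓞 K) + (b : 𝓞 K) * h.sO)
  have h2 := h.norm_eq a b
  have h3 : (((a : 𝓞 K) + (b : 𝓞 K) * h.sO : 𝓞 K) : K) =
      algebraMap ℚ K a + algebraMap ℚ K b * s := by
    simp
  rw [h3, h2] at h1
  exact_mod_cast h1

lemma absNorm_span (a b : ℤ) :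
    (Ideal.absNorm (Ideal.span {(a : 𝓞 K) + (b : 𝓞 K) * h.sO}) : ℤ) = a ^ 2 + N * b ^ 2 := by
  rw [Ideal.absNorm_span_singleton, h.normO_eq, Int.natCast_natAbs, abs_of_nonneg]
  positivity

/-- the units -/
lemma unit_eq (u : (𝓞 K)ˣ) : u = 1 ∨ u = -1 := by
  obtain ⟨a, b, hab⟩ := h.exists_int_coord (u : 𝓞 K)
  have h1 : Ideal.span {(u : 𝓞 K)} = ⊤ := Ideal.span_singleton_eq_top.mpr u.isUnit
  have h2 := h.absNorm_span a b
  rw [← hab, h1, Ideal.absNorm_top] at h2
  have hN : (2 : ℤ) ≤ N := by exact_mod_cast h.two_le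
  have hb : b = 0 := by
    by_contra hb
    have : 1 ≤ b ^ 2 := by
      have := sq_pos_of_ne_zero hb
      omega
    have h3 := sq_nonneg a
    push_cast at h2
    nlinarith
  subst hb
  have ha : a ^ 2 = 1 := by push_cast at h2; linarith
  rcases sq_eq_one_iff.mp ha with h5 | h5
  · left
    apply Units.ext
    rw [hab, h5]; simp
  · right
    apply Units.ext
    rw [hab, h5]; simp

lemma card_units : Nat.card (𝓞 K)ˣ = 2 := by
  classical
  have hne : (1 : (𝓞 K)ˣ) ≠ -1 := by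
    intro h1
    have h2 := congrArg (fun u : (𝓞 K)ˣ => (u : 𝓞 K)) h1
    simp only [Units.val_one, Units.val_neg] at h2
    have h3 : (2 : 𝓞 K) = 0 := by linear_combination h2
    exact two_ne_zero h3
  have e : (Set.univ : Set (𝓞 K)ˣ) = {1, -1} := by
    ext u
    simp only [Set.mem_univ, Set.mem_insert_iff, Set.mem_singleton_iff, true_iff]
    exact h.unit_eq u
  rw [← Nat.card_univ, e, Nat.card_coe_set_eq, Set.ncard_pair hne]

end IQ

end Fermat.Agent.LTF.Theta
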