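import Fermat.Agent.LTF.Theta.Poisson

/-!
# Transformation formula of binary theta series under integral matrices (helper93)
-/

set_option autoImplicit false

namespace Fermat.Agent.LTF.Theta

open Complex Real

/-- An integral binary quadratic form `a x² + b x y + c y²`. -/
@[ext] structure BQ where
  a : ℤ
  b : ℤ
  c : ℤ

namespace BQ

/-- discriminant `b² - 4 a c` -/
def disc (Q : BQ) : ℤ := Q.b ^ 2 - 4 * Q.a * Q.c

/-- the value of the form over any commutative ring -/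
def ev {R : Type*} [CommRing R] (Q : BQ) (x : R × R) : R :=
  (Q.a : R) * x.1 ^ 2 + (Q.b : R) * x.1 * x.2 + (Q.c : R) * x.2 ^ 2

/-- `c x² - b x y + a y²` -/
def dual (Q : BQ) : BQ := ⟨Q.c, -Q.b, Q.a⟩

@[simp] theorem dual_disc (Q : BQ) : Q.dual.disc = Q.disc := by
  simp only [disc, dual]; ring

/-- positive definite -/
structure Pos (Q : BQ) : Prop where
  pos : 0 < Q.a
  neg : Q.disc < 0

theorem Pos.c_pos {Q : BQ} (h : Q.Pos) : 0 < Q.c := by
  have h1 := h.pos
  have h2 := h.neg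
  unfold disc at h2
  by_contra hc
  push Not at hc
  nlinarith [sq_nonneg Q.b]

theorem Pos.dual {Q : BQ} (h : Q.Pos) : Q.dual.Pos :=
  ⟨h.c_pos, by rw [dual_disc]; exact h.neg⟩

/-- `|D|` as a real number. -/
noncomputable def absD (Q : BQ) : ℝ := ((-Q.disc : ℤ) : ℝ)

theorem Pos.absD_pos {Q : BQ} (h : Q.Pos) : 0 < Q.absD := by
  unfold absD
  have := h.neg
  exact_mod_cast (by linarith : 0 < -Q.disc)

theorem absD_eq (Q : BQ) : Q.absD = 4 * (Q.a : ℝ) * Q.c - (Q.b : ℝ) ^ 2 := by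
  unfold absD disc
  push_cast
  ring

@[simp] theorem absD_dual (Q : BQ) : Q.dual.absD = Q.absD := by
  unfold absD; rw [dual_disc]

end BQ

/-- `e(t) = exp(2 π i t)` -/
noncomputable def e (t : ℂ) : ℂ := cexp (2 * π * I * t)

theorem e_add (s t : ℂ) : e (s + t) = e s * e t := by
  unfold e; rw [← Complex.exp_add]; ring_nf

theorem e_int (n : ℤ) : e n = 1 := by
  unfold e
  rw [show (2 * π * I * n : ℂ) = n * (2 * π * I) by ring]
  exact Complex.exp_int_mul_two_pi_mul_I n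

theorem e_add_int (t : ℂ) (n : ℤ) : e (t + n) = e t := by
  rw [e_add, e_int, mul_one]

theorem e_zero : e 0 = 1 := by unfold e; simp

theorem norm_e (t : ℂ) : ‖e t‖ = Real.exp (-(2 * π * t.im)) := by
  unfold e
  rw [Complex.norm_exp]
  congr 1
  rw [show (2 * π * I * t : ℂ) = ((2 * π : ℝ) : ℂ) * (I * t) by push_cast; ring, re_ofReal_mul,
    I_mul_re]
  ring

theorem norm_e_real (t : ℝ) : ‖e t‖ = 1 := by
  rw [norm_e, ofReal_im]
  simp

/-- the additive character of `ZMod m` in terms of `e` -/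
theorem stdAddChar_eq (m : ℕ) [NeZero m] (k : ℤ) :
    ZMod.stdAddChar (N := m) (k : ZMod m) = e (k / m) := by
  rw [ZMod.stdAddChar_coe]
  unfold e
  congr 1
  ring

/-- The equivalence `(r, y) ↦ r + m y`. -/
def resEquiv (m : ℕ) [NeZero m] : ZMod m × ℤ ≃ ℤ where
  toFun p := (p.1.val : ℤ) + m * p.2
  invFun x := ((x : ZMod m), x / m)
  left_inv p := by
    have hm : (m : ℤ) ≠ 0 := by exact_mod_cast NeZero.ne m
    have h1 : (0 : ℤ) ≤ (p.1.val : ℤ) := by positivity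
    have h2 : (p.1.val : ℤ) < m := by exact_mod_cast ZMod.val_lt p.1
    ext
    · simp
    · show ((p.1.val : ℤ) + m * p.2) / m = p.2
      rw [Int.add_mul_ediv_left _ _ hm, Int.ediv_eq_zero_of_lt h1 h2, zero_add]
  right_inv x := by
    show (((x : ZMod m).val : ℕ) : ℤ) + m * (x / m) = x
    rw [ZMod.val_intCast]
    exact Int.emod_add_mul_ediv x m

/-- splitting a sum over `ℤ²` into residue classes -/
theorem tsum_residues (m : ℕ) [NeZero m] (f : ℤ × ℤ → ℂ) (hf : Summable f) :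
    ∑' x, f x = ∑ r : ZMod m × ZMod m, ∑' y : ℤ × ℤ,
      f ((r.1.val : ℤ) + m * y.1, (r.2.val : ℤ) + m * y.2) := by
  let E : (ZMod m × ZMod m) × (ℤ × ℤ) ≃ ℤ × ℤ :=
    (Equiv.prodProdProdComm (ZMod m) (ZMod m) ℤ ℤ).trans
      (Equiv.prodCongr (resEquiv m) (resEquiv m))
  have hs : Summable (fun p : (ZMod m × ZMod m) × (ℤ × ℤ) => f (E p)) :=
    (Equiv.summable_iff E).mpr hf
  rw [← Equiv.tsum_eq E f, hs.tsum_prod, tsum_fintype]
  rfl

/-- The binary theta series. -/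
noncomputable def th (Q : BQ) (z : ℂ) : ℂ := ∑' x : ℤ × ℤ, e (z * (Q.ev x : ℤ))

theorem ev_qf (Q : BQ) (x : ℤ × ℤ) :
    ((Q.ev x : ℤ) : ℝ) = qf Q.a Q.b Q.c x.1 x.2 := by
  unfold BQ.ev qf
  push_cast
  ring

theorem ev_nonneg {Q : BQ} (h : Q.Pos) (x : ℤ × ℤ) : 0 ≤ Q.ev x := by
  have hD := h.absD_pos
  rw [BQ.absD_eq] at hD
  have ha : (0 : ℝ) < Q.a := by exact_mod_cast h.pos
  have := qf_ge Q.a Q.b Q.c ha hD x.1 x.2
  have h2 : (0 : ℝ) ≤ ((Q.ev x : ℤ) : ℝ) := by
    rw [ev_qf]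
    refine le_trans ?_ this
    have hc := C_pos _ _ _ ha hD
    positivity
  exact_mod_cast h2

/-- Summability of shifted theta series. -/
theorem summable_shift (Q : BQ) (h : Q.Pos) (u v : ℝ) (z : ℂ) (hz : 0 < z.im) :
    Summable (fun x : ℤ × ℤ => e (z * (qf Q.a Q.b Q.c ((x.1 : ℝ) + u) ((x.2 : ℝ) + v) : ℝ))) := by
  have hD := h.absD_pos
  rw [BQ.absD_eq] at hD
  have ha : (0 : ℝ) < Q.a := by exact_mod_cast h.pos
  refine (summable_theta2 Q.a Q.b Q.c ha hD u v z hz).congr fun x => ?_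
  unfold e
  congr 1
  ring

theorem summable_th (Q : BQ) (h : Q.Pos) (z : ℂ) (hz : 0 < z.im) :
    Summable (fun x : ℤ × ℤ => e (z * (Q.ev x : ℤ))) := by
  refine (summable_shift Q h 0 0 z hz).congr fun x => ?_
  simp only [add_zero]
  rw [← ev_qf]
  push_cast
  rfl

/-- The quadratic exponential sum appearing in the transformation formula. -/
noncomputable def gs (Q : BQ) (m : ℕ) [NeZero m] (a : ℤ) (Y : ℤ × ℤ) : ℂ :=
  ∑ r : ZMod m × ZMod m, ZMod.stdAddChar (N := m)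
    ((a : ZMod m) * Q.ev r + r.1 * (Y.1 : ZMod m) + r.2 * (Y.2 : ZMod m))

theorem dual_ev_qf (Q : BQ) (x : ℤ × ℤ) :
    ((Q.dual.ev x : ℤ) : ℝ) = qf Q.c (-Q.b) Q.a x.1 x.2 := by
  unfold BQ.ev qf BQ.dual
  push_cast
  ring

theorem im_pos_aux (m : ℕ) [NeZero m] (d n : ℤ) (hn : 0 < n) (z : ℂ) (hz : 0 < z.im) :
    (m * z + d : ℂ) ≠ 0 ∧ 0 < (-(n : ℂ) / (m * (m * z + d))).im := by
  have hm : (0 : ℝ) < m := by exact_mod_cast Nat.pos_of_ne_zero (NeZero.ne m)
  have him : (m * z + d : ℂ).im = m * z.im := by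
    simp
  have hne : (m * z + d : ℂ) ≠ 0 := by
    intro h
    rw [h] at him
    simp only [zero_im] at him
    have : 0 < (m : ℝ) * z.im := by positivity
    linarith
  refine ⟨hne, ?_⟩
  have e1 : (-(n : ℂ) / (m * (m * z + d))) = ((-(n : ℝ) / m : ℝ) : ℂ) * (m * z + d : ℂ)⁻¹ := by
    push_cast
    have : (m : ℂ) ≠ 0 := by exact_mod_cast NeZero.ne m
    field_simp
  rw [e1, im_ofReal_mul, inv_im, him]
  have h2 := normSq_pos.mpr hne
  have h3 : (0 : ℝ) < n := by exact_mod_cast hn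
  have : -(n : ℝ) / m * (-(m * z.im) / normSq (m * z + d)) = n * z.im / normSq (m * z + d) := by
    field_simp
  rw [this]
  positivity

/-- **General transformation formula**: for an integral matrix `(a b; m d)` of determinant
`n > 0` with `m > 0`. -/
theorem th_transform (Q : BQ) (hQ : Q.Pos) (m : ℕ) [NeZero m] (a b d : ℤ) (n : ℤ)
    (hdet : a * d - b * m = n) (hn : 0 < n) (z : ℂ) (hz : 0 < z.im) :
    th Q ((a * z + b) / (m * z + d)) =
      (-I * (m * z + d) / (n * m * (Real.sqrt Q.absD : ℝ))) *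
        ∑' Y : ℤ × ℤ, gs Q m a Y * e ((m * z + d) / (n * m) *
          ((Q.dual.ev Y : ℤ) / (Q.absD : ℝ))) := by
  have hD := hQ.absD_pos
  have hD' := hD
  rw [BQ.absD_eq] at hD'
  have ha : (0 : ℝ) < Q.a := by exact_mod_cast hQ.pos
  obtain ⟨hne, hw⟩ := im_pos_aux m d n hn z hz
  have hm : (m : ℂ) ≠ 0 := by exact_mod_cast NeZero.ne m
  have hmR : (m : ℝ) ≠ 0 := by exact_mod_cast NeZero.ne m
  have hn0 : (n : ℂ) ≠ 0 := by exact_mod_cast hn.ne'
  have hD0 : (Q.absD : ℂ) ≠ 0 := by exact_mod_cast hD.ne'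
  have hsq : ((Real.sqrt Q.absD : ℝ) : ℂ) ≠ 0 := by exact_mod_cast (Real.sqrt_pos.mpr hD).ne'
  set w : ℂ := -(n : ℂ) / (m * (m * z + d)) with hwdef
  have hMz : (a * z + b) / (m * z + d) = a / m + w := by
    rw [hwdef]
    have hdet' : (n : ℂ) = a * d - b * m := by rw [← hdet]; push_cast; ring
    have h1 : (m : ℂ) * (m * z + d) ≠ 0 := mul_ne_zero hm hne
    rw [div_add_div _ _ hm h1, div_eq_div_iff hne (mul_ne_zero hm h1), hdet']
    ring
  have hw0 : w ≠ 0 := by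
    intro h
    rw [h] at hw
    simp at hw
  have hMim : 0 < ((a * z + b) / (m * z + d) : ℂ).im := by
    rw [hMz, add_im]
    have : ((a : ℂ) / m).im = 0 := by
      rw [show ((a : ℂ) / m) = (((a : ℝ) / m : ℝ) : ℂ) by push_cast; ring, ofReal_im]
    rw [this, zero_add]
    exact hw
  have hs := summable_th Q hQ _ hMim
  unfold th
  rw [tsum_residues m _ hs]
  -- the inner sums
  have hmw : 0 < ((m : ℂ) ^ 2 * w).im := by
    rw [show ((m : ℂ) ^ 2 * w) = (((m : ℝ) ^ 2 : ℝ) : ℂ) * w by push_cast; ring, im_ofReal_mul]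
    have : (0 : ℝ) < (m : ℝ) ^ 2 := by positivity
    positivity
  have key : ∀ r : ZMod m × ZMod m,
      (∑' y : ℤ × ℤ, e ((a * z + b) / (m * z + d) *
        (Q.ev ((r.1.val : ℤ) + m * y.1, (r.2.val : ℤ) + m * y.2) : ℤ))) =
      ∑' Y : ℤ × ℤ, (-I * (m * z + d) / (n * m * (Real.sqrt Q.absD : ℝ))) *
        (ZMod.stdAddChar (N := m) ((a : ZMod m) * Q.ev r + r.1 * (Y.1 : ZMod m) +
          r.2 * (Y.2 : ZMod m)) *
        e ((m * z + d) / (n * m) * ((Q.dual.ev Y : ℤ) / (Q.absD : ℝ)))) := by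
    intro r
    have h1 : ∀ y : ℤ × ℤ, e ((a * z + b) / (m * z + d) *
        (Q.ev ((r.1.val : ℤ) + m * y.1, (r.2.val : ℤ) + m * y.2) : ℤ)) =
        ZMod.stdAddChar (N := m) ((a : ZMod m) * Q.ev r) *
          cexp (2 * π * I * ((m : ℂ) ^ 2 * w) * (qf Q.a Q.b Q.c ((y.1 : ℝ) + (r.1.val : ℝ) / m)
            ((y.2 : ℝ) + (r.2.val : ℝ) / m) : ℝ)) := by
      intro y
      rw [hMz, add_mul, e_add]
      congr 1
      · have h2 : ((a : ZMod m) * Q.ev r) = ((a *
            (Q.ev ((r.1.val : ℤ) + m * y.1, (r.2.val : ℤ) + m * y.2) : ℤ) : ℤ) : ZMod m) := by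
          unfold BQ.ev
          push_cast
          simp
        rw [h2, stdAddChar_eq]
        congr 1
        push_cast
        ring
      · unfold e qf BQ.ev
        congr 1
        push_cast
        field_simp
        ring
    rw [tsum_congr h1, tsum_mul_left, poisson2 Q.a Q.b Q.c ha hD' _ _ _ hmw, ← BQ.absD_eq,
      ← tsum_mul_left, ← tsum_mul_left]
    refine tsum_congr fun Y => ?_
    have h3 : I / ((m : ℂ) ^ 2 * w * (Real.sqrt Q.absD : ℝ)) =
        (-I * (m * z + d) / (n * m * (Real.sqrt Q.absD : ℝ))) := by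
      rw [hwdef]
      field_simp
    have h4 : ZMod.stdAddChar (N := m) ((a : ZMod m) * Q.ev r + r.1 * (Y.1 : ZMod m) +
          r.2 * (Y.2 : ZMod m)) = ZMod.stdAddChar (N := m) ((a : ZMod m) * Q.ev r) *
          e ((Y.1 * (r.1.val : ℂ) + Y.2 * (r.2.val : ℂ)) / m) := by
      rw [add_assoc, AddChar.map_add_eq_mul]
      congr 1
      have : (r.1 * (Y.1 : ZMod m) + r.2 * (Y.2 : ZMod m)) =
          (((r.1.val : ℤ) * Y.1 + (r.2.val : ℤ) * Y.2 : ℤ) : ZMod m) := by
        push_cast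
        simp
      rw [this, stdAddChar_eq]
      congr 1
      push_cast
      ring
    rw [h3, h4, ← dual_ev_qf]
    have h5 : cexp (2 * π * I * (Y.1 * (((r.1.val : ℝ) / m : ℝ) : ℂ) +
        Y.2 * (((r.2.val : ℝ) / m : ℝ) : ℂ)) -
        2 * π * I * ((((Q.dual.ev Y : ℤ) : ℝ)) : ℂ) / ((m : ℂ) ^ 2 * w * (Q.absD : ℝ))) =
        e ((Y.1 * (r.1.val : ℂ) + Y.2 * (r.2.val : ℂ)) / m) *
        e ((m * z + d) / (n * m) * ((Q.dual.ev Y : ℤ) / (Q.absD : ℝ))) := by
      rw [← e_add]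
      unfold e
      congr 1
      rw [hwdef]
      push_cast
      field_simp
      ring
    rw [h5]
    ring
  rw [Finset.sum_congr rfl (fun r _ => key r)]
  have hE : Summable (fun Y : ℤ × ℤ =>
      e ((m * z + d) / (n * m) * ((Q.dual.ev Y : ℤ) / (Q.absD : ℝ)))) := by
    have him : 0 < ((m * z + d) / (n * m * Q.absD) : ℂ).im := by
      have : ((m * z + d) / (n * m * Q.absD) : ℂ) =
          ((1 / (n * m * Q.absD : ℝ) : ℝ) : ℂ) * (m * z + d) := by
        push_cast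
        field_simp
      rw [this, im_ofReal_mul]
      have h6 : (m * z + d : ℂ).im = m * z.im := by simp
      rw [h6]
      have : (0 : ℝ) < n := by exact_mod_cast hn
      have : (0 : ℝ) < m := by positivity
      positivity
    refine (summable_th Q.dual hQ.dual _ him).congr fun Y => ?_
    congr 1
    field_simp
  rw [← tsum_mul_left]
  have hsum : ∀ r : ZMod m × ZMod m, Summable (fun Y : ℤ × ℤ =>
      (-I * (m * z + d) / (n * m * (Real.sqrt Q.absD : ℝ))) *
        (ZMod.stdAddChar (N := m) ((a : ZMod m) * Q.ev r + r.1 * (Y.1 : ZMod m) +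
          r.2 * (Y.2 : ZMod m)) *
        e ((m * z + d) / (n * m) * ((Q.dual.ev Y : ℤ) / (Q.absD : ℝ))))) := by
    intro r
    refine Summable.mul_left _ ?_
    refine Summable.of_norm (hE.norm.congr fun Y => ?_)
    rw [norm_mul]
    have : ‖ZMod.stdAddChar (N := m) ((a : ZMod m) * Q.ev r + r.1 * (Y.1 : ZMod m) +
          r.2 * (Y.2 : ZMod m))‖ = 1 := by
      rw [ZMod.stdAddChar_apply]
      exact Circle.norm_coe _
    rw [this, one_mul]
  rw [← Summable.tsum_finsetSum (fun r _ => hsum r)]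
  refine tsum_congr fun Y => ?_
  unfold gs
  rw [← Finset.mul_sum, ← Finset.sum_mul]

end Fermat.Agent.LTF.Theta
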