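import Mathlib
import Fermat.Agent.ClassL.IdealSum
import Fermat.Agent.LTF.Theta.Quad
import Fermat.Agent.LTF.Theta.Trans

/-!
Ideals of `ℤ[√-N]` and binary quadratic forms.
-/

set_option autoImplicit false

open NumberField Module nonZeroDivisors

namespace Fermat.Agent.LTF.Theta

open Fermat.Agent.ClassL

variable {K : Type*} [Field K] [NumberField K] {N : ℕ} {s : K}

/-- number of ideals of norm `n` in the class `A` -/
noncomputable def ic (n : ℕ) (A : ClassGroup (𝓞 K)) : ℕ :=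
  Nat.card {I : (Ideal (𝓞 K))⁰ // Ideal.absNorm (I : Ideal (𝓞 K)) = n ∧ ClassGroup.mk0 I = A}

/-- number of representations of `k` by `x² + N y²` -/
noncomputable def r0 (N k : ℕ) : ℕ := Nat.card {x : ℤ × ℤ // x.1 ^ 2 + N * x.2 ^ 2 = k}

lemma finite_ideals (n : ℕ) :
    Finite {I : (Ideal (𝓞 K))⁰ // Ideal.absNorm (I : Ideal (𝓞 K)) = n} := by
  have := (Ideal.finite_setOfPred_absNorm_eq (S := 𝓞 K) n).to_subtype
  exact Finite.of_injective (fun I : {I : (Ideal (𝓞 K))⁰ // Ideal.absNorm (I : Ideal (𝓞 K)) = n} =>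
    (⟨I.1.1, I.2⟩ : {I : Ideal (𝓞 K) | Ideal.absNorm I = n})) (fun I J h => by
      have h1 := congrArg (fun x => x.1) h
      apply Subtype.ext; apply Subtype.ext; exact h1)

instance finite_ic (n : ℕ) (A : ClassGroup (𝓞 K)) :
    Finite {I : (Ideal (𝓞 K))⁰ // Ideal.absNorm (I : Ideal (𝓞 K)) = n ∧ ClassGroup.mk0 I = A} := by
  have := finite_ideals (K := K) n
  exact Finite.of_injective (fun I : {I : (Ideal (𝓞 K))⁰ //
      Ideal.absNorm (I : Ideal (𝓞 K)) = n ∧ ClassGroup.mk0 I = A} =>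
    (⟨I.1, I.2.1⟩ : {I : (Ideal (𝓞 K))⁰ // Ideal.absNorm (I : Ideal (𝓞 K)) = n}))
    (fun I J h => Subtype.ext (congrArg (fun x => x.1) h))

lemma ic_zero (A : ClassGroup (𝓞 K)) : ic 0 A = 0 := by
  rw [ic, Nat.card_eq_zero]
  left
  refine ⟨fun I => ?_⟩
  have := Ideal.absNorm_pos_of_nonZeroDivisors I.1
  rw [I.2.1] at this
  exact lt_irrefl _ this

lemma r0_zero (hN : N ≠ 0) : r0 N 0 = 1 := by
  rw [r0, Nat.card_eq_one_iff_unique]
  refine ⟨⟨fun x y => ?_⟩, ⟨⟨(0, 0), by simp⟩⟩⟩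
  have key : ∀ x : {x : ℤ × ℤ // x.1 ^ 2 + N * x.2 ^ 2 = ((0 : ℕ) : ℤ)}, x.1 = (0, 0) := by
    rintro ⟨⟨a, b⟩, hx⟩
    simp only [Nat.cast_zero] at hx
    have hN' : (0 : ℤ) < N := by exact_mod_cast Nat.pos_of_ne_zero hN
    have h1 := sq_nonneg a
    have h2 : 0 ≤ (N : ℤ) * b ^ 2 := by positivity
    have h3 : a ^ 2 = 0 := by linarith
    have h4 : (N : ℤ) * b ^ 2 = 0 := by linarith
    have h5 : b ^ 2 = 0 := by
      rcases mul_eq_zero.mp h4 with h | h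
      · omega
      · exact h
    have h6 : a = 0 := by simpa using h3
    have h7 : b = 0 := by simpa using h5
    exact Prod.ext h6 h7
  exact Subtype.ext ((key x).trans (key y).symm)

/-- elements of `J` of given norm and ideals in the inverse class -/
lemma card_elems (h : IQ K N s) (J : (Ideal (𝓞 K))⁰) {A : ClassGroup (𝓞 K)}
    (hJ : ClassGroup.mk0 J = A⁻¹) {n : ℕ} (hn : n ≠ 0) :
    Nat.card {x : 𝓞 K // x ∈ (J : Ideal (𝓞 K)) ∧
      Ideal.absNorm (Ideal.span {x}) = n * Ideal.absNorm (J : Ideal (𝓞 K))} = 2 * ic n A := by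
  have hpos := Ideal.absNorm_pos_of_nonZeroDivisors J
  have hnorm : ∀ (I : IC A) (u : (𝓞 K)ˣ),
      Ideal.absNorm (Ideal.span {((elt J (mulJ hJ I, u)).1 : 𝓞 K)}) =
        Ideal.absNorm (I.1 : Ideal (𝓞 K)) * Ideal.absNorm (J : Ideal (𝓞 K)) := by
    intro I u
    change Ideal.absNorm (Ideal.span {(u : 𝓞 K) * gen (mulJ hJ I)}) = _
    rw [Ideal.span_singleton_mul_left_unit u.isUnit, span_gen]
    change Ideal.absNorm ((J * I.1 : (Ideal (𝓞 K))⁰) : Ideal (𝓞 K)) = _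
    rw [Submonoid.coe_mul, map_mul, mul_comm]
  let f : {I : (Ideal (𝓞 K))⁰ // Ideal.absNorm (I : Ideal (𝓞 K)) = n ∧ ClassGroup.mk0 I = A} ×
      (𝓞 K)ˣ → {x : 𝓞 K // x ∈ (J : Ideal (𝓞 K)) ∧
      Ideal.absNorm (Ideal.span {x}) = n * Ideal.absNorm (J : Ideal (𝓞 K))} := fun Iu =>
    ⟨(elt J (mulJ hJ ⟨Iu.1.1, Iu.1.2.2⟩, Iu.2)).1,
      (elt J (mulJ hJ ⟨Iu.1.1, Iu.1.2.2⟩, Iu.2)).2.1, by rw [hnorm, Iu.1.2.1]⟩
  have hf : Function.Bijective f := by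
    constructor
    · rintro ⟨I, u⟩ ⟨I', u'⟩ hh
      have h1 : (elt J (mulJ hJ ⟨I.1, I.2.2⟩, u)).1 = (elt J (mulJ hJ ⟨I'.1, I'.2.2⟩, u')).1 :=
        congrArg (fun x => x.1) hh
      have h2 := (elt_bijective J).1 (Subtype.ext h1)
      have h3 : mulJ hJ ⟨I.1, I.2.2⟩ = mulJ hJ ⟨I'.1, I'.2.2⟩ := congrArg Prod.fst h2
      have h4 : u = u' := congrArg Prod.snd h2
      have h5 := (mulJ_bijective hJ).1 h3
      have h6 : I.1 = I'.1 := congrArg (fun x => x.1) h5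
      rw [h4, Subtype.ext h6]
    · rintro ⟨x, hxJ, hxn⟩
      have hx0 : x ≠ 0 := by
        rintro rfl
        rw [Ideal.span_singleton_eq_bot.mpr rfl, Ideal.absNorm_bot] at hxn
        have := Nat.mul_ne_zero hn hpos.ne'
        exact this hxn.symm
      obtain ⟨⟨P, u⟩, hP⟩ := (elt_bijective J).2 ⟨x, hxJ, hx0⟩
      obtain ⟨I, rfl⟩ := (mulJ_bijective hJ).2 P
      have h1 := hnorm I u
      rw [hP] at h1
      change Ideal.absNorm (Ideal.span {x}) = _ at h1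
      rw [hxn] at h1
      have h2 := Nat.eq_of_mul_eq_mul_right hpos h1
      exact ⟨(⟨I.1, h2.symm, I.2⟩, u), Subtype.ext (congrArg (fun x => x.1) hP)⟩
  rw [← Nat.card_congr (Equiv.ofBijective f hf), Nat.card_prod, h.card_units, ic, mul_comm]

/-- **The binary form of an ideal.** -/
theorem exists_form_ideal (h : IQ K N s) (J : (Ideal (𝓞 K))⁰) :
    ∃ Q : BQ, 0 < Q.a ∧ Q.disc = -4 * N ∧ ∃ e : (ℤ × ℤ) ≃+ (J : Ideal (𝓞 K)),
      ∀ x, (Ideal.absNorm (Ideal.span {(e x : 𝓞 K)}) : ℤ) =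
        Q.ev x * Ideal.absNorm (J : Ideal (𝓞 K)) := by
  have hJ0 : (J : Ideal (𝓞 K)) ≠ ⊥ := nonZeroDivisors.coe_ne_zero J
  have hApos := Ideal.absNorm_pos_of_nonZeroDivisors J
  set A : ℤ := (Ideal.absNorm (J : Ideal (𝓞 K)) : ℤ) with hA
  have hA0 : 0 < A := by rw [hA]; exact_mod_cast hApos
  let bJ := Ideal.selfBasis h.basO (J : Ideal (𝓞 K)) hJ0
  obtain ⟨p, q, hpq⟩ := h.exists_int_coord (bJ 0 : 𝓞 K)
  obtain ⟨r, t, hrt⟩ := h.exists_int_coord (bJ 1 : 𝓞 K)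
  have hdet : (p * t - r * q) ^ 2 = A ^ 2 := by
    have h1 := Ideal.natAbs_det_basis_change h.basO (J : Ideal (𝓞 K)) bJ
    have h2 : h.basO.det ((↑) ∘ bJ) = p * t - r * q := by
      rw [Basis.det_apply, Matrix.det_fin_two]
      simp only [Basis.toMatrix_apply, Function.comp_apply]
      rw [(h.reprO_eq p q _ hpq).1, (h.reprO_eq p q _ hpq).2, (h.reprO_eq r t _ hrt).1,
        (h.reprO_eq r t _ hrt).2]
    rw [h2] at h1
    rw [hA, ← h1, Int.natCast_natAbs, sq_abs]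
  -- norms
  have hn : ∀ x y : ℤ, (Ideal.absNorm (Ideal.span {x • (bJ 0 : 𝓞 K) + y • (bJ 1 : 𝓞 K)}) : ℤ) =
      (p * x + r * y) ^ 2 + N * (q * x + t * y) ^ 2 := by
    intro x y
    rw [← h.absNorm_span]
    congr 3
    rw [hpq, hrt, zsmul_eq_mul, zsmul_eq_mul]
    push_cast
    ring_nf
  have hdvd : ∀ x y : ℤ, A ∣ (p * x + r * y) ^ 2 + N * (q * x + t * y) ^ 2 := by
    intro x y
    rw [← hn]
    have hmem : x • (bJ 0 : 𝓞 K) + y • (bJ 1 : 𝓞 K) ∈ (J : Ideal (𝓞 K)) :=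
      (x • bJ 0 + y • bJ 1).2
    have := Ideal.absNorm_dvd_absNorm_of_le ((Ideal.span_singleton_le_iff_mem _).mpr hmem)
    rw [hA]
    exact_mod_cast this
  obtain ⟨α, hα⟩ : A ∣ p ^ 2 + N * q ^ 2 := by simpa using hdvd 1 0
  obtain ⟨γ, hγ⟩ : A ∣ r ^ 2 + N * t ^ 2 := by simpa using hdvd 0 1
  obtain ⟨β, hβ⟩ : A ∣ 2 * (p * r + N * q * t) := by
    obtain ⟨δ, hδ⟩ := hdvd 1 1
    refine ⟨δ - α - γ, ?_⟩
    rw [mul_sub, mul_sub, ← hα, ← hγ, ← hδ]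
    ring
  have hN0 : (0 : ℤ) < N := by exact_mod_cast h.N_pos
  have hpos : 0 < α := by
    have h1 : 0 < p ^ 2 + N * q ^ 2 := by
      by_contra hcon
      push Not at hcon
      have e1 := sq_nonneg p
      have e2 : 0 ≤ (N : ℤ) * q ^ 2 := by positivity
      have e3 : p ^ 2 = 0 := by linarith
      have e4 : (N : ℤ) * q ^ 2 = 0 := by linarith
      have e5 : p = 0 := by simpa using e3
      have e6 : q = 0 := by
        rcases mul_eq_zero.mp e4 with h | h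
        · omega
        · simpa using h
      rw [e5, e6] at hdet
      simp at hdet
      have : A ^ 2 ≠ 0 := by positivity
      exact this hdet.symm
    rw [hα] at h1
    exact (mul_pos_iff_of_pos_left hA0).mp h1
  let e0 : (ℤ × ℤ) ≃+ (Fin 2 → ℤ) := (LinearEquiv.finTwoArrow ℤ ℤ).symm.toAddEquiv
  let e : (ℤ × ℤ) ≃+ (J : Ideal (𝓞 K)) := e0.trans bJ.equivFun.symm.toAddEquiv
  have he : ∀ x : ℤ × ℤ, (e x : 𝓞 K) = x.1 • (bJ 0 : 𝓞 K) + x.2 • (bJ 1 : 𝓞 K) := by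
    intro x
    change ((bJ.equivFun.symm ![x.1, x.2] : (J : Ideal (𝓞 K))) : 𝓞 K) = _
    rw [Basis.equivFun_symm_apply, Fin.sum_univ_two]
    rfl
  refine ⟨⟨α, β, γ⟩, hpos, ?_, e, fun x => ?_⟩
  · -- discriminant
    have h1 : A ^ 2 * (β ^ 2 - 4 * α * γ) = A ^ 2 * (-4 * N) := by
      have : A ^ 2 * (β ^ 2 - 4 * α * γ) = (A * β) ^ 2 - 4 * (A * α) * (A * γ) := by ring
      rw [this, ← hα, ← hβ, ← hγ, ← hdet]
      ring
    exact mul_left_cancel₀ (by positivity) h1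
  · rw [he, hn]
    simp only [BQ.ev, Int.cast_id]
    have : (α * x.1 ^ 2 + β * x.1 * x.2 + γ * x.2 ^ 2) * A =
      (A * α) * x.1 ^ 2 + (A * β) * x.1 * x.2 + (A * γ) * x.2 ^ 2 := by ring
    rw [this, ← hα, ← hβ, ← hγ]
    ring

lemma card_ev (h : IQ K N s) (J : (Ideal (𝓞 K))⁰) {A : ClassGroup (𝓞 K)}
    (hJ : ClassGroup.mk0 J = A⁻¹) (Q : BQ) (e : (ℤ × ℤ) ≃+ (J : Ideal (𝓞 K)))
    (he : ∀ x, (Ideal.absNorm (Ideal.span {(e x : 𝓞 K)}) : ℤ) =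
        Q.ev x * Ideal.absNorm (J : Ideal (𝓞 K))) {n : ℕ} (hn : n ≠ 0) :
    Nat.card {x : ℤ × ℤ // Q.ev x = (n : ℤ)} = 2 * ic n A := by
  rw [← card_elems h J hJ hn]
  have hpos : (0 : ℤ) < Ideal.absNorm (J : Ideal (𝓞 K)) := by
    exact_mod_cast Ideal.absNorm_pos_of_nonZeroDivisors J
  have key : ∀ x : ℤ × ℤ, Q.ev x = (n : ℤ) ↔
      Ideal.absNorm (Ideal.span {(e x : 𝓞 K)}) = n * Ideal.absNorm (J : Ideal (𝓞 K)) := by
    intro x
    have h1 := he x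
    constructor
    · intro h2
      rw [h2] at h1
      exact_mod_cast h1
    · intro h2
      rw [h2] at h1
      push_cast at h1
      exact (mul_right_cancel₀ hpos.ne' h1).symm
  refine Nat.card_congr
    { toFun := fun x => ⟨(e x.1 : 𝓞 K), (e x.1).2, (key x.1).mp x.2⟩
      invFun := fun y => ⟨e.symm ⟨y.1, y.2.1⟩, (key _).mpr (by
        rw [AddEquiv.apply_symm_apply]; exact y.2.2)⟩
      left_inv := fun x => Subtype.ext (by simp)
      right_inv := fun y => Subtype.ext (by simp) }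

/-- **(A1)** every ideal class has a form. -/
theorem exists_form (h : IQ K N s) (A : ClassGroup (𝓞 K)) :
    ∃ Q : BQ, 0 < Q.a ∧ Q.disc = -4 * N ∧
      ∀ n : ℕ, n ≠ 0 → Nat.card {x : ℤ × ℤ // Q.ev x = (n : ℤ)} = 2 * ic n A := by
  obtain ⟨J, hJ⟩ := ClassGroup.mk0_surjective A⁻¹
  obtain ⟨Q, h1, h2, e, he⟩ := exists_form_ideal h J
  exact ⟨Q, h1, h2, fun n hn => card_ev h J hJ Q e he hn⟩

/-- the principal form -/
theorem r0_eq (h : IQ K N s) {n : ℕ} (hn : n ≠ 0) : r0 N n = 2 * ic n (1 : ClassGroup (𝓞 K)) := by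
  have h1 : ClassGroup.mk0 (1 : (Ideal (𝓞 K))⁰) = (1 : ClassGroup (𝓞 K))⁻¹ := by simp
  rw [← card_elems h 1 h1 hn, r0]
  have key : ∀ a b : ℤ, a ^ 2 + N * b ^ 2 = (n : ℤ) ↔
      Ideal.absNorm (Ideal.span {(a : 𝓞 K) + (b : 𝓞 K) * h.sO}) =
        n * Ideal.absNorm ((1 : (Ideal (𝓞 K))⁰) : Ideal (𝓞 K)) := by
    intro a b
    have e1 := h.absNorm_span a b
    have e2 : Ideal.absNorm ((1 : (Ideal (𝓞 K))⁰) : Ideal (𝓞 K)) = 1 := by
      rw [Submonoid.coe_one, map_one]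
    rw [e2, mul_one, ← e1]
    norm_cast
  let f : {x : ℤ × ℤ // x.1 ^ 2 + N * x.2 ^ 2 = (n : ℤ)} →
      {x : 𝓞 K // x ∈ ((1 : (Ideal (𝓞 K))⁰) : Ideal (𝓞 K)) ∧
      Ideal.absNorm (Ideal.span {x}) = n * Ideal.absNorm ((1 : (Ideal (𝓞 K))⁰) : Ideal (𝓞 K))} :=
    fun x => ⟨(x.1.1 : 𝓞 K) + (x.1.2 : 𝓞 K) * h.sO, by simp, (key _ _).mp x.2⟩
  refine Nat.card_congr (Equiv.ofBijective f ⟨?_, ?_⟩)
  · rintro ⟨⟨a, b⟩, hx⟩ ⟨⟨a', b'⟩, hx'⟩ hh
    have h2 := h.coord_unique (congrArg Subtype.val hh)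
    simp only [Subtype.mk.injEq, Prod.mk.injEq]
    exact h2
  · rintro ⟨x, hx1, hx2⟩
    obtain ⟨a, b, rfl⟩ := h.exists_int_coord x
    exact ⟨⟨(a, b), (key a b).mpr hx2⟩, rfl⟩

theorem r0_even (h : IQ K N s) {n : ℕ} (hn : n ≠ 0) : Even (r0 N n) := by
  rw [r0_eq h hn]
  exact even_two_mul _

end Fermat.Agent.LTF.Theta
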