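import Mathlib
import Fermat.Agent.LTF.Theta.Forms
import Fermat.Agent.LTF.Theta.Cusp

/-!
The forms attached to the classes `A` and `A B²` are in the same genus.
-/

set_option autoImplicit false

open NumberField Module nonZeroDivisors

namespace Fermat.Agent.LTF.Theta

variable {K : Type*} [Field K] [NumberField K] {N : ℕ} {s : K}

/-- composition of a form with a linear substitution, discriminant. -/
lemma det_sq_of_ev (Q Q' : BQ) (D : ℤ) (hD : D ≠ 0) (hQ : Q.disc = D) (hQ' : Q'.disc = D)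
    (k s t u v : ℤ) (h : ∀ x y : ℤ, Q.ev (s * x + t * y, u * x + v * y) = k * Q'.ev (x, y)) :
    (s * v - t * u) ^ 2 = k ^ 2 := by
  have h1 := h 1 0
  have h2 := h 0 1
  have h3 := h 1 1
  simp only [BQ.ev, Int.cast_id] at h1 h2 h3
  have e1 : Q.a * s ^ 2 + Q.b * s * u + Q.c * u ^ 2 = k * Q'.a := by
    linear_combination h1
  have e2 : Q.a * t ^ 2 + Q.b * t * v + Q.c * v ^ 2 = k * Q'.c := by
    linear_combination h2
  have e3 : 2 * Q.a * s * t + Q.b * (s * v + t * u) + 2 * Q.c * u * v = k * Q'.b := by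
    linear_combination h3 - h1 - h2
  have h4 : (s * v - t * u) ^ 2 * D = k ^ 2 * D := by
    conv_lhs => rw [← hQ]
    conv_rhs => rw [← hQ']
    unfold BQ.disc
    have : k ^ 2 * (Q'.b ^ 2 - 4 * Q'.a * Q'.c) = (k * Q'.b) ^ 2 - 4 * (k * Q'.a) * (k * Q'.c) := by
      ring
    rw [this, ← e1, ← e2, ← e3]
    ring
  exact mul_right_cancel₀ hD h4

/-- additive maps `ℤ² → ℤ²` are given by matrices -/
lemma exists_matrix (f : (ℤ × ℤ) →+ (ℤ × ℤ)) :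
    ∃ s t u v : ℤ, ∀ x y : ℤ, f (x, y) = (s * x + t * y, u * x + v * y) := by
  refine ⟨(f (1, 0)).1, (f (0, 1)).1, (f (1, 0)).2, (f (0, 1)).2, fun x y => ?_⟩
  have h1 : ((x, y) : ℤ × ℤ) = x • ((1, 0) : ℤ × ℤ) + y • ((0, 1) : ℤ × ℤ) := by
    simp
  rw [h1, map_add, map_zsmul, map_zsmul]
  apply Prod.ext
  · simp [mul_comm]
  · simp [mul_comm]

/-- every ideal class contains an ideal of norm prime to `m`. -/
lemma exists_coprime_norm (h : IQ K N s) (B : ClassGroup (𝓞 K)) {m : ℤ} (hm : m ≠ 0) :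
    ∃ b : (Ideal (𝓞 K))⁰, ClassGroup.mk0 b = B ∧
      IsCoprime (Ideal.absNorm (b : Ideal (𝓞 K)) : ℤ) m := by
  obtain ⟨J, hJ⟩ := ClassGroup.mk0_surjective B⁻¹
  have hJ0 : (J : Ideal (𝓞 K)) ≠ ⊥ := nonZeroDivisors.coe_ne_zero J
  have h2m : ((2 * m : ℤ) : 𝓞 K) ≠ 0 := by
    have : (2 * m : ℤ) ≠ 0 := by positivity
    exact_mod_cast this
  set M : Ideal (𝓞 K) := Ideal.span {((2 * m : ℤ) : 𝓞 K)} with hM
  have hM0 : M ≠ ⊥ := by rwa [hM, ne_eq, Ideal.span_singleton_eq_bot]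
  have hle : M * (J : Ideal (𝓞 K)) ≤ J := Ideal.mul_le_right
  have hMJ : M * (J : Ideal (𝓞 K)) ≠ 0 := mul_ne_zero hM0 hJ0
  obtain ⟨a, ha⟩ := IsDedekindDomain.exists_sup_span_eq hle hMJ
  have haJ : a ∈ (J : Ideal (𝓞 K)) := by
    have : a ∈ M * (J : Ideal (𝓞 K)) ⊔ Ideal.span {a} :=
      Ideal.mem_sup_right (Ideal.mem_span_singleton_self a)
    rwa [ha] at this
  obtain ⟨b, hb⟩ := Ideal.dvd_iff_le.mpr ((Ideal.span_singleton_le_iff_mem _).mpr haJ)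
  -- `M ⊔ b = ⊤`
  have htop : M ⊔ b = ⊤ := by
    have h1 : (J : Ideal (𝓞 K)) * (M ⊔ b) = J * ⊤ := by
      rw [Ideal.mul_sup, mul_comm (J : Ideal (𝓞 K)) M, ← hb, ha, Ideal.mul_top]
    exact mul_left_cancel₀ hJ0 h1
  have ha0 : a ≠ 0 := by
    rintro rfl
    have h1 : b = ⊥ := by
      rw [Ideal.span_singleton_eq_bot.mpr rfl, eq_comm, Ideal.mul_eq_bot] at hb
      exact hb.resolve_left hJ0
    rw [h1, sup_bot_eq, hM, Ideal.span_singleton_eq_top] at htop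
    have h2 : IsUnit (Algebra.norm ℤ ((2 * m : ℤ) : 𝓞 K)) := htop.map (Algebra.norm ℤ)
    have h3 := h.normO_eq (2 * m) 0
    simp only [Int.cast_zero, zero_mul, add_zero] at h3
    rw [h3, Int.isUnit_iff] at h2
    rcases h2 with h2 | h2
    · have : (2 * m) ^ 2 + (N : ℤ) * 0 ^ 2 = 2 * (2 * m ^ 2) := by ring
      omega
    · have : (2 * m) ^ 2 + (N : ℤ) * 0 ^ 2 = 2 * (2 * m ^ 2) := by ring
      omega
  have hb0 : b ≠ 0 := by
    rintro rfl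
    rw [mul_zero, Ideal.zero_eq_bot, Ideal.span_singleton_eq_bot] at hb
    exact ha0 hb
  refine ⟨⟨b, mem_nonZeroDivisors_of_ne_zero hb0⟩, ?_, ?_⟩
  · have h1 : (⟨Ideal.span {a}, mem_nonZeroDivisors_of_ne_zero (by
        rwa [ne_eq, Ideal.zero_eq_bot, Ideal.span_singleton_eq_bot])⟩ : (Ideal (𝓞 K))⁰) =
        J * ⟨b, mem_nonZeroDivisors_of_ne_zero hb0⟩ := Subtype.ext hb
    have h2 := congrArg ClassGroup.mk0 h1
    have h3 : ClassGroup.mk0 (⟨Ideal.span {a}, mem_nonZeroDivisors_of_ne_zero (by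
        rwa [ne_eq, Ideal.zero_eq_bot, Ideal.span_singleton_eq_bot])⟩ : (Ideal (𝓞 K))⁰) = 1 := by
      rw [ClassGroup.mk0_eq_one_iff]
      exact ⟨⟨a, rfl⟩⟩
    rw [h3, map_mul, hJ, eq_comm, inv_mul_eq_one] at h2
    exact h2.symm
  · have h1 : (1 : 𝓞 K) ∈ M ⊔ b := by rw [htop]; trivial
    obtain ⟨x, hx, y, hy, hxy⟩ := Submodule.mem_sup.mp h1
    obtain ⟨z, hz⟩ := Ideal.mem_span_singleton.mp hx
    obtain ⟨z1, z2, rfl⟩ := h.exists_int_coord z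
    have hy2 : y = ((1 - 2 * m * z1 : ℤ) : 𝓞 K) + ((-(2 * m * z2) : ℤ) : 𝓞 K) * h.sO := by
      have : y = 1 - x := by rw [← hxy]; ring
      rw [this, hz]; push_cast; ring
    have h2 := Ideal.absNorm_dvd_absNorm_of_le ((Ideal.span_singleton_le_iff_mem _).mpr hy)
    have h3 : ((Ideal.absNorm b : ℕ) : ℤ) ∣ (1 - 2 * m * z1) ^ 2 + N * (-(2 * m * z2)) ^ 2 := by
      rw [← h.absNorm_span, ← hy2]
      exact_mod_cast h2
    refine IsCoprime.of_isCoprime_of_dvd_left ?_ h3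
    refine ⟨1, 4 * z1 - 4 * m * z1 ^ 2 - N * (4 * m * z2 ^ 2), by ring⟩

/-- The form of a fixed ideal in the class `A⁻¹`. -/
theorem genus_of_ideals (h : IQ K N s) (J₁ J₂ : (Ideal (𝓞 K))⁰) (B : ClassGroup (𝓞 K))
    (hJ : ClassGroup.mk0 J₁ * B ^ 2 = ClassGroup.mk0 J₂) (Q₁ Q₂ : BQ)
    (hd₁ : Q₁.disc = -4 * N) (hd₂ : Q₂.disc = -4 * N)
    (e₁ : (ℤ × ℤ) ≃+ (J₁ : Ideal (𝓞 K)))
    (he₁ : ∀ x, (Ideal.absNorm (Ideal.span {(e₁ x : 𝓞 K)}) : ℤ) =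
        Q₁.ev x * Ideal.absNorm (J₁ : Ideal (𝓞 K)))
    (e₂ : (ℤ × ℤ) ≃+ (J₂ : Ideal (𝓞 K)))
    (he₂ : ∀ x, (Ideal.absNorm (Ideal.span {(e₂ x : 𝓞 K)}) : ℤ) =
        Q₂.ev x * Ideal.absNorm (J₂ : Ideal (𝓞 K))) {m : ℤ} (hm : m ≠ 0) : Genus Q₁ Q₂ m := by
  obtain ⟨b, hb, hcop⟩ := exists_coprime_norm h B hm
  set n : ℤ := (Ideal.absNorm (b : Ideal (𝓞 K)) : ℤ) with hn
  have hn0 : n ≠ 0 := by
    rw [hn]; exact_mod_cast (Ideal.absNorm_pos_of_nonZeroDivisors b).ne'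
  obtain ⟨Q₃, -, hd₃, e₃, he₃⟩ := exists_form_ideal h (J₁ * b ^ 2)
  have hN1 : (0 : ℤ) < Ideal.absNorm (J₁ : Ideal (𝓞 K)) := by
    exact_mod_cast Ideal.absNorm_pos_of_nonZeroDivisors J₁
  have hN2 : (0 : ℤ) < Ideal.absNorm (J₂ : Ideal (𝓞 K)) := by
    exact_mod_cast Ideal.absNorm_pos_of_nonZeroDivisors J₂
  have hN3 : (Ideal.absNorm ((J₁ * b ^ 2 : (Ideal (𝓞 K))⁰) : Ideal (𝓞 K)) : ℤ) =
      Ideal.absNorm (J₁ : Ideal (𝓞 K)) * n ^ 2 := by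
    rw [Submonoid.coe_mul, SubmonoidClass.coe_pow, map_mul, map_pow]
    push_cast
    rw [hn]
  have hD : (-4 * N : ℤ) ≠ 0 := by
    have := h.N_pos
    have : (0 : ℤ) < N := by exact_mod_cast this
    intro h0
    omega
  -- inclusion
  have hincl : ∀ x : ℤ × ℤ, (e₃ x : 𝓞 K) ∈ (J₁ : Ideal (𝓞 K)) := by
    intro x
    have h1 : ((J₁ * b ^ 2 : (Ideal (𝓞 K))⁰) : Ideal (𝓞 K)) ≤ (J₁ : Ideal (𝓞 K)) := by
      rw [Submonoid.coe_mul]
      exact Ideal.mul_le_left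
    exact h1 (e₃ x).2
  let f₁ : (ℤ × ℤ) →+ (ℤ × ℤ) :=
    { toFun := fun x => e₁.symm ⟨(e₃ x : 𝓞 K), hincl x⟩
      map_zero' := by
        rw [← map_zero e₁.symm]
        congr 1
        exact Subtype.ext (by simp)
      map_add' := fun x y => by
        rw [← map_add e₁.symm]
        congr 1
        exact Subtype.ext (by simp) }
  have hf₁ : ∀ x, (e₁ (f₁ x) : 𝓞 K) = e₃ x := fun x => by
    change (e₁ (e₁.symm ⟨(e₃ x : 𝓞 K), hincl x⟩) : 𝓞 K) = _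
    rw [AddEquiv.apply_symm_apply]
  have hev₁ : ∀ x, Q₁.ev (f₁ x) = n ^ 2 * Q₃.ev x := by
    intro x
    have h1 := he₁ (f₁ x)
    rw [hf₁, he₃, hN3] at h1
    apply mul_right_cancel₀ hN1.ne'
    rw [← h1]; ring
  -- the isometry
  have hcl : ClassGroup.mk0 (J₁ * b ^ 2) = ClassGroup.mk0 J₂ := by
    rw [map_mul, map_pow, hb, hJ]
  rw [ClassGroup.mk0_eq_mk0_iff] at hcl
  obtain ⟨α, β, hα0, hβ0, hαβ⟩ := hcl
  -- span {α} * (J₁ b²) = span {β} * J₂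
  have hNab : (Ideal.absNorm (Ideal.span {α}) : ℤ) * (Ideal.absNorm (J₁ : Ideal (𝓞 K)) * n ^ 2) =
      (Ideal.absNorm (Ideal.span {β}) : ℤ) * Ideal.absNorm (J₂ : Ideal (𝓞 K)) := by
    rw [← hN3]
    have := congrArg Ideal.absNorm hαβ
    rw [map_mul, map_mul] at this
    exact_mod_cast this
  have hex : ∀ x : ℤ × ℤ, ∃ z : (J₂ : Ideal (𝓞 K)), β * (z : 𝓞 K) = α * (e₃ x : 𝓞 K) := by
    intro x
    have h1 : α * (e₃ x : 𝓞 K) ∈ Ideal.span {β} * (J₂ : Ideal (𝓞 K)) := by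
      rw [← hαβ]
      exact Ideal.mul_mem_mul (Ideal.mem_span_singleton_self α) (e₃ x).2
    rw [Ideal.mem_span_singleton_mul] at h1
    obtain ⟨z, hz, hz'⟩ := h1
    exact ⟨⟨z, hz⟩, hz'⟩
  choose g hg using hex
  let f₂ : (ℤ × ℤ) →+ (ℤ × ℤ) :=
    { toFun := fun x => e₂.symm (g x)
      map_zero' := by
        have h1 := hg 0
        rw [map_zero, Submodule.coe_zero, mul_zero] at h1
        have h2 : g 0 = 0 := Subtype.ext ((mul_eq_zero.mp h1).resolve_left hβ0)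
        rw [h2, map_zero]
      map_add' := fun x y => by
        rw [← map_add e₂.symm]
        congr 1
        have h1 := hg (x + y)
        rw [map_add, Submodule.coe_add, mul_add, ← hg x, ← hg y, ← mul_add] at h1
        exact Subtype.ext (mul_left_cancel₀ hβ0 h1) }
  have hf₂ : ∀ x, (e₂ (f₂ x) : 𝓞 K) = g x := fun x => by
    change (e₂ (e₂.symm (g x)) : 𝓞 K) = _
    rw [AddEquiv.apply_symm_apply]
  have hβn : (0 : ℤ) < Ideal.absNorm (Ideal.span {β}) := by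
    have : Ideal.absNorm (Ideal.span {β}) ≠ 0 := by
      rw [ne_eq, Ideal.absNorm_eq_zero_iff, Ideal.span_singleton_eq_bot]
      exact hβ0
    exact_mod_cast Nat.pos_of_ne_zero this
  have hev₂ : ∀ x, Q₂.ev (f₂ x) = Q₃.ev x := by
    intro x
    have h1 := he₂ (f₂ x)
    rw [hf₂] at h1
    have h2 : (Ideal.absNorm (Ideal.span {β}) : ℤ) * Ideal.absNorm (Ideal.span {(g x : 𝓞 K)}) =
        Ideal.absNorm (Ideal.span {α}) * Ideal.absNorm (Ideal.span {(e₃ x : 𝓞 K)}) := by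
      have := congrArg (fun z => Ideal.absNorm (Ideal.span {z})) (hg x)
      simp only [← Ideal.span_singleton_mul_span_singleton, map_mul] at this
      exact_mod_cast this
    rw [h1, he₃, hN3] at h2
    have h3 : (Ideal.absNorm (Ideal.span {β}) : ℤ) * Ideal.absNorm (J₂ : Ideal (𝓞 K)) *
        Q₂.ev (f₂ x) = (Ideal.absNorm (Ideal.span {β}) : ℤ) * Ideal.absNorm (J₂ : Ideal (𝓞 K)) *
        Q₃.ev x := by
      linear_combination h2 + Q₃.ev x * hNab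
    exact mul_left_cancel₀ (mul_pos hβn hN2).ne' h3
  obtain ⟨s1, t1, u1, v1, hS1⟩ := exists_matrix f₁
  obtain ⟨s2, t2, u2, v2, hS2⟩ := exists_matrix f₂
  have hdet1 : (s1 * v1 - t1 * u1) ^ 2 = (n ^ 2) ^ 2 :=
    det_sq_of_ev Q₁ Q₃ _ hD hd₁ hd₃ _ _ _ _ _ fun x y => by rw [← hS1, hev₁]
  have hdet2 : (s2 * v2 - t2 * u2) ^ 2 = 1 ^ 2 :=
    det_sq_of_ev Q₂ Q₃ _ hD hd₂ hd₃ _ _ _ _ _ fun x y => by rw [← hS2, hev₂, one_mul]
  have hcop4 : IsCoprime ((n ^ 2) ^ 2) m := (hcop.pow_left).pow_left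
  refine ⟨s1, t1, u1, v1, n * s2, n * t2, n * u2, n * v2, ?_, ?_, fun x y => ?_⟩
  · refine IsCoprime.of_isCoprime_of_dvd_left hcop4 ?_
    rw [← hdet1]
    exact dvd_pow_self _ two_ne_zero
  · refine IsCoprime.of_isCoprime_of_dvd_left hcop4 ?_
    have : (n ^ 2) ^ 2 = (n * s2 * (n * v2) - n * t2 * (n * u2)) ^ 2 := by
      have : (n * s2 * (n * v2) - n * t2 * (n * u2)) ^ 2 =
        (n ^ 2) ^ 2 * (s2 * v2 - t2 * u2) ^ 2 := by ring
      rw [this, hdet2]; ring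
    rw [this]
    exact dvd_pow_self _ two_ne_zero
  · rw [← hS1, hev₁]
    have h1 : (n * s2 * x + n * t2 * y, n * u2 * x + n * v2 * y) =
        (n * (f₂ (x, y)).1, n * (f₂ (x, y)).2) := by
      rw [hS2]
      apply Prod.ext <;> (simp only; ring)
    rw [h1, ← hev₂ (x, y)]
    simp only [BQ.ev]
    ring

/-- **(A1 + genus)** a system of forms for all the ideal classes. -/
theorem exists_forms (h : IQ K N s) :
    ∃ Q : ClassGroup (𝓞 K) → BQ, (∀ A, (Q A).Pos) ∧ (∀ A, (Q A).disc = -4 * N) ∧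
      (∀ A, ∀ n : ℕ, n ≠ 0 → Nat.card {x : ℤ × ℤ // (Q A).ev x = (n : ℤ)} = 2 * ic n A) ∧
      ∀ A B, ∀ m : ℤ, m ≠ 0 → Genus (Q A) (Q (A * B ^ 2)) m := by
  choose J hJ using fun A : ClassGroup (𝓞 K) => ClassGroup.mk0_surjective A⁻¹
  choose Q h1 h2 e he using fun A : ClassGroup (𝓞 K) => exists_form_ideal h (J A)
  refine ⟨Q, fun A => ⟨h1 A, ?_⟩, h2, fun A n hn => card_ev h (J A) (hJ A) (Q A) (e A) (he A) hn,
    fun A B m hm => ?_⟩
  · rw [h2]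
    have : (0 : ℤ) < N := by exact_mod_cast h.N_pos
    omega
  · refine genus_of_ideals h (J A) (J (A * B ^ 2)) B⁻¹ ?_ (Q A) (Q (A * B ^ 2)) (h2 A) (h2 _)
      (e A) (he A) (e _) (he _) hm
    rw [hJ, hJ, mul_inv, inv_pow]

end Fermat.Agent.LTF.Theta
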