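import Mathlib
import Fermat.Agent.LTF.Theta.Forms

/-!
Hecke relations for the ideal counting function of `ℤ[√-N]`.
-/

set_option autoImplicit false

open NumberField Module nonZeroDivisors

namespace Fermat.Agent.LTF.Theta

variable {K : Type*} [Field K] [NumberField K] {N : ℕ} {s : K}

/-- the number of ideals in a class `A`, of norm `n` which are multiples of `D`. -/
lemma card_dvd (D : (Ideal (𝓞 K))⁰) (n : ℕ) (A : ClassGroup (𝓞 K)) :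
    Nat.card {I : (Ideal (𝓞 K))⁰ // (Ideal.absNorm (I : Ideal (𝓞 K)) =
      Ideal.absNorm (D : Ideal (𝓞 K)) * n ∧ ClassGroup.mk0 I = A) ∧ D ∣ I} =
    ic n (A * (ClassGroup.mk0 D)⁻¹) := by
  have hD := Ideal.absNorm_pos_of_nonZeroDivisors D
  let f : {I : (Ideal (𝓞 K))⁰ // Ideal.absNorm (I : Ideal (𝓞 K)) = n ∧
      ClassGroup.mk0 I = A * (ClassGroup.mk0 D)⁻¹} →
    {I : (Ideal (𝓞 K))⁰ // (Ideal.absNorm (I : Ideal (𝓞 K)) =
      Ideal.absNorm (D : Ideal (𝓞 K)) * n ∧ ClassGroup.mk0 I = A) ∧ D ∣ I} := fun I =>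
    ⟨D * I.1, ⟨by rw [Submonoid.coe_mul, map_mul, I.2.1], by
      rw [map_mul, I.2.2, mul_comm, inv_mul_cancel_right]⟩, Dvd.intro _ rfl⟩
  refine (Nat.card_congr (Equiv.ofBijective f ⟨?_, ?_⟩)).symm
  · intro I I' hh
    have h1 : D * I.1 = D * I'.1 := congrArg (fun x => x.1) hh
    exact Subtype.ext (mul_left_cancel h1)
  · rintro ⟨I, ⟨h1, h2⟩, ⟨I', rfl⟩⟩
    rw [Submonoid.coe_mul, map_mul] at h1
    rw [map_mul] at h2
    exact ⟨⟨I', Nat.eq_of_mul_eq_mul_left hD h1, by rw [← h2, mul_comm (ClassGroup.mk0 D), mul_inv_cancel_right]⟩, rfl⟩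

lemma mk0_span (x : 𝓞 K) (hx : x ≠ 0) :
    ClassGroup.mk0 (⟨Ideal.span {x}, mem_nonZeroDivisors_of_ne_zero (by
      rwa [ne_eq, Ideal.zero_eq_bot, Ideal.span_singleton_eq_bot])⟩ : (Ideal (𝓞 K))⁰) = 1 := by
  rw [ClassGroup.mk0_eq_one_iff]
  exact ⟨⟨x, rfl⟩⟩

/-- the ideal `(q)` -/
noncomputable def qI (K : Type*) [Field K] [NumberField K] (q : ℕ) [NeZero q] : (Ideal (𝓞 K))⁰ :=
  ⟨Ideal.span {(q : 𝓞 K)}, mem_nonZeroDivisors_of_ne_zero (by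
    rw [ne_eq, Ideal.zero_eq_bot, Ideal.span_singleton_eq_bot]
    exact_mod_cast NeZero.ne q)⟩

lemma coe_qI (q : ℕ) [NeZero q] : (qI K q : Ideal (𝓞 K)) = Ideal.span {(q : 𝓞 K)} := rfl

lemma mk0_qI (q : ℕ) [NeZero q] : ClassGroup.mk0 (qI K q) = 1 :=
  mk0_span _ (by exact_mod_cast NeZero.ne q)

lemma absNorm_qI (h : IQ K N s) (q : ℕ) [NeZero q] :
    Ideal.absNorm (qI K q : Ideal (𝓞 K)) = q ^ 2 := by
  have h1 := h.absNorm_span q 0
  simp only [Int.cast_natCast, Int.cast_zero, zero_mul, add_zero] at h1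
  rw [coe_qI]
  have : ((Ideal.absNorm (Ideal.span {(q : 𝓞 K)}) : ℕ) : ℤ) = ((q ^ 2 : ℕ) : ℤ) := by
    rw [h1]; push_cast; ring
  exact_mod_cast this

lemma mem_qI_iff (h : IQ K N s) (q : ℕ) [NeZero q] (a b : ℤ) :
    (a : 𝓞 K) + (b : 𝓞 K) * h.sO ∈ (qI K q : Ideal (𝓞 K)) ↔ (q : ℤ) ∣ a ∧ (q : ℤ) ∣ b := by
  rw [coe_qI, Ideal.mem_span_singleton]
  constructor
  · rintro ⟨x, hx⟩
    obtain ⟨c, d, rfl⟩ := h.exists_int_coord x
    have h1 := h.coord_unique (a := a) (b := b) (a' := q * c) (b' := q * d) (by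
      rw [hx]; push_cast; ring)
    exact ⟨⟨c, h1.1⟩, ⟨d, h1.2⟩⟩
  · rintro ⟨⟨c, rfl⟩, ⟨d, rfl⟩⟩
    exact ⟨(c : 𝓞 K) + (d : 𝓞 K) * h.sO, by push_cast; ring⟩

/-- `q` divides the norm of an ideal iff ... inert case -/
lemma dvd_of_inert (h : IQ K N s) {q : ℕ} [NeZero q] (hq : q.Prime)
    (hin : ¬ IsSquare (-(N : ZMod q))) (I : (Ideal (𝓞 K))⁰)
    (hI : q ∣ Ideal.absNorm (I : Ideal (𝓞 K))) : qI K q ∣ I := by
  have := Fact.mk hq
  rw [nonZeroDivisors_dvd_iff_dvd_coe, Ideal.dvd_iff_le]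
  intro x hx
  obtain ⟨a, b, rfl⟩ := h.exists_int_coord x
  rw [mem_qI_iff]
  have h1 := Ideal.absNorm_dvd_absNorm_of_le ((Ideal.span_singleton_le_iff_mem _).mpr hx)
  have h2 : (q : ℤ) ∣ a ^ 2 + N * b ^ 2 := by
    rw [← h.absNorm_span]
    exact_mod_cast hI.trans h1
  have h3 : (a : ZMod q) ^ 2 + N * (b : ZMod q) ^ 2 = 0 := by
    have := (ZMod.intCast_zmod_eq_zero_iff_dvd (a ^ 2 + N * b ^ 2) q).mpr h2
    exact_mod_cast this
  have hb : (b : ZMod q) = 0 := by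
    by_contra hb
    apply hin
    refine ⟨(a : ZMod q) / b, ?_⟩
    field_simp
    linear_combination -h3
  have ha : (a : ZMod q) = 0 := by
    rw [hb] at h3
    simpa using h3
  exact ⟨(ZMod.intCast_zmod_eq_zero_iff_dvd a q).mp ha, (ZMod.intCast_zmod_eq_zero_iff_dvd b q).mp hb⟩

/-- **(A2)** inert primes. -/
theorem ic_inert (h : IQ K N s) {q : ℕ} (hq : q.Prime) (hin : ¬ IsSquare (-(N : ZMod q)))
    (n : ℕ) (A : ClassGroup (𝓞 K)) :
    ic (q * n) A = if q ∣ n then ic (n / q) A else 0 := by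
  have : NeZero q := ⟨hq.ne_zero⟩
  have hd := fun I hI => dvd_of_inert h hq hin I hI
  split_ifs with hqn
  · obtain ⟨m, rfl⟩ := hqn
    rw [Nat.mul_div_cancel_left m hq.pos]
    have h1 := card_dvd (qI K q) m A
    rw [mk0_qI, inv_one, mul_one, absNorm_qI h] at h1
    rw [← h1, ic]
    refine Nat.card_congr (Equiv.subtypeEquivRight fun I => ?_)
    rw [show q * (q * m) = q ^ 2 * m by ring]
    refine ⟨fun h2 => ⟨h2, hd I ?_⟩, fun h2 => h2.1⟩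
    rw [h2.1, pow_two, mul_assoc]
    exact Dvd.intro _ rfl
  · rw [ic, Nat.card_eq_zero]
    left
    refine ⟨fun I => hqn ?_⟩
    obtain ⟨J, hJ⟩ := hd I.1 (by rw [I.2.1]; exact Dvd.intro _ rfl)
    have h1 := I.2.1
    rw [hJ, Submonoid.coe_mul, map_mul, absNorm_qI h, pow_two, mul_assoc] at h1
    exact ⟨_, (Nat.eq_of_mul_eq_mul_left hq.pos h1).symm⟩

theorem ic_inert_sq (h : IQ K N s) {q : ℕ} (hq : q.Prime) (hin : ¬ IsSquare (-(N : ZMod q)))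
    (n : ℕ) (A : ClassGroup (𝓞 K)) : ic (q ^ 2 * n) A = ic n A := by
  rw [pow_two, mul_assoc, ic_inert h hq hin, if_pos (Dvd.intro _ rfl), Nat.mul_div_cancel_left n hq.pos]

theorem r0_inert (h : IQ K N s) {q : ℕ} (hq : q.Prime) (hin : ¬ IsSquare (-(N : ZMod q)))
    (n : ℕ) : r0 N (q * n) = if q ∣ n then r0 N (n / q) else 0 := by
  rcases Nat.eq_zero_or_pos n with rfl | hn
  · simp [r0_zero h.N_ne_zero]
  · rw [r0_eq h (Nat.mul_ne_zero hq.ne_zero hn.ne'), ic_inert h hq hin]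
    split_ifs with hqn
    · rw [r0_eq h]
      exact (Nat.div_pos (Nat.le_of_dvd hn hqn) hq.pos).ne'
    · rfl

theorem r0_inert_sq (h : IQ K N s) {q : ℕ} (hq : q.Prime) (hin : ¬ IsSquare (-(N : ZMod q)))
    (n : ℕ) : r0 N (q ^ 2 * n) = r0 N n := by
  rw [pow_two, mul_assoc, r0_inert h hq hin, if_pos (Dvd.intro _ rfl), Nat.mul_div_cancel_left n hq.pos]

/-! ### the prime over `2` -/

/-- the ideal `(2, s)` -/
noncomputable def p2 (h : IQ K N s) : Ideal (𝓞 K) := Ideal.span {(2 : 𝓞 K), h.sO}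

lemma mem_p2 (h : IQ K N s) (a b : ℤ) (ha : (2 : ℤ) ∣ a) :
    (a : 𝓞 K) + (b : 𝓞 K) * h.sO ∈ p2 h := by
  obtain ⟨c, rfl⟩ := ha
  rw [p2, Ideal.mem_span_pair]
  exact ⟨c, b, by push_cast; ring⟩

lemma p2_sq (h : IQ K N s) : p2 h * p2 h = Ideal.span {((2 : ℕ) : 𝓞 K)} := by
  obtain ⟨m, hm⟩ := h.even
  have hmodd : m % 2 = 1 := by
    rcases Nat.mod_two_eq_zero_or_one m with h0 | h0
    · exfalso
      obtain ⟨k, hk⟩ := Nat.dvd_of_mod_eq_zero h0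
      have : 2 * 2 ∣ N := ⟨k, by omega⟩
      have := h.sqf 2 this
      rw [Nat.isUnit_iff] at this
      omega
    · exact h0
  have hs := h.sO_sq
  have hN : (N : 𝓞 K) = 2 * (m : 𝓞 K) := by rw [hm]; push_cast; ring
  rw [p2, Ideal.span_pair_mul_span_pair]
  apply le_antisymm
  · rw [Ideal.span_le]
    intro x hx
    simp only [Set.mem_insert_iff, Set.mem_singleton_iff] at hx
    rw [SetLike.mem_coe, Ideal.mem_span_singleton]
    rcases hx with rfl | rfl | rfl | rfl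
    · exact ⟨2, by norm_num⟩
    · exact ⟨h.sO, by norm_num⟩
    · exact ⟨h.sO, by rw [mul_comm]; norm_num⟩
    · refine ⟨-(m : 𝓞 K), ?_⟩
      rw [← pow_two, hs, hN]; push_cast; ring
  · rw [Ideal.span_singleton_le_iff_mem]
    obtain ⟨k, hk⟩ : ∃ k, m = 2 * k + 1 := ⟨m / 2, by omega⟩
    have h1 : (2 : 𝓞 K) * 2 ∈ Ideal.span {(2 : 𝓞 K) * 2, 2 * h.sO, h.sO * 2, h.sO * h.sO} :=
      Ideal.subset_span (by simp)
    have h2 : h.sO * h.sO ∈ Ideal.span {(2 : 𝓞 K) * 2, 2 * h.sO, h.sO * 2, h.sO * h.sO} :=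
      Ideal.subset_span (by simp)
    have h3 : ((2 : ℕ) : 𝓞 K) = -(h.sO * h.sO) - (k : 𝓞 K) * (2 * 2) := by
      rw [← pow_two, hs, hN, hk]; push_cast; ring
    rw [h3]
    exact sub_mem (neg_mem h2) (Ideal.mul_mem_left _ _ h1)

lemma p2_ne_zero (h : IQ K N s) : p2 h ≠ 0 := by
  intro h0
  have h1 := p2_sq h
  rw [h0, zero_mul, eq_comm, Ideal.zero_eq_bot, Ideal.span_singleton_eq_bot] at h1
  exact two_ne_zero (by exact_mod_cast h1 : (2 : 𝓞 K) = 0)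

/-- `(2,s)` as a nonzero ideal -/
noncomputable def P2 (h : IQ K N s) : (Ideal (𝓞 K))⁰ :=
  ⟨p2 h, mem_nonZeroDivisors_of_ne_zero (p2_ne_zero h)⟩

lemma P2_sq (h : IQ K N s) : P2 h * P2 h = qI K 2 := Subtype.ext (p2_sq h)

lemma absNorm_P2 (h : IQ K N s) : Ideal.absNorm (P2 h : Ideal (𝓞 K)) = 2 := by
  have h1 := absNorm_qI h 2
  rw [← P2_sq h, Submonoid.coe_mul, map_mul, ← pow_two] at h1
  exact Nat.pow_left_injective (by norm_num) h1

lemma dvd_P2 (h : IQ K N s) (I : (Ideal (𝓞 K))⁰)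
    (hI : 2 ∣ Ideal.absNorm (I : Ideal (𝓞 K))) : P2 h ∣ I := by
  rw [nonZeroDivisors_dvd_iff_dvd_coe, Ideal.dvd_iff_le]
  intro x hx
  obtain ⟨a, b, rfl⟩ := h.exists_int_coord x
  apply mem_p2
  have h1 := Ideal.absNorm_dvd_absNorm_of_le ((Ideal.span_singleton_le_iff_mem _).mpr hx)
  have h2 : (2 : ℤ) ∣ a ^ 2 + N * b ^ 2 := by
    rw [← h.absNorm_span]
    exact_mod_cast hI.trans h1
  obtain ⟨m, hm⟩ := h.even
  have h3 : (2 : ℤ) ∣ a ^ 2 := by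
    have h4 : (2 : ℤ) ∣ N * b ^ 2 := ⟨m * b ^ 2, by rw [hm]; push_cast; ring⟩
    exact (Int.dvd_iff_dvd_of_dvd_add h2).mpr h4
  exact Int.prime_two.dvd_of_dvd_pow h3

theorem ic_two (h : IQ K N s) (n : ℕ) (A : ClassGroup (𝓞 K)) :
    ic (2 * n) A = ic n (A * (ClassGroup.mk0 (P2 h))⁻¹) := by
  have h1 := card_dvd (P2 h) n A
  rw [absNorm_P2 h] at h1
  rw [← h1, ic]
  refine Nat.card_congr (Equiv.subtypeEquivRight fun I => ?_)
  exact ⟨fun h2 => ⟨h2, dvd_P2 h I (by rw [h2.1]; exact Dvd.intro _ rfl)⟩, fun h2 => h2.1⟩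

/-- **(A2)** at `2`. -/
theorem ic_four (h : IQ K N s) (n : ℕ) (A : ClassGroup (𝓞 K)) : ic (4 * n) A = ic n A := by
  rw [show 4 * n = 2 * (2 * n) by ring, ic_two h, ic_two h, mul_assoc, ← mul_inv, ← map_mul,
    P2_sq, mk0_qI, inv_one, mul_one]

end Fermat.Agent.LTF.Theta
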