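import Mathlib
import Fermat.Agent.LTF.Theta.AN
import Fermat.Agent.LTF.Theta.GenusId
import Fermat.Agent.LTF.Theta.Rel
import Fermat.Agent.LTF.Pet2

/-!
# The integral cusp forms attached to pairs of ideal classes (helper64)

Bridge from `exists_AN` and the arithmetic of ideal theta coefficients to the `±`-space
`Pet2.PetForm.pm`.
-/

set_option autoImplicit false

open NumberField Module nonZeroDivisors CongruenceSubgroup ModularFormClass

namespace Fermat.Agent.LTF.Theta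

variable {K : Type*} [Field K] [NumberField K] {N : ℕ} {s : K}

/-- The convolution of `ic · A - ic · A'` with `r0`. -/
noncomputable def hfc (N c : ℕ) (A A' : ClassGroup (𝓞 K)) (n : ℕ) : ℤ :=
  ∑ k ∈ (Finset.range (4 * n + 1)).filter (fun k => c * k ≤ 4 * n),
    ((ic (4 * n - c * k) A : ℤ) - ic (4 * n - c * k) A') * r0 N k

theorem hfc_mod (h : IQ K N s) (c : ℕ) (A A' : ClassGroup (𝓞 K)) (n : ℕ) :
    2 ∣ hfc N c A A' n - ((ic n A : ℤ) - ic n A') := by
  have h0 : (0 : ℕ) ∈ (Finset.range (4 * n + 1)).filter (fun k => c * k ≤ 4 * n) := by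
    simp
  unfold hfc
  rw [← Finset.add_sum_erase _ _ h0, mul_zero, Nat.sub_zero, ic_four h, ic_four h,
    r0_zero h.N_ne_zero, Nat.cast_one, mul_one, add_sub_cancel_left]
  refine Finset.dvd_sum fun k hk => ?_
  have hk0 : k ≠ 0 := (Finset.mem_erase.mp hk).1
  have h2 : (2 : ℤ) ∣ r0 N k := by
    exact_mod_cast (r0_even h hk0).two_dvd
  exact Dvd.dvd.mul_left h2 _

theorem hfc_sq (h : IQ K N s) {q c : ℕ} (hq : q.Prime) (hin : ¬ IsSquare (-(N : ZMod q)))
    (hqc : q ∣ c) (hqc2 : ¬ q ^ 2 ∣ c) (A A' : ClassGroup (𝓞 K)) (n : ℕ) :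
    hfc N c A A' (q ^ 2 * n) = hfc N c A A' n := by
  obtain ⟨c', rfl⟩ := hqc
  have hqc' : ¬ q ∣ c' := by
    rintro ⟨d, rfl⟩
    exact hqc2 ⟨d, by ring⟩
  have hq2 : 0 < q ^ 2 := pow_pos hq.pos 2
  unfold hfc
  set S := (Finset.range (4 * n + 1)).filter (fun k => q * c' * k ≤ 4 * n) with hS
  set S' := (Finset.range (4 * (q ^ 2 * n) + 1)).filter
    (fun k => q * c' * k ≤ 4 * (q ^ 2 * n)) with hS'
  have hsub : S.image (fun k => q ^ 2 * k) ⊆ S' := by
    intro k hk
    rw [Finset.mem_image] at hk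
    obtain ⟨k', hk', rfl⟩ := hk
    rw [hS, Finset.mem_filter, Finset.mem_range] at hk'
    rw [hS', Finset.mem_filter, Finset.mem_range]
    constructor
    · have := Nat.mul_le_mul_left (q ^ 2) (Nat.lt_succ_iff.mp hk'.1)
      calc q ^ 2 * k' ≤ q ^ 2 * (4 * n) := this
        _ = 4 * (q ^ 2 * n) := by ring
        _ < 4 * (q ^ 2 * n) + 1 := Nat.lt_succ_self _
    · have := Nat.mul_le_mul_left (q ^ 2) hk'.2
      calc q * c' * (q ^ 2 * k') = q ^ 2 * (q * c' * k') := by ring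
        _ ≤ q ^ 2 * (4 * n) := this
        _ = 4 * (q ^ 2 * n) := by ring
  rw [← Finset.sum_subset hsub, Finset.sum_image (fun a _ b _ hab => by
    exact Nat.eq_of_mul_eq_mul_left hq2 hab)]
  · refine Finset.sum_congr rfl fun k hk => ?_
    have h1 : 4 * (q ^ 2 * n) - q * c' * (q ^ 2 * k) = q ^ 2 * (4 * n - q * c' * k) := by
      rw [Nat.mul_sub]
      congr 1 <;> ring
    rw [h1, ic_inert_sq h hq hin, ic_inert_sq h hq hin, r0_inert_sq h hq hin]
  · intro k hk hk'
    rw [hS', Finset.mem_filter, Finset.mem_range] at hk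
    by_cases hqk : q ∣ k
    · obtain ⟨k', rfl⟩ := hqk
      by_cases hqk' : q ∣ k'
      · exfalso
        obtain ⟨k'', rfl⟩ := hqk'
        apply hk'
        rw [Finset.mem_image]
        refine ⟨k'', ?_, by ring⟩
        rw [hS, Finset.mem_filter, Finset.mem_range]
        constructor
        · refine Nat.lt_succ_iff.mpr (Nat.le_of_mul_le_mul_left ?_ hq2)
          calc q ^ 2 * k'' = q * (q * k'') := by ring
            _ ≤ 4 * (q ^ 2 * n) := Nat.lt_succ_iff.mp hk.1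
            _ = q ^ 2 * (4 * n) := by ring
        · refine Nat.le_of_mul_le_mul_left ?_ hq2
          calc q ^ 2 * (q * c' * k'') = q * c' * (q * (q * k'')) := by ring
            _ ≤ 4 * (q ^ 2 * n) := hk.2
            _ = q ^ 2 * (4 * n) := by ring
      · rw [r0_inert h hq hin, if_neg hqk', Nat.cast_zero, mul_zero]
    · have hle : c' * k ≤ 4 * (q * n) := by
        refine Nat.le_of_mul_le_mul_left ?_ hq.pos
        calc q * (c' * k) = q * c' * k := by ring
          _ ≤ 4 * (q ^ 2 * n) := hk.2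
          _ = q * (4 * (q * n)) := by ring
      have h1 : 4 * (q ^ 2 * n) - q * c' * k = q * (4 * (q * n) - c' * k) := by
        rw [Nat.mul_sub]
        congr 1 <;> ring
      have h2 : ¬ q ∣ 4 * (q * n) - c' * k := by
        intro hd
        have h3 : q ∣ c' * k := by
          have h4 : q ∣ 4 * (q * n) := ⟨4 * n, by ring⟩
          have h5 := Nat.dvd_sub h4 hd
          rwa [Nat.sub_sub_self hle] at h5
        rcases hq.dvd_mul.mp h3 with h4 | h4
        · exact hqc' h4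
        · exact hqk h4
      rw [h1, ic_inert h hq hin, ic_inert h hq hin, if_neg h2, if_neg h2, sub_self, zero_mul]

theorem qCoeff_heckeULin {M : ℕ} [NeZero M] {q : ℕ} (hq : q.Prime) (hqM : q ∣ M)
    (f : CuspForm (Gamma0 M) 2) (n : ℕ) :
    qCoeff ⇑(CuspForm.heckeULin 2 hqM f) n = qCoeff ⇑f (q * n) := by
  have h1 := FermatAgent.HeckeEigen.qCoeff_heckeOp (N := M) (k := 2) ⟨q, hq⟩ f n
  rw [FermatAgent.HeckeEigen.heckeOp_of_dvd (p := ⟨q, hq⟩) hqM] at h1
  rw [h1, if_pos hqM, add_zero]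

/-- **The integral cusp forms.** `F ∈ pm M Q` with integral coefficients congruent modulo `2` to
`ic n A - ic n (A B²)`. -/
theorem exists_hform (h : IQ K N s) {Q : Finset ℕ}
    (hQ : ∀ q ∈ Q, q.Prime ∧ ¬ IsSquare (-(N : ZMod q))) (A B : ClassGroup (𝓞 K))
    {M : ℕ} [NeZero M] (hM : M = N * ∏ q ∈ Q, q) :
    ∃ F : CuspForm (Gamma0 M) 2, F ∈ Pet2.PetForm.pm M (↑Q : Set ℕ) ∧
      ∃ z : ℕ → ℤ, (∀ n, qCoeff ⇑F n = z n) ∧
        ∀ n, 2 ∣ z n - ((ic n A : ℤ) - ic n (A * B ^ 2)) := by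
  subst hM
  set c : ℕ := ∏ q ∈ Q, q with hc
  have hc0 : 0 < c := Finset.prod_pos fun q hq => (hQ q hq).1.pos
  obtain ⟨QQ, hpos, hdisc, hrep, hgen⟩ := exists_forms h
  obtain ⟨F, hF⟩ := exists_AN (hpos A) (hpos (A * B ^ 2)) (prin_pos h.N_pos) h.even (hdisc A)
    (hdisc _) (prin_disc N) (hgen A B) hc0 (u := fun n => ic n A)
    (u' := fun n => ic n (A * B ^ 2)) (fun n hn => hrep A n (by omega))
    (fun n hn => hrep _ n (by omega)) (by simp only [ic_zero])
  have hco : ∀ n, qCoeff ⇑F n = (hfc N c A (A * B ^ 2) n : ℤ) := by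
    intro n
    rw [hF]
    unfold hfc
    push_cast
    refine Finset.sum_congr rfl fun k _ => ?_
    rw [prin_rep]
    rfl
  refine ⟨F, ?_, hfc N c A (A * B ^ 2), hco, fun n => hfc_mod h c A _ n⟩
  rw [Pet2.PetForm.mem_pm]
  intro q hq hqM
  have hqQ : q ∈ Q := hq
  obtain ⟨hqp, hin⟩ := hQ q hqQ
  have hqc : q ∣ c := Finset.dvd_prod_of_mem _ hqQ
  have hqc2 : ¬ q ^ 2 ∣ c := by
    rw [hc, ← Finset.mul_prod_erase _ _ hqQ, pow_two]
    intro hd
    have h1 := Nat.dvd_of_mul_dvd_mul_left hqp.pos hd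
    rw [Prime.dvd_finsetProd_iff hqp.prime] at h1
    obtain ⟨r, hr, hqr⟩ := h1
    have h2 := (Nat.prime_dvd_prime_iff_eq hqp (hQ r (Finset.mem_of_mem_erase hr)).1).mp hqr
    exact Finset.ne_of_mem_erase hr h2.symm
  refine FermatAgent.HeckeEigen.eq_of_qCoeff_eq fun n => ?_
  rw [qCoeff_heckeULin hqp hqM, qCoeff_heckeULin hqp hqM, hco, hco,
    show q * (q * n) = q ^ 2 * n by ring, hfc_sq h hqp hin hqc hqc2]

end Fermat.Agent.LTF.Theta
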