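import Fermat.Agent.LTF.Theta.HeckeHom
import Fermat.Agent.LTF.Theta.HForm
import Fermat.Agent.LTF.Theta.GroupSurj

/-!
# The Hecke homomorphism of the theta family with values in the group algebra (helper93)
-/

set_option autoImplicit false
set_option linter.unusedSectionVars false

namespace Fermat.Agent.LTF.Theta

open CongruenceSubgroup ModularFormClass Fermat.Agent.LTF.Pet2 Fermat.Agent.LTF.Pet2.PetForm
open NumberField Module nonZeroDivisors IsLocalRing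
open Fermat.Agent.RT Fermat.Agent.LTF.GroupAlg Fermat.Agent.LTF.GroupSurj
open Fermat.Agent.LTF.Theta.HeckeEl

variable {K : Type} [Field K] [NumberField K] {N : ℕ} {s : K}
variable {κ : Type} [Field κ] [CharP κ 2] {ω : κ}

theorem wc_ne_one (hω : ω ^ 2 + ω + 1 = 0) {x : Multiplicative (ZMod 3)} (hx : x ≠ 1) :
    wc hω x ≠ 1 := by
  intro h
  have h1 := wc_add_inv hω x
  have h2 := wc_mul_inv hω x
  rw [if_neg hx, h] at h1
  rw [h, one_mul] at h2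
  rw [h2] at h1
  exact one_ne_zero (add_eq_left.mp h1)

/-- `Ξ(C⁻²) - 1` is a unit if `ψ(C) ≠ 1`. -/
theorem isUnit_Xi_sub_one (hω : ω ^ 2 + ω + 1 = 0) {ψ : ClassGroup (𝓞 K) →* Multiplicative (ZMod 3)}
    (Q : Finset ℕ) {C : ClassGroup (𝓞 K)} (hC : ψ C ≠ 1) :
    IsUnit (Xi hω ψ Q (C ^ 2)⁻¹ - 1) := by
  have hPG : IsPGroup 2 (GK K Q) := isPGroup_of_pow _ (GK_pow Q)
  haveI : IsLocalRing (MonoidAlgebra κ (GK K Q)) := GroupAlg.isLocalRing hPG
  by_contra hn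
  have h1 : Xi hω ψ Q (C ^ 2)⁻¹ - 1 ∈ maximalIdeal (MonoidAlgebra κ (GK K Q)) := hn
  rw [mem_maximalIdeal_iff hPG, map_sub, map_one, aug_Xi, sub_eq_zero] at h1
  refine wc_ne_one hω ?_ h1
  intro h2
  rw [map_inv, inv_eq_one, map_pow] at h2
  have h3 : ∀ z : Multiplicative (ZMod 3), z ^ 2 = 1 → z = 1 := by decide
  exact hC (h3 _ h2)

/-- **The Hecke homomorphism of the theta family**, with values in the group algebra of
`Cl₂ × (ℤ/2)^Q`. -/
theorem exists_thetaHom (h : IQ K N s) {Q : Finset ℕ}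
    (hQ : ∀ q ∈ Q, q.Prime ∧ ¬ IsSquare (-(N : ZMod q))) {M : ℕ} [NeZero M]
    (hM : M = N * ∏ q ∈ Q, q) (hω : ω ^ 2 + ω + 1 = 0)
    {ψ : ClassGroup (𝓞 K) →* Multiplicative (ZMod 3)} (hψ : ψ ≠ 1) :
    ∃ f : TT M (↑Q : Set ℕ) →+* MonoidAlgebra κ (GK K Q),
      (∀ (ℓ : ℕ) (hℓ : ℓ.Prime) (hℓM : ¬ ℓ ∣ M),
        (∀ P : (Ideal (𝓞 K))⁰, Ideal.absNorm (P : Ideal (𝓞 K)) = ℓ →
          f (elT _ hℓ hℓM) = Xi hω ψ Q (ClassGroup.mk0 P) + Xi hω ψ Q (ClassGroup.mk0 P)⁻¹) ∧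
        (¬ IsSquare (-(N : ZMod ℓ)) → f (elT _ hℓ hℓM) = 0)) ∧
      ∀ (q : Q) (hqM : (q : ℕ) ∣ M),
        f (elU (Q := (↑Q : Set ℕ)) (Finset.mem_coe.mpr q.2) hqM) =
          MonoidAlgebra.single (ugen q) 1 := by
  classical
  obtain ⟨C, hC⟩ : ∃ C, ψ C ≠ 1 := by
    by_contra hcon
    push Not at hcon
    exact hψ (MonoidHom.ext hcon)
  haveI : CharP (MonoidAlgebra κ (GK K Q)) 2 :=
    charP_of_injective_algebraMap (algebraMap κ (MonoidAlgebra κ (GK K Q))).injective 2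
  let u : ℕ → MonoidAlgebra κ (GK K Q) := fun q =>
    if hq : q ∈ Q then MonoidAlgebra.single (ugen ⟨q, hq⟩) 1 else 1
  have hu : ∀ q ∈ Q, u q * u q = 1 := by
    intro q hq
    simp only [u, dif_pos hq]
    rw [MonoidAlgebra.single_mul_single, ugen_mul_self, one_mul]
    rfl
  obtain ⟨f, hf1, hf2⟩ := exists_heckeHom h hQ hM (Xi hω ψ Q) u hu C
    (isUnit_Xi_sub_one hω Q hC) (fun A => by
      obtain ⟨F, hF, z, hz, hz2⟩ := exists_hform h hQ A C hM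
      refine ⟨F, hF, z, hz, fun n => ?_⟩
      have h1 := hz2 n
      have h2 : z n - (((Theta.ic n (A * C ^ 2) : ℤ)) - Theta.ic n A) =
          (z n - ((Theta.ic n A : ℤ) - Theta.ic n (A * C ^ 2))) +
            2 * ((Theta.ic n A : ℤ) - Theta.ic n (A * C ^ 2)) := by ring
      rw [h2]
      exact dvd_add h1 (dvd_mul_right _ _))
  refine ⟨f, hf1, fun q hqM => ?_⟩
  rw [hf2 q (Finset.mem_coe.mpr q.2) hqM]
  simp only [u, dif_pos q.2]

end Fermat.Agent.LTF.Theta
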