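import Fermat.Agent.LTF.Theta.Family
import Fermat.Agent.LTF.Theta.ThetaHom

/-!
# The theta family
-/

set_option autoImplicit false
set_option linter.unusedSectionVars false

open IsLocalRing NumberField Fermat.Agent.RT Fermat.Agent.LTF.GroupSurj CongruenceSubgroup
  ModularFormClass
open scoped nonZeroDivisors

noncomputable section

namespace Fermat.Agent.LTF.ThetaFam

open Fermat.Agent.LTF.PmForms

variable {K : Type} [Field K] [NumberField K] {N : ℕ} {s : K}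

theorem dvd_of_mem {N M : ℕ} {Q : Finset ℕ} (hM : M = N * ∏ q ∈ Q, q) (q : ℕ) (hq : q ∈ Q) :
    q ∣ M := hM ▸ (Finset.dvd_prod_of_mem (fun q => q) hq).mul_left N

/-- The Hecke element of the theta family. -/
theorem exists_heckeEl (h : Theta.IQ K N s) {Q : Finset ℕ}
    (hQ : ∀ q ∈ Q, q.Prime ∧ ¬ IsSquare (-(N : ZMod q))) {M : ℕ} [NeZero M]
    (hM : M = N * ∏ q ∈ Q, q) {κ : Type} [Field κ] [CharP κ 2] {ω : κ} (hω : ω ^ 2 + ω + 1 = 0)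
    {ψ : ClassGroup (𝓞 K) →* Multiplicative (ZMod 3)} (hψ : ψ ≠ 1) :
    Nonempty (HeckeEl κ hω ψ M Q (dvd_of_mem hM)) := by
  obtain ⟨f, hf, hfU⟩ := Theta.exists_thetaHom h hQ hM hω hψ
  refine ⟨⟨f, fun ℓ hℓ hℓM P hP => (hf ℓ hℓ hℓM).1 P hP, fun ℓ hℓ hℓM hP => ?_,
    fun q => hfU q _⟩⟩
  refine (hf ℓ hℓ hℓM).2 fun hsq => ?_
  have hNM : N ∣ M := ⟨_, hM⟩
  have hℓN : ¬ ℓ ∣ N := fun h1 => hℓM (h1.trans hNM)
  have hℓ2 : ℓ ≠ 2 := fun h1 => hℓN (h1 ▸ h.even.two_dvd)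
  obtain ⟨P, hP'⟩ := Theta.exists_prime_of_isSquare h hℓ hℓ2 hℓN hsq
  exact hP P hP'

/-- **The theta family** of an imaginary quadratic field `K = ℚ(√-N)`, `N` even and squarefree, with
a cubic class character `ψ`, and a set `Q` of inert primes: at least `h₂(K) 2^|Q|` normalised
eigenforms of level `N ∏ q` with `a_q² = 1`, all congruent modulo a place above two to the theta
series of `ψ`. -/
theorem exists_family (h : Theta.IQ K N s) {Q : Finset ℕ}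
    (hQ : ∀ q ∈ Q, q.Prime ∧ ¬ IsSquare (-(N : ZMod q))) {M : ℕ} [NeZero M]
    (hM : M = N * ∏ q ∈ Q, q) {ψ : ClassGroup (𝓞 K) →* Multiplicative (ZMod 3)} (hψ : ψ ≠ 1) :
    ∃ (κ : Type) (_ : Field κ) (_ : CharP κ 2) (ψ₀ : integralClosure ℤ ℂ →+* κ)
      (ι : Type) (_ : Fintype ι) (f : ι → CuspForm (Gamma0 M) 2),
      Gal.h2 K * 2 ^ Q.card ≤ Fintype.card ι ∧ Function.Injective f ∧
      (∀ i, (f i).IsNormalizedEigenform) ∧
      (∀ i, ∀ q ∈ Q, qCoeff ⇑(f i) q ^ 2 = 1) ∧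
      ∀ i (ℓ : ℕ), ℓ.Prime → ¬ ℓ ∣ M → ∀ b : integralClosure ℤ ℂ, (b : ℂ) = qCoeff ⇑(f i) ℓ →
        ψ₀ b = ZMod.castHom (dvd_refl 2) κ (val2 ψ ℓ) := by
  obtain ⟨κ, _, _, ψ₀, ω, hω⟩ := exists_residue
  obtain ⟨H⟩ := exists_heckeEl h hQ hM hω hψ
  obtain ⟨ι, i1, f, h1, h2, h3, h4, h5⟩ := exists_family_of (fun q hq => (hQ q hq).1) hψ ψ₀ H
  exact ⟨κ, _, _, ψ₀, ι, i1, f, h1, h2, h3, h4, h5⟩

end Fermat.Agent.LTF.ThetaFam

end
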