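import Mathlib
import Fermat.Agent.LTF.Theta.Rel

/-!
Split primes: Hecke relations for the ideal counting function of `ℤ[√-N]`.
-/

set_option autoImplicit false

open NumberField Module nonZeroDivisors

namespace Fermat.Agent.LTF.Theta

variable {K : Type*} [Field K] [NumberField K] {N : ℕ} {s : K}

/-- the ideal `(l, s - w)` -/
noncomputable def lam (h : IQ K N s) (l : ℕ) (w : ℤ) : Ideal (𝓞 K) :=
  Ideal.span {(l : 𝓞 K), h.sO - (w : 𝓞 K)}

lemma mem_lam (h : IQ K N s) {l : ℕ} {w : ℤ} (hw : (l : ℤ) ∣ N + w ^ 2) (a b : ℤ) :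
    (a : 𝓞 K) + (b : 𝓞 K) * h.sO ∈ lam h l w ↔ (l : ℤ) ∣ a + b * w := by
  rw [lam, Ideal.mem_span_pair]
  constructor
  · rintro ⟨x, y, hxy⟩
    obtain ⟨x1, x2, rfl⟩ := h.exists_int_coord x
    obtain ⟨y1, y2, rfl⟩ := h.exists_int_coord y
    have h1 := h.coord_unique (a := l * x1 - N * y2 - w * y1) (b := l * x2 + y1 - w * y2)
      (a' := a) (b' := b) (by
        rw [← hxy]
        push_cast
        linear_combination (y2 : 𝓞 K) * (-h.sO_sq))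
    obtain ⟨k, hk⟩ := hw
    refine ⟨x1 + x2 * w - y2 * k, ?_⟩
    rw [← h1.1, ← h1.2]
    linear_combination (-y2) * hk
  · rintro ⟨k, hk⟩
    refine ⟨k, b, ?_⟩
    have : (a : 𝓞 K) = l * k - b * w := by
      have : a = l * k - b * w := by linarith
      rw [this]; push_cast; ring
    rw [this]
    ring

lemma not_dvd_w {l : ℕ} (hlN : ¬ l ∣ N) {w : ℤ}
    (hw : (l : ℤ) ∣ N + w ^ 2) : ¬ (l : ℤ) ∣ w := by
  intro h1
  apply hlN
  have h2 : (l : ℤ) ∣ N := (Int.dvd_iff_dvd_of_dvd_add hw).mpr (dvd_pow h1 two_ne_zero)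
  exact_mod_cast h2

lemma not_dvd_two_mul {l : ℕ} (hl : l.Prime) (hl2 : l ≠ 2) (hlN : ¬ l ∣ N) {w : ℤ}
    (hw : (l : ℤ) ∣ N + w ^ 2) : ¬ (l : ℤ) ∣ 2 * w := by
  intro h1
  rcases (Nat.prime_iff_prime_int.mp hl).dvd_or_dvd h1 with h2 | h2
  · have h3 : l ∣ 2 := by exact_mod_cast h2
    exact hl2 ((Nat.prime_dvd_prime_iff_eq hl Nat.prime_two).mp h3)
  · exact not_dvd_w hlN hw h2

lemma lam_mul (h : IQ K N s) {l : ℕ} (hl : l.Prime) (hl2 : l ≠ 2) (hlN : ¬ l ∣ N) {w : ℤ}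
    (hw : (l : ℤ) ∣ N + w ^ 2) : lam h l w * lam h l (-w) = Ideal.span {(l : 𝓞 K)} := by
  have hs := h.sO_sq
  obtain ⟨k, hk⟩ := hw
  have hkk : (N : 𝓞 K) + (w : 𝓞 K) ^ 2 = l * k := by exact_mod_cast congrArg (Int.cast (R := 𝓞 K)) hk
  rw [lam, lam, Ideal.span_pair_mul_span_pair]
  apply le_antisymm
  · rw [Ideal.span_le]
    intro x hx
    simp only [Set.mem_insert_iff, Set.mem_singleton_iff] at hx
    rw [SetLike.mem_coe, Ideal.mem_span_singleton]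
    rcases hx with rfl | rfl | rfl | rfl
    · exact ⟨l, rfl⟩
    · exact ⟨_, rfl⟩
    · exact ⟨_, mul_comm _ _⟩
    · refine ⟨-(k : 𝓞 K), ?_⟩
      push_cast
      linear_combination hs - hkk
  · rw [Ideal.span_singleton_le_iff_mem]
    have hcop : IsCoprime (l : ℤ) (2 * w) :=
      ((Nat.prime_iff_prime_int.mp hl).irreducible.coprime_iff_not_dvd).mpr
        (not_dvd_two_mul hl hl2 hlN ⟨k, hk⟩)
    obtain ⟨u, v, huv⟩ := hcop
    set S : Ideal (𝓞 K) := Ideal.span {(l : 𝓞 K) * l, l * (h.sO - ((-w : ℤ) : 𝓞 K)),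
      (h.sO - (w : 𝓞 K)) * l, (h.sO - (w : 𝓞 K)) * (h.sO - ((-w : ℤ) : 𝓞 K))} with hS
    have h1 : (l : 𝓞 K) * l ∈ S := Ideal.subset_span (by simp)
    have h2 : (l : 𝓞 K) * (h.sO - ((-w : ℤ) : 𝓞 K)) ∈ S := Ideal.subset_span (by simp)
    have h3 : (h.sO - (w : 𝓞 K)) * l ∈ S := Ideal.subset_span (by simp)
    have h4 : (l : 𝓞 K) = (u : 𝓞 K) * ((l : 𝓞 K) * l) + (v : 𝓞 K) *
        ((l : 𝓞 K) * (h.sO - ((-w : ℤ) : 𝓞 K)) - (h.sO - (w : 𝓞 K)) * l) := by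
      have h5 : (u : 𝓞 K) * l + v * (2 * w) = 1 := by
        exact_mod_cast congrArg (Int.cast (R := 𝓞 K)) huv
      push_cast
      linear_combination (-(l : 𝓞 K)) * h5
    rw [h4]
    exact add_mem (Ideal.mul_mem_left _ _ h1) (Ideal.mul_mem_left _ _ (sub_mem h2 h3))

lemma lam_ne_zero (h : IQ K N s) {l : ℕ} (hl : l.Prime) (w : ℤ) : lam h l w ≠ 0 := by
  intro h0
  have h1 : (l : 𝓞 K) ∈ lam h l w := Ideal.subset_span (by simp)
  rw [h0, Ideal.zero_eq_bot, Ideal.mem_bot] at h1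
  exact hl.ne_zero (by exact_mod_cast h1)

/-- `(l, s - w)` as a nonzero ideal -/
noncomputable def Lam (h : IQ K N s) {l : ℕ} (hl : l.Prime) (w : ℤ) : (Ideal (𝓞 K))⁰ :=
  ⟨lam h l w, mem_nonZeroDivisors_of_ne_zero (lam_ne_zero h hl w)⟩

section
variable (h : IQ K N s) {l : ℕ} (hl : l.Prime) (hl2 : l ≠ 2) (hlN : ¬ l ∣ N) {w : ℤ}
    (hw : (l : ℤ) ∣ N + w ^ 2)

include hl hl2 hlN hw

lemma Lam_mul [NeZero l] : Lam h hl w * Lam h hl (-w) = qI K l :=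
  Subtype.ext (lam_mul h hl hl2 hlN hw)

lemma mk0_Lam_neg : ClassGroup.mk0 (Lam h hl (-w)) = (ClassGroup.mk0 (Lam h hl w))⁻¹ := by
  have : NeZero l := ⟨hl.ne_zero⟩
  have h1 := congrArg ClassGroup.mk0 (Lam_mul h hl hl2 hlN hw)
  rw [map_mul, mk0_qI] at h1
  exact (inv_eq_of_mul_eq_one_right h1).symm

omit hl2 hlN in
lemma absNorm_Lam_ne_one : Ideal.absNorm (Lam h hl w : Ideal (𝓞 K)) ≠ 1 := by
  intro h1
  rw [Ideal.absNorm_eq_one_iff] at h1
  have h2 : ((1 : ℤ) : 𝓞 K) + ((0 : ℤ) : 𝓞 K) * h.sO ∈ lam h l w := by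
    change _ ∈ (Lam h hl w : Ideal (𝓞 K))
    rw [h1]; trivial
  rw [mem_lam h hw] at h2
  have h3 : (l : ℤ) ∣ 1 := by simpa using h2
  have h4 : l ∣ 1 := by exact_mod_cast h3
  exact hl.one_lt.ne' (Nat.dvd_one.mp h4)

lemma absNorm_Lam : Ideal.absNorm (Lam h hl w : Ideal (𝓞 K)) = l := by
  have : NeZero l := ⟨hl.ne_zero⟩
  have h1 := absNorm_qI h l
  rw [← Lam_mul h hl hl2 hlN hw, Submonoid.coe_mul, map_mul] at h1
  have h2 := absNorm_Lam_ne_one h hl hw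
  have h3 := absNorm_Lam_ne_one h hl (w := -w) (by rwa [neg_sq])
  exact (Nat.Prime.mul_eq_prime_sq_iff hl h2 h3).mp h1 |>.1

omit hl2 hlN in
lemma dvd_Lam (I : (Ideal (𝓞 K))⁰) (hI : l ∣ Ideal.absNorm (I : Ideal (𝓞 K))) :
    Lam h hl w ∣ I ∨ Lam h hl (-w) ∣ I := by
  rw [nonZeroDivisors_dvd_iff_dvd_coe, nonZeroDivisors_dvd_iff_dvd_coe, Ideal.dvd_iff_le,
    Ideal.dvd_iff_le]
  have hw' : (l : ℤ) ∣ N + (-w) ^ 2 := by rwa [neg_sq]
  have key : ∀ z ∈ (I : Ideal (𝓞 K)), z ∈ lam h l w ∨ z ∈ lam h l (-w) := by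
    intro z hz
    obtain ⟨a, b, rfl⟩ := h.exists_int_coord z
    rw [mem_lam h hw, mem_lam h hw']
    apply (Nat.prime_iff_prime_int.mp hl).dvd_or_dvd
    have h1 := Ideal.absNorm_dvd_absNorm_of_le ((Ideal.span_singleton_le_iff_mem _).mpr hz)
    have h2 : (l : ℤ) ∣ a ^ 2 + N * b ^ 2 := by
      rw [← h.absNorm_span]
      exact_mod_cast hI.trans h1
    have h3 : (a + b * w) * (a + b * -w) = (a ^ 2 + N * b ^ 2) - b ^ 2 * (N + w ^ 2) := by ring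
    rw [h3]
    exact dvd_sub h2 (Dvd.dvd.mul_left hw _)
  by_contra hcon
  push Not at hcon
  obtain ⟨⟨x, hx, hx'⟩, ⟨y, hy, hy'⟩⟩ := (And.imp (SetLike.not_le_iff_exists).mp
    (SetLike.not_le_iff_exists).mp hcon)
  have hx2 := (key x hx).resolve_left hx'
  have hy2 := (key y hy).resolve_right hy'
  rcases key (x + y) (add_mem hx hy) with h1 | h1
  · have h2 := sub_mem h1 hy2
    rw [add_sub_cancel_right] at h2
    exact hx' h2
  · have h2 := sub_mem h1 hx2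
    rw [add_sub_cancel_left] at h2
    exact hy' h2

lemma both_iff [NeZero l] (I : (Ideal (𝓞 K))⁰) :
    (Lam h hl w ∣ I ∧ Lam h hl (-w) ∣ I) ↔ qI K l ∣ I := by
  have hw' : (l : ℤ) ∣ N + (-w) ^ 2 := by rwa [neg_sq]
  constructor
  · rintro ⟨h1, h2⟩
    rw [nonZeroDivisors_dvd_iff_dvd_coe, Ideal.dvd_iff_le] at h1 h2 ⊢
    intro z hz
    have e1 := h1 hz
    have e2 := h2 hz
    obtain ⟨a, b, rfl⟩ := h.exists_int_coord z
    change _ ∈ lam h l w at e1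
    change _ ∈ lam h l (-w) at e2
    rw [mem_lam h hw] at e1
    rw [mem_lam h hw'] at e2
    rw [mem_qI_iff]
    have hpr := Nat.prime_iff_prime_int.mp hl
    have hb : (l : ℤ) ∣ b := by
      have h3 : (l : ℤ) ∣ b * (2 * w) := by
        have : b * (2 * w) = (a + b * w) - (a + b * -w) := by ring
        rw [this]
        exact dvd_sub e1 e2
      exact (hpr.dvd_or_dvd h3).resolve_right (not_dvd_two_mul hl hl2 hlN hw)
    refine ⟨?_, hb⟩
    exact (Int.dvd_iff_dvd_of_dvd_add e1).mpr (Dvd.dvd.mul_right hb _)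
  · intro h1
    rw [← Lam_mul h hl hl2 hlN hw] at h1
    exact ⟨(Dvd.intro _ rfl).trans h1, (Dvd.intro_left _ rfl).trans h1⟩

/-- Hecke relation at a split prime. -/
theorem ic_split_aux (n : ℕ) (A : ClassGroup (𝓞 K)) :
    ic (l * n) A + (if l ∣ n then ic (n / l) A else 0) =
      ic n (A * (ClassGroup.mk0 (Lam h hl w))⁻¹) + ic n (A * ClassGroup.mk0 (Lam h hl w)) := by
  have : NeZero l := ⟨hl.ne_zero⟩
  have hw' : (l : ℤ) ∣ N + (-w) ^ 2 := by rwa [neg_sq]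
  set X : Set (Ideal (𝓞 K))⁰ := {I | Ideal.absNorm (I : Ideal (𝓞 K)) = l * n ∧
    ClassGroup.mk0 I = A} with hX
  have hXfin : X.Finite := Set.finite_coe_iff.mp (finite_ic (K := K) (l * n) A)
  set X1 : Set (Ideal (𝓞 K))⁰ := {I | I ∈ X ∧ Lam h hl w ∣ I} with hX1
  set X2 : Set (Ideal (𝓞 K))⁰ := {I | I ∈ X ∧ Lam h hl (-w) ∣ I} with hX2
  have hU : X1 ∪ X2 = X := by
    ext I
    simp only [hX1, hX2, Set.mem_union, Set.mem_ofPred_eq]
    constructor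
    · rintro (h1 | h1) <;> exact h1.1
    · intro h1
      rcases dvd_Lam h hl hw I (by rw [h1.1]; exact Dvd.intro _ rfl) with h2 | h2
      · exact Or.inl ⟨h1, h2⟩
      · exact Or.inr ⟨h1, h2⟩
  have hI : X1 ∩ X2 = {I | I ∈ X ∧ qI K l ∣ I} := by
    ext I
    simp only [hX1, hX2, Set.mem_inter_iff, Set.mem_ofPred_eq]
    rw [← both_iff h hl hl2 hlN hw I]
    tauto
  have hc1 : X1.ncard = ic n (A * (ClassGroup.mk0 (Lam h hl w))⁻¹) := by
    have h1 := card_dvd (Lam h hl w) n A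
    rw [absNorm_Lam h hl hl2 hlN hw] at h1
    rw [← h1, ← Nat.card_coe_set_eq]
    rfl
  have hc2 : X2.ncard = ic n (A * ClassGroup.mk0 (Lam h hl w)) := by
    have h1 := card_dvd (Lam h hl (-w)) n A
    rw [absNorm_Lam h hl hl2 hlN hw', mk0_Lam_neg h hl hl2 hlN hw, inv_inv] at h1
    rw [← h1, ← Nat.card_coe_set_eq]
    rfl
  have hc3 : (X1 ∩ X2).ncard = if l ∣ n then ic (n / l) A else 0 := by
    rw [hI]
    split_ifs with hln
    · obtain ⟨m, rfl⟩ := hln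
      rw [Nat.mul_div_cancel_left m hl.pos]
      have h1 := card_dvd (qI K l) m A
      rw [mk0_qI, inv_one, mul_one, absNorm_qI h] at h1
      rw [← h1, ← Nat.card_coe_set_eq]
      refine Nat.card_congr (Equiv.subtypeEquivRight fun I => ?_)
      simp only [hX, Set.mem_ofPred_eq]
      rw [show l * (l * m) = l ^ 2 * m by ring]
    · rw [Set.ncard_eq_zero (hXfin.subset fun I hI => hI.1)]
      ext I
      simp only [Set.mem_ofPred_eq, Set.mem_empty_iff_false, iff_false, not_and]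
      rintro ⟨h1, h2⟩ ⟨J, rfl⟩
      rw [Submonoid.coe_mul, map_mul, absNorm_qI h, pow_two, mul_assoc] at h1
      exact hln ⟨_, (Nat.eq_of_mul_eq_mul_left hl.pos h1).symm⟩
  have h1 := Set.ncard_union_add_ncard_inter X1 X2 (hXfin.subset fun I hI => hI.1)
    (hXfin.subset fun I hI => hI.1)
  rw [hU, hc1, hc2, hc3] at h1
  rw [← h1, ic, ← Nat.card_coe_set_eq]
  rfl

end

/-- every ideal of prime norm `l ∤ 2N` is one of the two. -/
lemma exists_Lam (h : IQ K N s) {l : ℕ} (hl : l.Prime) (hl2 : l ≠ 2) (hlN : ¬ l ∣ N)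
    (P : (Ideal (𝓞 K))⁰) (hP : Ideal.absNorm (P : Ideal (𝓞 K)) = l) :
    ∃ w : ℤ, (l : ℤ) ∣ N + w ^ 2 ∧ P = Lam h hl w := by
  have hsq : IsSquare (-(N : ZMod l)) := by
    by_contra hcon
    have h1 := ic_inert h hl hcon 1 (ClassGroup.mk0 P)
    rw [mul_one, if_neg (fun hd => hl.one_lt.ne' (Nat.dvd_one.mp hd)), ic, Nat.card_eq_zero] at h1
    rcases h1 with h1 | h1
    · exact h1.false ⟨P, hP, rfl⟩
    · exact h1.not_finite (finite_ic l _)
  obtain ⟨w0, hw0⟩ := hsq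
  obtain ⟨w, rfl⟩ := ZMod.intCast_surjective w0
  have hw : (l : ℤ) ∣ N + w ^ 2 := by
    rw [← ZMod.intCast_zmod_eq_zero_iff_dvd]
    push_cast
    linear_combination -hw0
  have hw' : (l : ℤ) ∣ N + (-w) ^ 2 := by rwa [neg_sq]
  have key : ∀ w : ℤ, (l : ℤ) ∣ N + w ^ 2 → Lam h hl w ∣ P → P = Lam h hl w := by
    rintro w hw ⟨J, hJ⟩
    have h1 := hP
    rw [hJ, Submonoid.coe_mul, map_mul, absNorm_Lam h hl hl2 hlN hw] at h1
    have h2 : Ideal.absNorm (J : Ideal (𝓞 K)) = 1 := by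
      have := hl.pos
      nlinarith
    rw [Ideal.absNorm_eq_one_iff] at h2
    have h3 : J = 1 := Subtype.ext (by rw [h2, Submonoid.coe_one, Ideal.one_eq_top])
    rw [hJ, h3, mul_one]
  rcases dvd_Lam h hl hw P (by rw [hP]) with h1 | h1
  · exact ⟨w, hw, key w hw h1⟩
  · exact ⟨-w, hw', key (-w) hw' h1⟩

/-- **(A3)** Hecke relation at an ideal of prime norm. -/
theorem ic_split (h : IQ K N s) {l : ℕ} (hl : l.Prime) (hl2 : l ≠ 2) (hlN : ¬ l ∣ N)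
    (P : (Ideal (𝓞 K))⁰) (hP : Ideal.absNorm (P : Ideal (𝓞 K)) = l) (n : ℕ)
    (A : ClassGroup (𝓞 K)) :
    ic (l * n) A + (if l ∣ n then ic (n / l) A else 0) =
      ic n (A * (ClassGroup.mk0 P)⁻¹) + ic n (A * ClassGroup.mk0 P) := by
  obtain ⟨w, hw, rfl⟩ := exists_Lam h hl hl2 hlN P hP
  exact ic_split_aux h hl hl2 hlN hw n A

/-- inert or split -/
theorem exists_prime_of_isSquare (h : IQ K N s) {l : ℕ} (hl : l.Prime) (hl2 : l ≠ 2)
    (hlN : ¬ l ∣ N) (hsq : IsSquare (-(N : ZMod l))) :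
    ∃ P : (Ideal (𝓞 K))⁰, Ideal.absNorm (P : Ideal (𝓞 K)) = l := by
  obtain ⟨w0, hw0⟩ := hsq
  obtain ⟨w, rfl⟩ := ZMod.intCast_surjective w0
  have hw : (l : ℤ) ∣ N + w ^ 2 := by
    rw [← ZMod.intCast_zmod_eq_zero_iff_dvd]
    push_cast
    linear_combination -hw0
  exact ⟨Lam h hl w, absNorm_Lam h hl hl2 hlN hw⟩

end Fermat.Agent.LTF.Theta
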