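import Mathlib
import Fermat.Agent.LTF.Theta.GenusId
import Fermat.Agent.LTF.Theta.Split
import Fermat.Agent.LTF.Theta.AN

/-!
The cusp forms attached to pairs of ideal classes in the same genus, and the arithmetic of their
coefficients.
-/

set_option autoImplicit false

open NumberField Module nonZeroDivisors UpperHalfPlane ModularForm Filter CongruenceSubgroup
open scoped Topology MatrixGroups

namespace Fermat.Agent.LTF.Theta

variable {K : Type*} [Field K] [NumberField K] {N : ℕ} {s : K}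

/-- coefficients of `Θ_A(z) ϑ(cz)` -/
noncomputable def cv (N c : ℕ) (A : ClassGroup (𝓞 K)) (n : ℕ) : ℕ :=
  ∑ k ∈ (Finset.range (n + 1)).filter (fun k => c * k ≤ n), ic (n - c * k) A * r0 N k

lemma rep_prin (N n : ℕ) : (prin N).rep n = r0 N n := by
  rw [BQ.rep, r0]
  refine Nat.card_congr (Equiv.subtypeEquivRight fun x => ?_)
  simp [prin, BQ.ev]

/-- **[H]** the cusp forms of level `N c` -/
theorem exists_H (h : IQ K N s) {c : ℕ} (hc : 0 < c) (A B : ClassGroup (𝓞 K)) :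
    ∃ F : CuspForm (Gamma0 (N * c)) 2, ∀ n, ModularFormClass.qCoeff ⇑F n =
      (cv N c (A * B ^ 2) (4 * n) : ℂ) - (cv N c A (4 * n) : ℂ) := by
  obtain ⟨Q, hpos, hdisc, hrep, hgen⟩ := exists_forms h
  have hgen' : ∀ m : ℤ, m ≠ 0 → Genus (Q (A * B ^ 2)) (Q A) m := by
    intro m hm
    obtain ⟨s, t, u, v, s', t', u', v', h1, h2, h3⟩ := (hgen A B m hm).ex
    exact ⟨s', t', u', v', s, t, u, v, h2, h1, fun x y => (h3 x y).symm⟩
  obtain ⟨F, hF⟩ := exists_AN (hpos (A * B ^ 2)) (hpos A) (prin_pos h.N_pos) h.even (hdisc _)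
    (hdisc _) (prin_disc N) hgen' hc (u := fun n => ic n (A * B ^ 2)) (u' := fun n => ic n A)
    (fun n hn => hrep _ n (by omega)) (fun n hn => hrep _ n (by omega))
    (by simp only [ic_zero])
  refine ⟨F, fun n => ?_⟩
  rw [hF]
  unfold cv
  push_cast
  rw [← Finset.sum_sub_distrib]
  refine Finset.sum_congr rfl fun k _ => ?_
  rw [rep_prin, ← sub_mul]

/-- reduction mod `2` -/
theorem cv_mod_two (h : IQ K N s) {c : ℕ} (A : ClassGroup (𝓞 K)) (n : ℕ) :
    ∃ e : ℕ, cv N c A (4 * n) = ic n A + 2 * e := by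
  unfold cv
  have h0 : 0 ∈ (Finset.range (4 * n + 1)).filter (fun k => c * k ≤ 4 * n) := by simp
  rw [← Finset.add_sum_erase _ _ h0, mul_zero, Nat.sub_zero, r0_zero h.N_ne_zero, mul_one, ic_four h]
  have h1 : ∀ k ∈ ((Finset.range (4 * n + 1)).filter (fun k => c * k ≤ 4 * n)).erase 0,
      2 ∣ ic (4 * n - c * k) A * r0 N k := by
    intro k hk
    exact Dvd.dvd.mul_left (r0_even h (Finset.ne_of_mem_erase hk)).two_dvd _
  obtain ⟨e, he⟩ := Finset.dvd_sum h1
  exact ⟨e, by rw [he]⟩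

/-- `U_q² = 1` -/
theorem cv_inert_sq (h : IQ K N s) {q : ℕ} (hq : q.Prime) (hin : ¬ IsSquare (-(N : ZMod q)))
    {c : ℕ} (hc : 0 < c) (hqc : q ∣ c) (hqc2 : ¬ q ^ 2 ∣ c) (A : ClassGroup (𝓞 K)) (n : ℕ) :
    cv N c A (q ^ 2 * n) = cv N c A n := by
  unfold cv
  have hq2 : 0 < q ^ 2 := pow_pos hq.pos 2
  have hinj : Function.Injective (fun k : ℕ => q ^ 2 * k) := fun a b hab =>
    Nat.eq_of_mul_eq_mul_left hq2 hab
  have hsub : ((Finset.range (n + 1)).filter (fun k => c * k ≤ n)).image (fun k => q ^ 2 * k) ⊆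
      (Finset.range (q ^ 2 * n + 1)).filter (fun k => c * k ≤ q ^ 2 * n) := by
    intro k hk
    rw [Finset.mem_image] at hk
    obtain ⟨k', hk', rfl⟩ := hk
    rw [Finset.mem_filter, Finset.mem_range] at hk' ⊢
    constructor
    · have : k' ≤ n := by omega
      have := Nat.mul_le_mul_left (q ^ 2) this
      omega
    · calc c * (q ^ 2 * k') = q ^ 2 * (c * k') := by ring
        _ ≤ q ^ 2 * n := Nat.mul_le_mul_left _ hk'.2
  rw [← Finset.sum_subset hsub, Finset.sum_image (fun a _ b _ hab => hinj hab)]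
  · refine Finset.sum_congr rfl fun k hk => ?_
    rw [Finset.mem_filter] at hk
    rw [r0_inert_sq h hq hin, show q ^ 2 * n - c * (q ^ 2 * k) = q ^ 2 * (n - c * k) by
      rw [Nat.mul_sub]; congr 1; ring, ic_inert_sq h hq hin]
  · intro k hk hk'
    rw [Finset.mem_filter, Finset.mem_range] at hk
    by_contra hne
    apply hk'
    have hic : ic (q ^ 2 * n - c * k) A ≠ 0 := fun h0 => hne (by rw [h0, zero_mul])
    have hr0 : r0 N k ≠ 0 := fun h0 => hne (by rw [h0, mul_zero])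
    obtain ⟨c', rfl⟩ := hqc
    have hqc' : ¬ q ∣ c' := fun ⟨d, hd⟩ => hqc2 ⟨d, by rw [hd]; ring⟩
    have e1 : q ^ 2 * n - q * c' * k = q * (q * n - c' * k) := by
      rw [Nat.mul_sub]; congr 1 <;> ring
    have hle : c' * k ≤ q * n := by
      have h1 := hk.2
      have h2 : q * (c' * k) ≤ q * (q * n) := by
        calc q * (c' * k) = q * c' * k := by ring
          _ ≤ q ^ 2 * n := h1
          _ = q * (q * n) := by ring
      exact Nat.le_of_mul_le_mul_left h2 hq.pos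
    rw [e1, ic_inert h hq hin] at hic
    have hd1 : q ∣ q * n - c' * k := by
      by_contra hd
      rw [if_neg hd] at hic
      exact hic rfl
    have hd2 : q ∣ c' * k := (Nat.dvd_sub_iff_right hle (Dvd.intro _ rfl)).mp hd1
    obtain ⟨k1, rfl⟩ := (hq.dvd_mul.mp hd2).resolve_left hqc'
    rw [r0_inert h hq hin] at hr0
    have hd3 : q ∣ k1 := by
      by_contra hd
      rw [if_neg hd] at hr0
      exact hr0 rfl
    obtain ⟨k2, rfl⟩ := hd3
    rw [Finset.mem_image]
    refine ⟨k2, ?_, by ring⟩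
    rw [Finset.mem_filter, Finset.mem_range]
    have h5 : q ^ 2 * (q * c' * k2) ≤ q ^ 2 * n := by
      calc q ^ 2 * (q * c' * k2) = q * c' * (q * (q * k2)) := by ring
        _ ≤ q ^ 2 * n := hk.2
    have h6 := Nat.le_of_mul_le_mul_left h5 hq2
    refine ⟨?_, h6⟩
    have h7 : k2 ≤ q * c' * k2 := Nat.le_mul_of_pos_left _ hc
    omega

theorem cv_four_inert_sq (h : IQ K N s) {q : ℕ} (hq : q.Prime) (hin : ¬ IsSquare (-(N : ZMod q)))
    {c : ℕ} (hc : 0 < c) (hqc : q ∣ c) (hqc2 : ¬ q ^ 2 ∣ c) (A : ClassGroup (𝓞 K)) (n : ℕ) :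
    cv N c A (4 * (q ^ 2 * n)) = cv N c A (4 * n) := by
  rw [← cv_inert_sq h hq hin hc hqc hqc2 A (4 * n)]
  congr 1
  ring

end Fermat.Agent.LTF.Theta
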