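import Mathlib
import Fermat.Agent.LTF.Theta.Split

/-!
The coefficients of `Θ_Ξ = ∑ Ξ(𝔟) q^{N𝔟}`.
-/

set_option autoImplicit false

open NumberField Module nonZeroDivisors

namespace Fermat.Agent.LTF.Theta

variable {K : Type*} [Field K] [NumberField K] {N : ℕ} {s : K}
variable {R : Type*} [CommRing R]

/-- `∑_{N𝔟 = n} Ξ(𝔟)` -/
noncomputable def co (Ξ : ClassGroup (𝓞 K) →* R) (n : ℕ) : R :=
  ∑ A, (ic n A : R) * Ξ A

open Classical in
lemma ic_one (A : ClassGroup (𝓞 K)) : ic 1 A = if A = 1 then 1 else 0 := by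
  have key : ∀ I : (Ideal (𝓞 K))⁰, Ideal.absNorm (I : Ideal (𝓞 K)) = 1 → I = 1 := by
    intro I hI
    rw [Ideal.absNorm_eq_one_iff] at hI
    exact Subtype.ext (by rw [hI, Submonoid.coe_one, Ideal.one_eq_top])
  split_ifs with hA
  · subst hA
    rw [ic, Nat.card_eq_one_iff_unique]
    refine ⟨⟨fun I J => Subtype.ext ((key _ I.2.1).trans (key _ J.2.1).symm)⟩,
      ⟨⟨1, by rw [Submonoid.coe_one, map_one], map_one _⟩⟩⟩
  · rw [ic, Nat.card_eq_zero]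
    left
    refine ⟨fun I => hA ?_⟩
    rw [← I.2.2, key _ I.2.1, map_one]

lemma co_zero (Ξ : ClassGroup (𝓞 K) →* R) : co Ξ 0 = 0 := by
  unfold co
  refine Finset.sum_eq_zero fun A _ => ?_
  rw [ic_zero]; simp

lemma co_one (Ξ : ClassGroup (𝓞 K) →* R) : co Ξ 1 = 1 := by
  classical
  unfold co
  rw [Finset.sum_eq_single 1]
  · rw [ic_one, if_pos rfl, map_one]; simp
  · intro A _ hA
    rw [ic_one, if_neg hA]; simp
  · intro h; exact absurd (Finset.mem_univ _) h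

lemma sum_shift (Ξ : ClassGroup (𝓞 K) →* R) (n : ℕ) (P : ClassGroup (𝓞 K)) :
    ∑ A, (ic n (A * P) : R) * Ξ A = Ξ P⁻¹ * co Ξ n := by
  unfold co
  rw [Finset.mul_sum, ← Equiv.sum_comp (Equiv.mulRight P)
    (fun A => Ξ P⁻¹ * ((ic n A : R) * Ξ A))]
  refine Finset.sum_congr rfl fun A _ => ?_
  rw [Equiv.coe_mulRight, map_mul, mul_left_comm (Ξ P⁻¹), mul_left_comm (Ξ P⁻¹), ← map_mul,
    inv_mul_cancel, map_one, mul_one]

theorem co_four (h : IQ K N s) (Ξ : ClassGroup (𝓞 K) →* R) (n : ℕ) : co Ξ (4 * n) = co Ξ n := by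
  unfold co
  exact Finset.sum_congr rfl fun A _ => by rw [ic_four h]

theorem co_inert (h : IQ K N s) (Ξ : ClassGroup (𝓞 K) →* R) {q : ℕ} (hq : q.Prime)
    (hin : ¬ IsSquare (-(N : ZMod q))) (n : ℕ) :
    co Ξ (q * n) = if q ∣ n then co Ξ (n / q) else 0 := by
  unfold co
  split_ifs with hqn
  · exact Finset.sum_congr rfl fun A _ => by rw [ic_inert h hq hin, if_pos hqn]
  · exact Finset.sum_eq_zero fun A _ => by rw [ic_inert h hq hin, if_neg hqn]; simp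

theorem co_inert_sq (h : IQ K N s) (Ξ : ClassGroup (𝓞 K) →* R) {q : ℕ} (hq : q.Prime)
    (hin : ¬ IsSquare (-(N : ZMod q))) (n : ℕ) : co Ξ (q ^ 2 * n) = co Ξ n := by
  unfold co
  exact Finset.sum_congr rfl fun A _ => by rw [ic_inert_sq h hq hin]

theorem co_split (h : IQ K N s) (Ξ : ClassGroup (𝓞 K) →* R) {l : ℕ} (hl : l.Prime) (hl2 : l ≠ 2)
    (hlN : ¬ l ∣ N) (P : (Ideal (𝓞 K))⁰) (hP : Ideal.absNorm (P : Ideal (𝓞 K)) = l) (n : ℕ) :
    co Ξ (l * n) + (if l ∣ n then co Ξ (n / l) else 0) =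
      (Ξ (ClassGroup.mk0 P) + Ξ (ClassGroup.mk0 P)⁻¹) * co Ξ n := by
  have h1 : (if l ∣ n then co Ξ (n / l) else 0) =
      ∑ A, (((if l ∣ n then ic (n / l) A else 0) : ℕ) : R) * Ξ A := by
    split_ifs
    · rfl
    · simp
  have e1 : co Ξ (l * n) = ∑ A, (ic (l * n) A : R) * Ξ A := rfl
  rw [h1, e1, ← Finset.sum_add_distrib, add_mul, ← sum_shift]
  have h2 : Ξ (ClassGroup.mk0 P) * co Ξ n =
      ∑ A, (ic n (A * (ClassGroup.mk0 P)⁻¹) : R) * Ξ A := by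
    rw [sum_shift, inv_inv]
  rw [h2, ← Finset.sum_add_distrib]
  refine Finset.sum_congr rfl fun A _ => ?_
  rw [← add_mul, ← add_mul, ← Nat.cast_add, ← Nat.cast_add, ic_split h hl hl2 hlN P hP]

/-- weight two Hecke operator mod `2`, split case -/
theorem co_hecke_split [CharP R 2] (h : IQ K N s) (Ξ : ClassGroup (𝓞 K) →* R) {l : ℕ}
    (hl : l.Prime) (hl2 : l ≠ 2) (hlN : ¬ l ∣ N) (P : (Ideal (𝓞 K))⁰)
    (hP : Ideal.absNorm (P : Ideal (𝓞 K)) = l) (n : ℕ) :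
    co Ξ (l * n) + (if l ∣ n then (l : R) * co Ξ (n / l) else 0) =
      (Ξ (ClassGroup.mk0 P) + Ξ (ClassGroup.mk0 P)⁻¹) * co Ξ n := by
  have hl1 : (l : R) = 1 := by
    obtain ⟨k, hk⟩ := hl.odd_of_ne_two hl2
    rw [hk]; push_cast
    have : (2 : R) = 0 := CharP.cast_eq_zero R 2
    rw [this]; ring
  rw [← co_split h Ξ hl hl2 hlN P hP n, hl1, one_mul]

/-- weight two Hecke operator mod `2`, inert case -/
theorem co_hecke_inert [CharP R 2] (h : IQ K N s) (Ξ : ClassGroup (𝓞 K) →* R) {l : ℕ}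
    (hl : l.Prime) (hl2 : l ≠ 2) (hin : ¬ IsSquare (-(N : ZMod l))) (n : ℕ) :
    co Ξ (l * n) + (if l ∣ n then (l : R) * co Ξ (n / l) else 0) = 0 := by
  have hl1 : (l : R) = 1 := by
    obtain ⟨k, hk⟩ := hl.odd_of_ne_two hl2
    rw [hk]; push_cast
    have : (2 : R) = 0 := CharP.cast_eq_zero R 2
    rw [this]; ring
  rw [co_inert h Ξ hl hin, hl1, one_mul]
  split_ifs
  · exact CharTwo.add_self_eq_zero _
  · exact add_zero _

/-- inert means: no ideal of norm `l` -/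
theorem isSquare_of_ideal (h : IQ K N s) {l : ℕ} (hl : l.Prime)
    (P : (Ideal (𝓞 K))⁰) (hP : Ideal.absNorm (P : Ideal (𝓞 K)) = l) :
    IsSquare (-(N : ZMod l)) := by
  by_contra hcon
  have h1 := ic_inert h hl hcon 1 (ClassGroup.mk0 P)
  rw [mul_one, if_neg (fun hd => hl.one_lt.ne' (Nat.dvd_one.mp hd)), ic, Nat.card_eq_zero] at h1
  rcases h1 with h1 | h1
  · exact h1.false ⟨P, hP, rfl⟩
  · exact h1.not_finite (finite_ic l _)

end Fermat.Agent.LTF.Theta
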