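import Fermat.Agent.LTF.Theta.PmForms
import Fermat.Agent.LTF.Theta.GroupSurj

/-!
# The theta family: from the Hecke element to the eigenforms
-/

set_option autoImplicit false
set_option linter.unusedSectionVars false
set_option linter.style.haveILetI false

open IsLocalRing NumberField Fermat.Agent.RT Fermat.Agent.LTF.GroupSurj CongruenceSubgroup
  ModularFormClass
open scoped nonZeroDivisors

noncomputable section

namespace Fermat.Agent.LTF.ThetaFam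

open Fermat.Agent.LTF.PmForms

/-! ### A residue field of the ring of algebraic integers, of characteristic two -/

theorem two_not_isUnit : ¬ IsUnit (2 : integralClosure ℤ ℂ) := by
  intro h
  obtain ⟨y, hy⟩ := h.exists_right_inv
  have h1 : (2 : ℂ) * (y : ℂ) = 1 := by
    have := congrArg (algebraMap (integralClosure ℤ ℂ) ℂ) hy
    rwa [map_mul, map_ofNat, map_one] at this
  have h2 : (y : ℂ) = algebraMap ℚ ℂ (1 / 2) := by
    rw [map_div₀, map_one, map_ofNat]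
    field_simp
    rw [mul_comm]
    exact h1
  have h3 : IsIntegral ℤ (algebraMap ℚ ℂ (1 / 2)) := h2 ▸ y.2
  have h4 : IsIntegral ℤ ((1 / 2 : ℚ)) :=
    (isIntegral_algebraMap_iff (algebraMap ℚ ℂ).injective).mp h3
  obtain ⟨n, hn⟩ := IsIntegrallyClosed.isIntegral_iff.mp h4
  have h5 : ((2 * n : ℤ) : ℚ) = 1 := by
    push_cast
    have : (n : ℚ) = 1 / 2 := hn
    rw [this]
    norm_num
  have h6 : (2 * n : ℤ) = 1 := by exact_mod_cast h5
  omega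

/-- A residue field of characteristic two of the ring of algebraic integers, with a primitive cube
root of unity. -/
theorem exists_residue : ∃ (κ : Type) (_ : Field κ) (_ : CharP κ 2)
    (_ : integralClosure ℤ ℂ →+* κ) (ω : κ), ω ^ 2 + ω + 1 = 0 := by
  obtain ⟨𝔪, h𝔪, h2⟩ := exists_max_ideal_of_mem_nonunits (a := (2 : integralClosure ℤ ℂ))
    two_not_isUnit
  letI : Field (integralClosure ℤ ℂ ⧸ 𝔪) := Ideal.Quotient.field 𝔪
  have h20 : ((2 : ℕ) : integralClosure ℤ ℂ ⧸ 𝔪) = 0 := by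
    have : ((2 : ℕ) : integralClosure ℤ ℂ ⧸ 𝔪) = Ideal.Quotient.mk 𝔪 2 := by
      rw [map_ofNat, Nat.cast_ofNat]
    rw [this]
    exact Ideal.Quotient.eq_zero_iff_mem.mpr h2
  have hchar : CharP (integralClosure ℤ ℂ ⧸ 𝔪) 2 :=
    (CharP.charP_iff_prime_eq_zero Nat.prime_two).mpr h20
  have hζ := Complex.isPrimitiveRoot_exp 3 (by norm_num)
  set ζ : ℂ := Complex.exp (2 * Real.pi * Complex.I / (3 : ℕ)) with hζdef
  have h1 : ζ ^ 2 + ζ + 1 = 0 := by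
    have := hζ.geom_sum_eq_zero (by norm_num)
    simp only [Finset.sum_range_succ, Finset.sum_range_zero, pow_zero, pow_one] at this
    linear_combination this
  have hint : IsIntegral ℤ ζ := hζ.isIntegral (by norm_num)
  refine ⟨_, inferInstance, hchar, Ideal.Quotient.mk 𝔪, Ideal.Quotient.mk 𝔪 ⟨ζ, hint⟩, ?_⟩
  rw [← map_pow, ← map_add, ← map_one (Ideal.Quotient.mk 𝔪), ← map_add]
  have : (⟨ζ, hint⟩ : integralClosure ℤ ℂ) ^ 2 + ⟨ζ, hint⟩ + 1 = 0 := Subtype.ext h1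
  rw [this, map_zero]

/-! ### The family -/

variable {K : Type} [Field K] [NumberField K] {M : ℕ} [NeZero M]

open Classical in
/-- The value modulo two of the `ℓ`-th eigenvalue. -/
def val2 (ψ : ClassGroup (𝓞 K) →* Multiplicative (ZMod 3)) (ℓ : ℕ) : ZMod 2 :=
  if ∃ I : (Ideal (𝓞 K))⁰, Ideal.absNorm (I : Ideal (𝓞 K)) = ℓ ∧ ψ (ClassGroup.mk0 I) ≠ 1 then 1
  else 0

/-- The Hecke element: a homomorphism from the Hecke ring of the `±`-space to the group algebra. -/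
structure HeckeEl (κ : Type) [Field κ] [CharP κ 2] {ω : κ} (hω : ω ^ 2 + ω + 1 = 0)
    (ψ : ClassGroup (𝓞 K) →* Multiplicative (ZMod 3)) (M : ℕ) [NeZero M] (Q : Finset ℕ)
    (hQM : ∀ q ∈ Q, q ∣ M) where
  /-- the homomorphism -/
  f : TPm M (↑Q : Set ℕ) →+* MonoidAlgebra κ (GK K Q)
  split : ∀ (ℓ : ℕ) (hℓ : ℓ.Prime) (hℓM : ¬ ℓ ∣ M) (P : (Ideal (𝓞 K))⁰),
    Ideal.absNorm (P : Ideal (𝓞 K)) = ℓ →
      f (tT hℓ hℓM) = Xi hω ψ Q (ClassGroup.mk0 P) + Xi hω ψ Q (ClassGroup.mk0 P)⁻¹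
  inert : ∀ (ℓ : ℕ) (hℓ : ℓ.Prime) (hℓM : ¬ ℓ ∣ M),
    (∀ P : (Ideal (𝓞 K))⁰, Ideal.absNorm (P : Ideal (𝓞 K)) ≠ ℓ) → f (tT hℓ hℓM) = 0
  u : ∀ q : Q, f (tU (Finset.mem_coe.mpr q.2) (hQM q.1 q.2)) = MonoidAlgebra.single (ugen q) 1

variable {κ : Type} [Field κ] [CharP κ 2] {ω : κ} {hω : ω ^ 2 + ω + 1 = 0}
  {ψ : ClassGroup (𝓞 K) →* Multiplicative (ZMod 3)} {Q : Finset ℕ} {hQM : ∀ q ∈ Q, q ∣ M}

theorem HeckeEl.aug_T (H : HeckeEl κ hω ψ M Q hQM) {ℓ : ℕ} (hℓ : ℓ.Prime) (hℓM : ¬ ℓ ∣ M) :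
    aug κ (GK K Q) (H.f (tT hℓ hℓM)) = ZMod.castHom (dvd_refl 2) κ (val2 ψ ℓ) := by
  classical
  by_cases h : ∃ P : (Ideal (𝓞 K))⁰, Ideal.absNorm (P : Ideal (𝓞 K)) = ℓ
  · by_cases h1 : ∃ I : (Ideal (𝓞 K))⁰, Ideal.absNorm (I : Ideal (𝓞 K)) = ℓ ∧
        ψ (ClassGroup.mk0 I) ≠ 1
    · obtain ⟨P, hP, hPψ⟩ := h1
      rw [H.split ℓ hℓ hℓM P hP, aug_Xi_add, if_neg hPψ, val2, if_pos ⟨P, hP, hPψ⟩, map_one]
    · obtain ⟨P, hP⟩ := h
      have hPψ : ψ (ClassGroup.mk0 P) = 1 := by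
        by_contra h2
        exact h1 ⟨P, hP, h2⟩
      rw [H.split ℓ hℓ hℓM P hP, aug_Xi_add, if_pos hPψ, val2, if_neg h1, map_zero]
  · push Not at h
    have h1 : ¬ ∃ I : (Ideal (𝓞 K))⁰, Ideal.absNorm (I : Ideal (𝓞 K)) = ℓ ∧
        ψ (ClassGroup.mk0 I) ≠ 1 := fun ⟨I, hI, _⟩ => h I hI
    rw [H.inert ℓ hℓ hℓM h, map_zero, val2, if_neg h1, map_zero]

/-- **The theta family.** -/
theorem exists_family_of (hQ : ∀ q ∈ Q, q.Prime) (hψ : ψ ≠ 1)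
    (ψ₀ : integralClosure ℤ ℂ →+* κ) (H : HeckeEl κ hω ψ M Q hQM) :
    ∃ (ι : Type) (_ : Fintype ι) (f : ι → CuspForm (Gamma0 M) 2),
      Gal.h2 K * 2 ^ Q.card ≤ Fintype.card ι ∧ Function.Injective f ∧
      (∀ i, (f i).IsNormalizedEigenform) ∧
      (∀ i, ∀ q ∈ Q, qCoeff ⇑(f i) q ^ 2 = 1) ∧
      ∀ i (ℓ : ℕ), ℓ.Prime → ¬ ℓ ∣ M → ∀ b : integralClosure ℤ ℂ, (b : ℂ) = qCoeff ⇑(f i) ℓ →
        ψ₀ b = ZMod.castHom (dvd_refl 2) κ (val2 ψ ℓ) := by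
  classical
  have hQ' : ∀ q ∈ (↑Q : Set ℕ), q ∣ M → q.Prime := fun q hq _ => hQ q (Finset.mem_coe.mp hq)
  haveI := finite (M := M) hQ'
  haveI := free (M := M) hQ'
  obtain ⟨hfin, hcard⟩ := card_family hω Q ψ₀ hψ M.primeFactors H.f
    (fun P l hl hlM hP => ⟨tT hl (fun h => hlM (by
        rw [Nat.mem_primeFactors_of_ne_zero (NeZero.ne M)]
        exact ⟨hl, h⟩)), H.split l hl _ P hP⟩)
    (fun q => ⟨_, H.u q⟩)
  set ι : Type := {x : TPm M (↑Q : Set ℕ) →+* integralClosure ℤ ℂ //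
    ∀ t, ψ₀ (x t) = aug κ (GK K Q) (H.f t)} with hι
  letI : Fintype ι := Fintype.ofFinite ι
  have hform := fun i : ι => exists_form (M := M) hQ'
    ((integralClosure ℤ ℂ).val.toRingHom.comp i.1)
  choose f hf hfT hfU using hform
  refine ⟨ι, inferInstance, f, ?_, ?_, hf, ?_, ?_⟩
  · rw [← Nat.card_eq_fintype_card]
    exact hcard
  · intro i j hij
    apply Subtype.ext
    refine ringHom_ext (fun ℓ hℓ hℓM => ?_) (fun q hq hqM => ?_)
    · apply Subtype.ext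
      have h1 := hfT i ℓ hℓ hℓM
      rw [hij, hfT j ℓ hℓ hℓM] at h1
      exact h1.symm
    · apply Subtype.ext
      have h1 := hfU i q hq hqM
      rw [hij, hfU j q hq hqM] at h1
      exact h1.symm
  · intro i q hq
    rw [hfU i q (Finset.mem_coe.mpr hq) (hQM q hq)]
    exact sq_eq_one _ _ _
  · intro i ℓ hℓ hℓM b hb
    have h1 : b = i.1 (tT hℓ hℓM) := by
      apply Subtype.ext
      rw [hb, hfT i ℓ hℓ hℓM]
      rfl
    rw [h1, i.2, H.aug_T hℓ hℓM]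

end Fermat.Agent.LTF.ThetaFam

end
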