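import Fermat.Agent.LTF.Theta.Trans

/-!
# Quadratic exponential sums attached to a binary form (helper93)
-/

set_option autoImplicit false

namespace Fermat.Agent.LTF.Theta

open Complex Real Finset

section prime

variable (p : ℕ) [Fact p.Prime]

/-- one-variable quadratic sum -/
noncomputable def S1 (u : ZMod p) : ℂ := ∑ x : ZMod p, ZMod.stdAddChar (N := p) (u * x ^ 2)

/-- the complex valued quadratic character -/
noncomputable def chi : MulChar (ZMod p) ℂ :=
  (quadraticChar (ZMod p)).ringHomComp (Int.castRingHom ℂ)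

theorem chi_apply (x : ZMod p) : chi p x = ((quadraticChar (ZMod p) x : ℤ) : ℂ) := rfl

theorem chi_isQuadratic : (chi p).IsQuadratic :=
  (quadraticChar_isQuadratic (ZMod p)).comp _

theorem ringChar_ne (hp : p ≠ 2) : ringChar (ZMod p) ≠ 2 := by
  rw [ZMod.ringChar_zmod_n]; exact hp

theorem chi_ne_one (hp : p ≠ 2) : chi p ≠ 1 := by
  intro h
  apply quadraticChar_ne_one (ringChar_ne p hp)
  ext x
  have h1 : chi p (x : ZMod p) = 1 := by rw [h]; simp
  rw [chi_apply] at h1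
  have h2 : quadraticChar (ZMod p) (x : ZMod p) = 1 := by exact_mod_cast h1
  rw [h2]; simp

theorem chi_sq_eq_one {x : ZMod p} (hx : x ≠ 0) : chi p x ^ 2 = 1 := by
  rw [chi_apply]
  have := quadraticChar_sq_one hx
  exact_mod_cast this

theorem chi_sq {x : ZMod p} (hx : x ≠ 0) : chi p (x ^ 2) = 1 := by
  rw [map_pow, chi_sq_eq_one p hx]

theorem S1_eq (hp : p ≠ 2) {u : ZMod p} (hu : u ≠ 0) :
    S1 p u = chi p u * gaussSum (chi p) (ZMod.stdAddChar (N := p)) := by
  classical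
  have h1 : S1 p u = ∑ t : ZMod p, (1 + chi p t) * ZMod.stdAddChar (N := p) (u * t) := by
    unfold S1
    rw [← Finset.sum_fiberwise_of_maps_to (s := Finset.univ) (t := Finset.univ)
      (g := fun x : ZMod p => x ^ 2) (fun x _ => Finset.mem_univ _)]
    refine Finset.sum_congr rfl fun t _ => ?_
    have h2 : ∀ x ∈ Finset.univ.filter (fun x : ZMod p => x ^ 2 = t),
        ZMod.stdAddChar (N := p) (u * x ^ 2) = ZMod.stdAddChar (N := p) (u * t) := by
      intro x hx
      rw [(Finset.mem_filter.mp hx).2]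
    rw [Finset.sum_congr rfl h2, Finset.sum_const, nsmul_eq_mul]
    congr 1
    have h3 := quadraticChar_card_sqrts (ringChar_ne p hp) t
    have h4 : ({x : ZMod p | x ^ 2 = t}.toFinset) = Finset.univ.filter (fun x : ZMod p => x ^ 2 = t) := by
      ext x; simp
    rw [h4] at h3
    rw [chi_apply]
    have h5 : (((Finset.univ.filter (fun x : ZMod p => x ^ 2 = t)).card : ℤ) : ℂ) =
      ((quadraticChar (ZMod p) t + 1 : ℤ) : ℂ) := by rw [h3]
    push_cast at h5
    rw [h5]; ring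
  rw [h1]
  simp only [add_mul, one_mul, Finset.sum_add_distrib]
  have h6 : ∑ t : ZMod p, ZMod.stdAddChar (N := p) (u * t) = 0 := by
    have := AddChar.sum_mulShift u (ZMod.isPrimitive_stdAddChar p)
    rw [if_neg hu] at this
    rw [← Nat.cast_zero (R := ℂ), ← this]
    refine Finset.sum_congr rfl fun t _ => ?_
    rw [mul_comm]
  rw [h6, zero_add]
  have h7 := gaussSum_mulShift (chi p) (ZMod.stdAddChar (N := p)) (Units.mk0 u hu)
  rw [Units.val_mk0] at h7
  rw [← h7, ← mul_assoc, ← pow_two, chi_sq_eq_one p hu, one_mul]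
  rfl

theorem S1_mul (hp : p ≠ 2) {u v : ZMod p} (hu : u ≠ 0) (hv : v ≠ 0) :
    S1 p u * S1 p v = chi p (-(u * v)) * p := by
  have h := gaussSum_sq (chi_ne_one p hp) (chi_isQuadratic p) (ZMod.isPrimitive_stdAddChar p)
  rw [ZMod.card] at h
  rw [S1_eq p hp hu, S1_eq p hp hv, show -(u * v) = u * v * (-1) by ring, map_mul, map_mul]
  linear_combination chi p u * chi p v * h

theorem two_ne_zero' (hp : p ≠ 2) : (2 : ZMod p) ≠ 0 := by
  intro h
  have : ((2 : ℕ) : ZMod p) = 0 := by exact_mod_cast h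
  rw [ZMod.natCast_eq_zero_iff] at this
  exact hp ((Nat.prime_dvd_prime_iff_eq Fact.out Nat.prime_two).mp this)

/-- the two-variable sum, first case -/
theorem sum_form_a (hp : p ≠ 2) (a b c : ZMod p) (ha : a ≠ 0) (hD : b ^ 2 - 4 * a * c ≠ 0) :
    ∑ r : ZMod p × ZMod p, ZMod.stdAddChar (N := p) (a * r.1 ^ 2 + b * r.1 * r.2 + c * r.2 ^ 2) =
      chi p (b ^ 2 - 4 * a * c) * p := by
  have h2 := two_ne_zero' p hp
  have h4 : (4 : ZMod p) ≠ 0 := by
    rw [show (4 : ZMod p) = 2 ^ 2 by norm_num]; exact pow_ne_zero 2 h2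
  rw [Fintype.sum_prod_type_right]
  have h1 : ∀ y : ZMod p, ∑ x : ZMod p,
      ZMod.stdAddChar (N := p) (a * x ^ 2 + b * x * y + c * y ^ 2) =
      S1 p a * ZMod.stdAddChar (N := p) ((-(b ^ 2 - 4 * a * c) / (4 * a)) * y ^ 2) := by
    intro y
    unfold S1
    rw [Finset.sum_mul]
    refine Fintype.sum_equiv (Equiv.addRight (b / (2 * a) * y)) _ _ fun x => ?_
    rw [← AddChar.map_add_eq_mul]
    congr 1
    show _ = a * (x + b / (2 * a) * y) ^ 2 + _
    field_simp
    ring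
  rw [Finset.sum_congr rfl (fun y _ => h1 y), ← Finset.mul_sum]
  have h5 : -(b ^ 2 - 4 * a * c) / (4 * a) ≠ 0 :=
    div_ne_zero (neg_ne_zero.mpr hD) (mul_ne_zero h4 ha)
  have h6 := S1_mul p hp ha h5
  unfold S1 at h6
  unfold S1
  rw [h6]
  congr 1
  have h7 : (2 : ZMod p)⁻¹ ≠ 0 := inv_ne_zero h2
  have h8 : -(a * (-(b ^ 2 - 4 * a * c) / (4 * a))) = (b ^ 2 - 4 * a * c) * (2 : ZMod p)⁻¹ ^ 2 := by
    rw [show (4 : ZMod p) = 2 ^ 2 by norm_num]
    field_simp
  rw [h8, map_mul, chi_sq p h7, mul_one]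

theorem sum_form (hp : p ≠ 2) (a b c : ZMod p) (hD : b ^ 2 - 4 * a * c ≠ 0) :
    ∑ r : ZMod p × ZMod p, ZMod.stdAddChar (N := p) (a * r.1 ^ 2 + b * r.1 * r.2 + c * r.2 ^ 2) =
      chi p (b ^ 2 - 4 * a * c) * p := by
  by_cases ha : a = 0
  · by_cases hc : c = 0
    · subst ha; subst hc
      have hb : b ≠ 0 := by
        rintro rfl
        apply hD; ring
      have e1 : b ^ 2 - 4 * 0 * 0 = b ^ 2 := by ring
      rw [e1, chi_sq p hb, one_mul, Fintype.sum_prod_type]
      have h1 : ∀ x : ZMod p, ∑ y : ZMod p,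
          ZMod.stdAddChar (N := p) (0 * x ^ 2 + b * x * y + 0 * y ^ 2) =
          if x = 0 then (p : ℂ) else 0 := by
        intro x
        have := AddChar.sum_mulShift (b * x) (ZMod.isPrimitive_stdAddChar p)
        rw [ZMod.card] at this
        have e2 : ∑ y : ZMod p, ZMod.stdAddChar (N := p) (0 * x ^ 2 + b * x * y + 0 * y ^ 2) =
            ∑ y : ZMod p, ZMod.stdAddChar (N := p) (y * (b * x)) := by
          refine Finset.sum_congr rfl fun y _ => ?_
          congr 1; ring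
        rw [e2, this]
        by_cases hx : x = 0
        · simp [hx]
        · rw [if_neg hx, if_neg (mul_ne_zero hb hx)]
          simp
      rw [Finset.sum_congr rfl (fun x _ => h1 x)]
      simp
    · have hD' : b ^ 2 - 4 * c * a ≠ 0 := by
        rw [show b ^ 2 - 4 * c * a = b ^ 2 - 4 * a * c by ring]; exact hD
      have h := sum_form_a p hp c b a hc hD'
      rw [show b ^ 2 - 4 * c * a = b ^ 2 - 4 * a * c by ring] at h
      rw [← h]
      refine Fintype.sum_equiv (Equiv.prodComm _ _) _ _ fun r => ?_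
      congr 1
      show _ = c * r.2 ^ 2 + b * r.2 * r.1 + a * r.1 ^ 2
      ring
  · exact sum_form_a p hp a b c ha hD

/-- **The Gauss sum of a binary form at an odd prime** not dividing the discriminant. -/
theorem gs_prime (Q : BQ) (hp : p ≠ 2) (β : ℤ) (hβ : (β : ZMod p) ≠ 0)
    (hD : (Q.disc : ZMod p) ≠ 0) : gs Q p β (0, 0) = chi p Q.disc * p := by
  unfold gs
  have hD' : ((β : ZMod p) * Q.b) ^ 2 - 4 * ((β : ZMod p) * Q.a) * ((β : ZMod p) * Q.c) =
      (Q.disc : ZMod p) * (β : ZMod p) ^ 2 := by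
    unfold BQ.disc
    push_cast
    ring
  have h := sum_form p hp ((β : ZMod p) * Q.a) ((β : ZMod p) * Q.b) ((β : ZMod p) * Q.c)
    (by rw [hD']; exact mul_ne_zero hD (pow_ne_zero 2 hβ))
  rw [hD', map_mul, chi_sq p hβ, mul_one] at h
  rw [← h]
  refine Finset.sum_congr rfl fun r _ => ?_
  congr 1
  unfold BQ.ev
  push_cast
  ring

end prime

/-- Shifting: if `β * D * g ≡ 1`... i.e. `β * (-disc) * g ≡ -1 (mod m)`, the sum with linear
term is the sum without linear term up to a phase. -/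
theorem gs_shift (Q : BQ) (m : ℕ) [NeZero m] (β g : ℤ)
    (h : (β : ZMod m) * ((-Q.disc : ℤ) : ZMod m) * (g : ZMod m) = -1) (Y : ℤ × ℤ) :
    gs Q m β Y = gs Q m β (0, 0) * ZMod.stdAddChar (N := m) ((g : ZMod m) * (Q.dual.ev Y : ℤ)) := by
  unfold gs
  rw [Finset.sum_mul]
  symm
  refine Fintype.sum_equiv ((Equiv.addRight ((g : ZMod m) *
    (2 * Q.c * (Y.1 : ZMod m) - Q.b * (Y.2 : ZMod m)))).prodCongr (Equiv.addRight ((g : ZMod m) *
    (-Q.b * (Y.1 : ZMod m) + 2 * Q.a * (Y.2 : ZMod m))))) _ _ fun r => ?_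
  rw [← AddChar.map_add_eq_mul]
  congr 1
  show _ = (β : ZMod m) * Q.ev (r.1 + (g : ZMod m) *
    (2 * Q.c * (Y.1 : ZMod m) - Q.b * (Y.2 : ZMod m)), r.2 + (g : ZMod m) *
    (-Q.b * (Y.1 : ZMod m) + 2 * Q.a * (Y.2 : ZMod m))) + (r.1 + (g : ZMod m) *
    (2 * Q.c * (Y.1 : ZMod m) - Q.b * (Y.2 : ZMod m))) * (Y.1 : ZMod m) + (r.2 + (g : ZMod m) *
    (-Q.b * (Y.1 : ZMod m) + 2 * Q.a * (Y.2 : ZMod m))) * (Y.2 : ZMod m)
  unfold BQ.ev BQ.dual
  unfold BQ.disc at h
  push_cast at h ⊢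
  have key : (r.1 * (Y.1 : ZMod m) + r.2 * (Y.2 : ZMod m) +
    (g : ZMod m) * ((Q.c : ZMod m) * (Y.1 : ZMod m) ^ 2 - Q.b * (Y.1 : ZMod m) * (Y.2 : ZMod m)
      + Q.a * (Y.2 : ZMod m) ^ 2)) * (β * (-((Q.b : ZMod m) ^ 2 - 4 * Q.a * Q.c)) * g + 1) = 0 := by
    rw [h]; ring
  linear_combination -key

end Fermat.Agent.LTF.Theta
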