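import Fermat.Agent.LTF.Pet2
import Fermat.Agent.HeckeEigen.Forms

/-!
# Ring homomorphisms from the Hecke ring of the `±`-space to a ring of characteristic two,
from eigenforms modulo two with coefficients in that ring (helper93)
-/

set_option autoImplicit false

namespace Fermat.Agent.LTF.Theta.HeckeEl

open CongruenceSubgroup ModularFormClass Fermat.Agent.LTF.Pet2 Fermat.Agent.LTF.Pet2.PetForm
open FermatAgent.HeckeEigen

noncomputable section

variable {M : ℕ} [NeZero M] {Q : Set ℕ}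

/-- The Hecke ring generated by `T_ℓ`, `ℓ ∤ M`, and `U_q`, `q ∈ Q`, on the `±`-space. -/
abbrev TT (M : ℕ) [NeZero M] (Q : Set ℕ) : Subalgebra ℤ (Module.End ℂ (pm M Q)) :=
  Algebra.adjoin ℤ (pmGen M Q)

theorem qc_T {ℓ : ℕ} (hℓ : ℓ.Prime) (hℓM : ¬ ℓ ∣ M) (v : pm M Q) (n : ℕ) :
    qCoeff ⇑((Tpm hℓ hℓM v : pm M Q) : CuspForm (Gamma0 M) 2) n =
      qCoeff ⇑(v : CuspForm (Gamma0 M) 2) (ℓ * n) +
        ℓ * (if ℓ ∣ n then qCoeff ⇑(v : CuspForm (Gamma0 M) 2) (n / ℓ) else 0) := by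
  have h := qCoeff_heckeOp_two (N := M) ⟨ℓ, hℓ⟩ (v : CuspForm (Gamma0 M) 2) n
  rw [heckeOp_of_not_dvd (p := ⟨ℓ, hℓ⟩) hℓM, if_neg hℓM] at h
  exact h

theorem qc_U {q : ℕ} (hqM : q ∣ M) (v : pm M Q) (n : ℕ) :
    qCoeff ⇑((Upm hqM v : pm M Q) : CuspForm (Gamma0 M) 2) n =
      qCoeff ⇑(v : CuspForm (Gamma0 M) 2) (q * n) := by
  have hq0 : q ≠ 0 := by
    rintro rfl
    exact NeZero.ne M (Nat.eq_zero_of_zero_dvd hqM)
  show qCoeff ⇑(CuspForm.heckeULin 2 hqM (v : CuspForm (Gamma0 M) 2)) n = _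
  rw [CuspForm.coe_heckeULin_apply,
      ModularFormClass.qCoeff_heckeU _ (hperiod M) hq0, ModularForm.coeffHeckeU, mul_comm]

/-- forms with integral coefficients -/
def IntF (M : ℕ) [NeZero M] (Q : Set ℕ) : AddSubgroup (pm M Q) where
  carrier := {v | ∀ n, ∃ m : ℤ, qCoeff ⇑(v : CuspForm (Gamma0 M) 2) n = m}
  add_mem' := by
    intro v w hv hw n
    obtain ⟨a, ha⟩ := hv n
    obtain ⟨b, hb⟩ := hw n
    refine ⟨a + b, ?_⟩
    have : qCoeff ⇑((v + w : pm M Q) : CuspForm (Gamma0 M) 2) n = qCoeff ⇑(v : CuspForm (Gamma0 M) 2) n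
      + qCoeff ⇑(w : CuspForm (Gamma0 M) 2) n := qCoeff_add _ _ n
    rw [this, ha, hb]; push_cast; ring
  zero_mem' := by
    intro n
    refine ⟨0, ?_⟩
    have : qCoeff ⇑((0 : pm M Q) : CuspForm (Gamma0 M) 2) n = 0 := qCoeff_zero n
    rw [this]; simp
  neg_mem' := by
    intro v hv n
    obtain ⟨a, ha⟩ := hv n
    refine ⟨-a, ?_⟩
    have : qCoeff ⇑((-v : pm M Q) : CuspForm (Gamma0 M) 2) n =
      - qCoeff ⇑(v : CuspForm (Gamma0 M) 2) n := qCoeff_neg _ n
    rw [this, ha]; push_cast; ring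

/-- the integral coefficients -/
def ic (v : IntF M Q) (n : ℕ) : ℤ := (v.2 n).choose

theorem ic_spec (v : IntF M Q) (n : ℕ) :
    qCoeff ⇑((v : pm M Q) : CuspForm (Gamma0 M) 2) n = ic v n := (v.2 n).choose_spec

theorem ic_eq {v : IntF M Q} {n : ℕ} {m : ℤ}
    (h : qCoeff ⇑((v : pm M Q) : CuspForm (Gamma0 M) 2) n = m) : ic v n = m := by
  have := ic_spec v n
  rw [h] at this
  exact_mod_cast this.symm

theorem ic_add (v w : IntF M Q) (n : ℕ) : ic (v + w) n = ic v n + ic w n := by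
  apply ic_eq
  have : qCoeff ⇑(((v + w : IntF M Q) : pm M Q) : CuspForm (Gamma0 M) 2) n =
      qCoeff ⇑((v : pm M Q) : CuspForm (Gamma0 M) 2) n
      + qCoeff ⇑((w : pm M Q) : CuspForm (Gamma0 M) 2) n := qCoeff_add _ _ n
  rw [this, ic_spec, ic_spec]; push_cast; ring

/-- the coefficient as a homomorphism -/
def icHom (n : ℕ) : IntF M Q →+ ℤ := AddMonoidHom.mk' (fun v => ic v n) fun v w => ic_add v w n

@[simp] theorem icHom_apply (n : ℕ) (v : IntF M Q) : icHom n v = ic v n := rfl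

theorem gen_mem {t : Module.End ℂ (pm M Q)} (ht : t ∈ pmGen M Q) {v : pm M Q} (hv : v ∈ IntF M Q) :
    t v ∈ IntF M Q := by
  intro n
  rcases ht with ⟨ℓ, hℓ, hℓM, rfl⟩ | ⟨q, hq, hqM, rfl⟩
  · obtain ⟨a, ha⟩ := hv (ℓ * n)
    obtain ⟨b, hb⟩ := hv (n / ℓ)
    refine ⟨a + ℓ * (if ℓ ∣ n then b else 0), ?_⟩
    rw [qc_T, ha, hb]
    push_cast
    rfl
  · obtain ⟨a, ha⟩ := hv (q * n)
    exact ⟨a, by rw [qc_U, ha]⟩

theorem TT_mem (t : TT M Q) {v : pm M Q} (hv : v ∈ IntF M Q) :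
    (t : Module.End ℂ (pm M Q)) v ∈ IntF M Q := by
  obtain ⟨t, ht⟩ := t
  show t v ∈ IntF M Q
  induction ht using Algebra.adjoin_induction generalizing v with
  | mem x hx => exact gen_mem hx hv
  | algebraMap r =>
    have : (algebraMap ℤ (Module.End ℂ (pm M Q)) r) v = r • v := by
      rw [Algebra.algebraMap_eq_smul_one]; rfl
    rw [this]
    exact (IntF M Q).zsmul_mem hv r
  | add x y _ _ hx hy => exact (IntF M Q).add_mem (hx hv) (hy hv)
  | mul x y _ _ hx hy => exact hx (hy hv)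

/-- the action of the Hecke ring on integral forms -/
def act (t : TT M Q) : IntF M Q →+ IntF M Q where
  toFun v := ⟨(t : Module.End ℂ (pm M Q)) v, TT_mem t v.2⟩
  map_zero' := by ext1; exact map_zero _
  map_add' v w := by ext1; exact map_add _ _ _

@[simp] theorem coe_act (t : TT M Q) (v : IntF M Q) :
    ((act t v : IntF M Q) : pm M Q) = (t : Module.End ℂ (pm M Q)) v := rfl

theorem act_one (v : IntF M Q) : act (1 : TT M Q) v = v := by ext1; rfl

theorem act_mul (s t : TT M Q) (v : IntF M Q) : act (s * t) v = act s (act t v) := by ext1; rfl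

theorem act_add (s t : TT M Q) (v : IntF M Q) : act (s + t) v = act s v + act t v := by ext1; rfl

theorem act_zero (v : IntF M Q) : act (0 : TT M Q) v = 0 := by ext1; rfl

/-- **`q`-expansion principle at `2`** -/
theorem exists_half (v : IntF M Q) (h : ∀ n, (2 : ℤ) ∣ ic v n) : ∃ w : IntF M Q, v = w + w := by
  refine ⟨⟨(1 / 2 : ℂ) • (v : pm M Q), fun n => ?_⟩, ?_⟩
  · obtain ⟨m, hm⟩ := h n
    refine ⟨m, ?_⟩
    have : qCoeff ⇑(((1 / 2 : ℂ) • (v : pm M Q) : pm M Q) : CuspForm (Gamma0 M) 2) n =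
      (1 / 2 : ℂ) * qCoeff ⇑((v : pm M Q) : CuspForm (Gamma0 M) 2) n := qCoeff_smul _ _ n
    rw [this, ic_spec, hm]
    push_cast
    ring
  · ext1
    show (v : pm M Q) = (1 / 2 : ℂ) • (v : pm M Q) + (1 / 2 : ℂ) • (v : pm M Q)
    rw [← add_smul]
    norm_num

variable {B : Type*} [CommRing B]

/-- linearity of the Hecke action on `B`-valued reductions -/
theorem lin (h2 : (2 : B) = 0) {J : Type*} [Fintype J] (v : J → IntF M Q) (c : J → B)
    (h : ∀ n, ∑ j, ((ic (v j) n : ℤ) : B) * c j = 0) (t : TT M Q) (n : ℕ) :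
    ∑ j, ((ic (act t (v j)) n : ℤ) : B) * c j = 0 := by
  let _ : Module (ZMod 2) B := AddCommGroup.zmodModule (n := 2) fun x => by
    rw [nsmul_eq_mul, Nat.cast_ofNat, h2, zero_mul]
  rw [← Module.forall_dual_apply_eq_zero_iff (ZMod 2)]
  intro lam
  let ε : J → ℤ := fun j => ((lam (c j)).val : ℤ)
  have key : ∀ m : J → ℤ, lam (∑ j, ((m j : ℤ) : B) * c j) = ((∑ j, m j * ε j : ℤ) : ZMod 2) := by
    intro m
    rw [map_sum]
    push_cast
    refine Finset.sum_congr rfl fun j _ => ?_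
    rw [← zsmul_eq_mul, map_zsmul, zsmul_eq_mul]
    simp [ε]
  let w : IntF M Q := ∑ j, ε j • v j
  have hw : ∀ (s : TT M Q) (k : ℕ), ic (act s w) k = ∑ j, ic (act s (v j)) k * ε j := by
    intro s k
    have : ic (act s w) k = icHom k (act s w) := rfl
    rw [this]
    simp only [w, map_sum, map_zsmul, icHom_apply, smul_eq_mul]
    refine Finset.sum_congr rfl fun j _ => ?_
    ring
  have h1 : ∀ k, (2 : ℤ) ∣ ic w k := by
    intro k
    have h3 := key fun j => ic (v j) k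
    rw [h k, map_zero] at h3
    have h4 := (ZMod.intCast_zmod_eq_zero_iff_dvd _ _).mp h3.symm
    have h5 := hw 1 k
    simp only [act_one] at h5
    rw [h5]
    exact_mod_cast h4
  obtain ⟨w', hw'⟩ := exists_half w h1
  rw [key, ← hw t n, hw', map_add, ic_add]
  push_cast
  rw [← two_mul]
  have : (2 : ZMod 2) = 0 := rfl
  rw [this, zero_mul]

/-- the coefficient at `n` of the reduction of `t` applied to `∑ c_j v_j` -/
def sm {J : Type*} [Fintype J] (v : J → IntF M Q) (c : J → B) (t : TT M Q) (n : ℕ) : B :=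
  ∑ j, ((ic (act t (v j)) n : ℤ) : B) * c j

section

variable {J : Type*} [Fintype J] {v : J → IntF M Q} {c : J → B}

theorem sm_mul (h2 : (2 : B) = 0) {s t : TT M Q} {β : B}
    (ht : ∀ n, sm v c t n = β * sm v c 1 n) (n : ℕ) : sm v c (s * t) n = β * sm v c s n := by
  have h := lin h2 (J := J ⊕ J) (Sum.elim (fun j => act t (v j)) v)
    (Sum.elim c (fun j => -(β * c j))) (fun n => by
      rw [Fintype.sum_sum_type]
      simp only [Sum.elim_inl, Sum.elim_inr]
      have h1 := ht n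
      unfold sm at h1
      simp only [act_one] at h1
      rw [h1, Finset.mul_sum, ← Finset.sum_add_distrib]
      refine Finset.sum_eq_zero fun j _ => ?_
      ring) s n
  rw [Fintype.sum_sum_type] at h
  simp only [Sum.elim_inl, Sum.elim_inr, ← act_mul] at h
  unfold sm
  rw [Finset.mul_sum]
  rw [← sub_eq_zero, ← h, sub_eq_add_neg, ← Finset.sum_neg_distrib]
  congr 1
  refine Finset.sum_congr rfl fun j _ => ?_
  ring

theorem sm_add (s t : TT M Q) (n : ℕ) : sm v c (s + t) n = sm v c s n + sm v c t n := by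
  unfold sm
  rw [← Finset.sum_add_distrib]
  refine Finset.sum_congr rfl fun j _ => ?_
  rw [act_add, ic_add]
  push_cast
  ring

theorem sm_zero (n : ℕ) : sm v c (0 : TT M Q) n = 0 := by
  have := sm_add (v := v) (c := c) 0 0 n
  rw [add_zero] at this
  simpa using this

theorem sm_intCast (n : ℕ) (r : ℤ) :
    sm v c (Int.castRingHom (TT M Q) r) n = r * sm v c 1 n := by
  let g₁ : ℤ →+ B := AddMonoidHom.mk' (fun r => sm v c (Int.castRingHom (TT M Q) r) n)
    fun a b => by rw [RingHom.map_add, sm_add]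
  let g₂ : ℤ →+ B := AddMonoidHom.mk' (fun r => (r : B) * sm v c 1 n)
    fun a b => by push_cast; ring
  have h : g₁ = g₂ := by
    apply AddMonoidHom.ext_int
    show sm v c (Int.castRingHom (TT M Q) 1) n = ((1 : ℤ) : B) * sm v c 1 n
    rw [RingHom.map_one]; simp
  exact DFunLike.congr_fun h r

theorem exists_eig (h2 : (2 : B) = 0)
    (hgen : ∀ t : TT M Q, (t : Module.End ℂ (pm M Q)) ∈ pmGen M Q → ∃ β, ∀ n,
      sm v c t n = β * sm v c 1 n) (t : TT M Q) : ∃ β, ∀ n, sm v c t n = β * sm v c 1 n := by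
  obtain ⟨t, ht⟩ := t
  induction ht using Algebra.adjoin_induction with
  | mem x hx => exact hgen ⟨x, _⟩ hx
  | algebraMap r =>
    refine ⟨r, fun n => ?_⟩
    have : (⟨algebraMap ℤ (Module.End ℂ (pm M Q)) r, (TT M Q).algebraMap_mem r⟩ : TT M Q) =
      Int.castRingHom (TT M Q) r := by
      ext1
      simp
    rw [this]
    exact sm_intCast n r
  | add x y hx hy ihx ihy =>
    obtain ⟨a, ha⟩ := ihx
    obtain ⟨b, hb⟩ := ihy
    refine ⟨a + b, fun n => ?_⟩
    have : (⟨x + y, (TT M Q).add_mem hx hy⟩ : TT M Q) = ⟨x, hx⟩ + ⟨y, hy⟩ := rfl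
    rw [this, sm_add, ha, hb, add_mul]
  | mul x y hx hy ihx ihy =>
    obtain ⟨a, ha⟩ := ihx
    obtain ⟨b, hb⟩ := ihy
    refine ⟨b * a, fun n => ?_⟩
    have : (⟨x * y, (TT M Q).mul_mem hx hy⟩ : TT M Q) = ⟨x, hx⟩ * ⟨y, hy⟩ := rfl
    rw [this, sm_mul h2 hb, ha, mul_assoc]

/-- **The ring homomorphism attached to an eigenform modulo `2` with coefficients in `B`.** -/
theorem exists_ringHom (h2 : (2 : B) = 0) (n₀ : ℕ) (hu : IsUnit (sm v c 1 n₀))
    (hgen : ∀ t : TT M Q, (t : Module.End ℂ (pm M Q)) ∈ pmGen M Q → ∃ β, ∀ n,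
      sm v c t n = β * sm v c 1 n) :
    ∃ f : TT M Q →+* B, ∀ t n, sm v c t n = f t * sm v c 1 n := by
  choose β hβ using exists_eig h2 hgen
  have huniq : ∀ (t : TT M Q) (b : B), (∀ n, sm v c t n = b * sm v c 1 n) → β t = b := by
    intro t b hb
    have h1 := hβ t n₀
    rw [hb n₀] at h1
    exact (hu.mul_right_cancel h1).symm
  refine ⟨{ toFun := β
            map_one' := huniq 1 1 fun n => by rw [one_mul]
            map_mul' := fun s t => huniq _ _ fun n => by
              rw [sm_mul h2 (hβ t), hβ s]; ring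
            map_zero' := huniq 0 0 fun n => by rw [sm_zero, zero_mul]
            map_add' := fun s t => huniq _ _ fun n => by
              rw [sm_add, hβ s, hβ t]; ring }, fun t n => hβ t n⟩

end

end

end Fermat.Agent.LTF.Theta.HeckeEl
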