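import Fermat.Agent.LTF.Theta.HeckeEl
import Fermat.Agent.LTF.Theta.Co

/-!
# The homomorphism `T_ℓ ↦ Ξ(λ) + Ξ(λ)⁻¹`, `U_q ↦ u_q` (helper93)
-/

set_option autoImplicit false
set_option linter.unusedSectionVars false

namespace Fermat.Agent.LTF.Theta.HeckeEl

open CongruenceSubgroup ModularFormClass Fermat.Agent.LTF.Pet2 Fermat.Agent.LTF.Pet2.PetForm
open NumberField Module nonZeroDivisors

noncomputable section

variable {K : Type*} [Field K] [NumberField K] {N : ℕ} {s : K}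
variable {B : Type*} [CommRing B] [CharP B 2]

/-- `∑_{t ⊆ Q} u_t Θ_Ξ(q_t z)` -/
def sg (Ξ : ClassGroup (𝓞 K) →* B) (u : ℕ → B) (Q : Finset ℕ) (n : ℕ) : B :=
  ∑ t ∈ Q.powerset, (∏ q ∈ t, u q) * co Ξ ((∏ q ∈ t, q) * n)

theorem sg_one (h : IQ K N s) (Ξ : ClassGroup (𝓞 K) →* B) (u : ℕ → B) {Q : Finset ℕ}
    (hQ : ∀ q ∈ Q, q.Prime ∧ ¬ IsSquare (-(N : ZMod q))) : sg Ξ u Q 1 = 1 := by
  unfold sg
  rw [Finset.sum_eq_single ∅]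
  · simp [co_one]
  · intro t ht hne
    obtain ⟨q, hq⟩ := Finset.nonempty_iff_ne_empty.mpr hne
    have hqQ : q ∈ Q := Finset.mem_powerset.mp ht hq
    obtain ⟨hqp, hin⟩ := hQ q hqQ
    have h1 : (∏ r ∈ t, r) * 1 = q * ∏ r ∈ t.erase q, r := by
      rw [mul_one, Finset.mul_prod_erase t (fun r => r) hq]
    rw [h1, co_inert h Ξ hqp hin, if_neg, mul_zero]
    intro hd
    obtain ⟨r, hr, hr'⟩ := (Prime.dvd_finsetProd_iff hqp.prime _).mp hd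
    have hrQ : r ∈ Q := Finset.mem_powerset.mp ht (Finset.mem_of_mem_erase hr)
    have := (Nat.prime_dvd_prime_iff_eq hqp (hQ r hrQ).1).mp hr'
    exact (Finset.ne_of_mem_erase hr) this.symm
  · intro hne
    exact absurd (Finset.empty_mem_powerset Q) hne

theorem sg_U (h : IQ K N s) (Ξ : ClassGroup (𝓞 K) →* B) (u : ℕ → B) {Q : Finset ℕ}
    (hQ : ∀ q ∈ Q, q.Prime ∧ ¬ IsSquare (-(N : ZMod q))) {q : ℕ} (hq : q ∈ Q)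
    (hu : u q * u q = 1) (n : ℕ) : sg Ξ u Q (q * n) = u q * sg Ξ u Q n := by
  unfold sg
  rw [← Finset.insert_erase hq, Finset.sum_powerset_insert (Finset.notMem_erase q Q),
    Finset.sum_powerset_insert (Finset.notMem_erase q Q), mul_add, Finset.mul_sum, Finset.mul_sum,
    add_comm, ← Finset.sum_add_distrib, ← Finset.sum_add_distrib]
  refine Finset.sum_congr rfl fun t ht => ?_
  have hqt : q ∉ t := fun hqt => Finset.notMem_erase q Q (Finset.mem_powerset.mp ht hqt)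
  rw [Finset.prod_insert hqt, Finset.prod_insert hqt]
  have e1 : q * (∏ x ∈ t, x) * (q * n) = q ^ 2 * ((∏ x ∈ t, x) * n) := by ring
  have e2 : (∏ x ∈ t, x) * (q * n) = q * (∏ x ∈ t, x) * n := by ring
  rw [e1, e2, co_inert_sq h Ξ (hQ q hq).1 (hQ q hq).2]
  linear_combination (-(∏ x ∈ t, u x) * co Ξ (q * (∏ x ∈ t, x) * n)) * hu

theorem sg_T (Ξ : ClassGroup (𝓞 K) →* B) (u : ℕ → B) {Q : Finset ℕ}
    (hQ : ∀ q ∈ Q, q.Prime) {ℓ : ℕ} (hℓ : ℓ.Prime) (hℓQ : ℓ ∉ Q) (τ : B)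
    (hτ : ∀ n, co Ξ (ℓ * n) + (if ℓ ∣ n then (ℓ : B) * co Ξ (n / ℓ) else 0) = τ * co Ξ n) (n : ℕ) :
    sg Ξ u Q (ℓ * n) + ℓ * (if ℓ ∣ n then sg Ξ u Q (n / ℓ) else 0) = τ * sg Ξ u Q n := by
  unfold sg
  have h1 : (ℓ : B) * (if ℓ ∣ n then ∑ t ∈ Q.powerset, (∏ q ∈ t, u q) *
      co Ξ ((∏ q ∈ t, q) * (n / ℓ)) else 0) = ∑ t ∈ Q.powerset, (∏ q ∈ t, u q) *
      (if ℓ ∣ n then (ℓ : B) * co Ξ ((∏ q ∈ t, q) * (n / ℓ)) else 0) := by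
    split_ifs with hd
    · rw [Finset.mul_sum]
      exact Finset.sum_congr rfl fun t _ => by ring
    · simp
  rw [h1, ← Finset.sum_add_distrib, Finset.mul_sum]
  refine Finset.sum_congr rfl fun t ht => ?_
  have hco : Nat.Coprime ℓ (∏ q ∈ t, q) := by
    refine Nat.Coprime.prod_right fun q hq => ?_
    have hqQ : q ∈ Q := Finset.mem_powerset.mp ht hq
    exact (Nat.coprime_primes hℓ (hQ q hqQ)).mpr (fun he => hℓQ (he ▸ hqQ))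
  have h2 := hτ ((∏ q ∈ t, q) * n)
  have h3 : (if ℓ ∣ n then (ℓ : B) * co Ξ ((∏ q ∈ t, q) * (n / ℓ)) else 0) =
      (if ℓ ∣ (∏ q ∈ t, q) * n then (ℓ : B) * co Ξ ((∏ q ∈ t, q) * n / ℓ) else 0) := by
    by_cases hd : ℓ ∣ n
    · rw [if_pos hd, if_pos (hd.mul_left _), Nat.mul_div_assoc _ hd]
    · rw [if_neg hd, if_neg (fun hd' => hd (hco.dvd_of_dvd_mul_left hd'))]
  have h4 : (∏ q ∈ t, q) * (ℓ * n) = ℓ * ((∏ q ∈ t, q) * n) := by ring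
  rw [h3, h4, ← mul_add, h2]
  ring

/-- the forms `U_t F` -/
theorem exists_Ut {M : ℕ} [NeZero M] {Q : Finset ℕ} (hQM : ∀ q ∈ Q, q ∣ M)
    (F : IntF M (↑Q : Set ℕ)) (t : Finset ℕ) (ht : t ⊆ Q) :
    ∃ G : IntF M (↑Q : Set ℕ), ∀ n, ic G n = ic F ((∏ q ∈ t, q) * n) := by
  induction t using Finset.induction_on with
  | empty => exact ⟨F, fun n => by simp⟩
  | insert q t hq ih =>
    obtain ⟨G, hG⟩ := ih ((Finset.subset_insert q t).trans ht)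
    have hqQ : q ∈ Q := ht (Finset.mem_insert_self q t)
    have hmem : (Upm (M := M) (Q := (↑Q : Set ℕ)) (hQM q hqQ)) ∈ pmGen M (↑Q : Set ℕ) :=
      Or.inr ⟨q, hqQ, hQM q hqQ, rfl⟩
    refine ⟨⟨Upm (hQM q hqQ) (G : pm M (↑Q : Set ℕ)), gen_mem hmem G.2⟩, fun n => ?_⟩
    apply ic_eq
    rw [qc_U, ic_spec, hG, Finset.prod_insert hq]
    congr 2
    ring

/-- the element `T_ℓ` of the Hecke ring -/
def elT {M : ℕ} [NeZero M] (Q : Set ℕ) {ℓ : ℕ} (hℓ : ℓ.Prime) (hℓM : ¬ ℓ ∣ M) : TT M Q :=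
  ⟨Tpm hℓ hℓM, Algebra.subset_adjoin (Or.inl ⟨ℓ, hℓ, hℓM, rfl⟩)⟩

/-- the element `U_q` of the Hecke ring -/
def elU {M : ℕ} [NeZero M] {Q : Set ℕ} {q : ℕ} (hq : q ∈ Q) (hqM : q ∣ M) : TT M Q :=
  ⟨Upm hqM, Algebra.subset_adjoin (Or.inr ⟨q, hq, hqM, rfl⟩)⟩

/-- **The Hecke homomorphism of the theta family**: `T_ℓ ↦ Ξ(λ) + Ξ(λ)⁻¹` (`ℓ = λ λ'`),
`T_ℓ ↦ 0` (`ℓ` inert), `U_q ↦ u_q`. -/
theorem exists_heckeHom (h : IQ K N s) {Q : Finset ℕ}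
    (hQ : ∀ q ∈ Q, q.Prime ∧ ¬ IsSquare (-(N : ZMod q))) {M : ℕ} [NeZero M]
    (hM : M = N * ∏ q ∈ Q, q) (Ξ : ClassGroup (𝓞 K) →* B) (u : ℕ → B)
    (hu : ∀ q ∈ Q, u q * u q = 1) (C : ClassGroup (𝓞 K)) (hC : IsUnit (Ξ (C ^ 2)⁻¹ - 1))
    (hF : ∀ A : ClassGroup (𝓞 K), ∃ F : CuspForm (Gamma0 M) 2, F ∈ pm M (↑Q : Set ℕ) ∧
      ∃ z : ℕ → ℤ, (∀ n, qCoeff ⇑F n = z n) ∧
        ∀ n, (2 : ℤ) ∣ z n - ((Theta.ic n (A * C ^ 2) : ℤ) - Theta.ic n A)) :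
    ∃ f : TT M (↑Q : Set ℕ) →+* B,
      (∀ (ℓ : ℕ) (hℓ : ℓ.Prime) (hℓM : ¬ ℓ ∣ M),
        (∀ P : (Ideal (𝓞 K))⁰, Ideal.absNorm (P : Ideal (𝓞 K)) = ℓ →
          f (elT _ hℓ hℓM) = Ξ (ClassGroup.mk0 P) + Ξ (ClassGroup.mk0 P)⁻¹) ∧
        (¬ IsSquare (-(N : ZMod ℓ)) → f (elT _ hℓ hℓM) = 0)) ∧
      ∀ (q : ℕ) (hq : q ∈ (↑Q : Set ℕ)) (hqM : q ∣ M), f (elU hq hqM) = u q := by
  have h2 : (2 : B) = 0 := CharP.cast_eq_zero B 2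
  have hQM : ∀ q ∈ Q, q ∣ M := fun q hq => by
    rw [hM]; exact (Finset.dvd_prod_of_mem _ hq).mul_left _
  have h2N : 2 ∣ N := h.even.two_dvd
  choose F hFpm z hz hz2 using hF
  let G₀ : ClassGroup (𝓞 K) → IntF M (↑Q : Set ℕ) := fun A =>
    ⟨⟨F A, hFpm A⟩, fun n => ⟨z A n, hz A n⟩⟩
  have hG₀ : ∀ A n, Theta.HeckeEl.ic (G₀ A) n = z A n := fun A n => ic_eq (hz A n)
  have hex : ∀ (A : ClassGroup (𝓞 K)) (t : {t : Finset ℕ // t ∈ Q.powerset}),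
      ∃ G : IntF M (↑Q : Set ℕ), ∀ n, Theta.HeckeEl.ic G n = z A ((∏ q ∈ t.1, q) * n) := by
    intro A t
    obtain ⟨G, hG⟩ := exists_Ut hQM (G₀ A) t.1 (Finset.mem_powerset.mp t.2)
    exact ⟨G, fun n => by rw [hG, hG₀]⟩
  choose G hG using hex
  set δ : B := Ξ (C ^ 2)⁻¹ - 1 with hδ
  -- the combination for each `n`
  have hz' : ∀ n, ∑ A, ((z A n : ℤ) : B) * Ξ A = δ * co Ξ n := by
    intro n
    have h3 : ∀ A, ((z A n : ℤ) : B) = (Theta.ic n (A * C ^ 2) : B) - Theta.ic n A := by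
      intro A
      obtain ⟨k, hk⟩ := hz2 A n
      have h4 : z A n = ((Theta.ic n (A * C ^ 2) : ℤ) - Theta.ic n A) + 2 * k := by linarith
      rw [h4]
      push_cast
      rw [h2, zero_mul, add_zero]
    rw [hδ, sub_mul, one_mul, ← sum_shift]
    unfold co
    rw [← Finset.sum_sub_distrib]
    exact Finset.sum_congr rfl fun A _ => by rw [h3]; ring
  let v : ClassGroup (𝓞 K) × {t : Finset ℕ // t ∈ Q.powerset} → IntF M (↑Q : Set ℕ) :=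
    fun j => G j.1 j.2
  let c : ClassGroup (𝓞 K) × {t : Finset ℕ // t ∈ Q.powerset} → B :=
    fun j => Ξ j.1 * ∏ q ∈ j.2.1, u q
  have hsum : ∀ y : ℕ → ClassGroup (𝓞 K) → ℤ, ∀ g : Finset ℕ → ℕ,
      (∀ m, ∑ A, ((y m A : ℤ) : B) * Ξ A = δ * co Ξ m) →
      ∑ j : ClassGroup (𝓞 K) × {t : Finset ℕ // t ∈ Q.powerset},
        ((y (g j.2.1) j.1 : ℤ) : B) * c j =
      δ * ∑ t ∈ Q.powerset, (∏ q ∈ t, u q) * co Ξ (g t) := by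
    intro y g hy
    rw [Fintype.sum_prod_type_right, Finset.mul_sum, ← Finset.sum_coe_sort Q.powerset]
    refine Finset.sum_congr rfl fun t _ => ?_
    have h5 := hy (g t.1)
    have h6 : ∑ A : ClassGroup (𝓞 K), ((y (g t.1) A : ℤ) : B) * c (A, t) =
        (∏ q ∈ t.1, u q) * ∑ A : ClassGroup (𝓞 K), ((y (g t.1) A : ℤ) : B) * Ξ A := by
      rw [Finset.mul_sum]
      refine Finset.sum_congr rfl fun A _ => ?_
      show _ * (Ξ A * ∏ q ∈ t.1, u q) = _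
      ring
    rw [h6, h5]
    ring
  have hsm1 : ∀ n, sm v c 1 n = δ * sg Ξ u Q n := by
    intro n
    unfold sm sg
    simp only [act_one]
    rw [← hsum (fun m A => z A m) (fun t => (∏ q ∈ t, q) * n) hz']
    exact Finset.sum_congr rfl fun j _ => by rw [hG]
  have hsmT : ∀ (ℓ : ℕ) (hℓ : ℓ.Prime) (hℓM : ¬ ℓ ∣ M) (n : ℕ), sm v c (elT _ hℓ hℓM) n =
      δ * (sg Ξ u Q (ℓ * n) + ℓ * (if ℓ ∣ n then sg Ξ u Q (n / ℓ) else 0)) := by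
    intro ℓ hℓ hℓM n
    have hic : ∀ w : IntF M (↑Q : Set ℕ), Theta.HeckeEl.ic (act (elT _ hℓ hℓM) w) n =
        Theta.HeckeEl.ic w (ℓ * n) + ℓ * (if ℓ ∣ n then Theta.HeckeEl.ic w (n / ℓ) else 0) := by
      intro w
      apply ic_eq
      rw [coe_act]
      show qCoeff ⇑((Tpm hℓ hℓM (w : pm M (↑Q : Set ℕ)) : pm M (↑Q : Set ℕ)) :
        CuspForm (Gamma0 M) 2) n = _
      rw [qc_T, ic_spec, ic_spec]
      push_cast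
      rfl
    have h7 : sm v c (elT _ hℓ hℓM) n = sm v c 1 (ℓ * n) +
        ℓ * (if ℓ ∣ n then sm v c 1 (n / ℓ) else 0) := by
      unfold sm
      simp only [act_one, hic]
      split_ifs with hd
      · rw [Finset.mul_sum, ← Finset.sum_add_distrib]
        refine Finset.sum_congr rfl fun j _ => ?_
        push_cast
        ring
      · simp
    rw [h7, hsm1, hsm1]
    split_ifs <;> ring
  have hsmU : ∀ (q : ℕ) (hq : q ∈ (↑Q : Set ℕ)) (hqM : q ∣ M) (n : ℕ),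
      sm v c (elU hq hqM) n = δ * sg Ξ u Q (q * n) := by
    intro q hq hqM n
    rw [← hsm1]
    unfold sm
    refine Finset.sum_congr rfl fun j _ => ?_
    congr 2
    apply ic_eq
    rw [coe_act, act_one]
    show qCoeff ⇑((Upm hqM ((v j : IntF M (↑Q : Set ℕ)) : pm M (↑Q : Set ℕ)) :
      pm M (↑Q : Set ℕ)) : CuspForm (Gamma0 M) 2) n = _
    rw [qc_U, ic_spec]
  have hℓQ : ∀ ℓ : ℕ, ℓ.Prime → ¬ ℓ ∣ M → ℓ ∉ Q := fun ℓ _ hℓM hℓQ => hℓM (hQM ℓ hℓQ)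
  have hℓ2 : ∀ ℓ : ℕ, ¬ ℓ ∣ M → ℓ ≠ 2 := by
    rintro ℓ hℓM rfl
    exact hℓM (hM ▸ h2N.mul_right _)
  have hℓN : ∀ ℓ : ℕ, ¬ ℓ ∣ M → ¬ ℓ ∣ N := fun ℓ hℓM hd => hℓM (hM ▸ hd.mul_right _)
  have hTeig : ∀ (ℓ : ℕ) (hℓ : ℓ.Prime) (hℓM : ¬ ℓ ∣ M) (τ : B),
      (∀ n, co Ξ (ℓ * n) + (if ℓ ∣ n then (ℓ : B) * co Ξ (n / ℓ) else 0) = τ * co Ξ n) →
      ∀ n, sm v c (elT _ hℓ hℓM) n = τ * sm v c 1 n := by
    intro ℓ hℓ hℓM τ hτ n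
    rw [hsmT, sg_T Ξ u (fun q hq => (hQ q hq).1) hℓ (hℓQ ℓ hℓ hℓM) τ hτ n, hsm1]
    ring
  have hUeig : ∀ (q : ℕ) (hq : q ∈ (↑Q : Set ℕ)) (hqM : q ∣ M) (n : ℕ),
      sm v c (elU hq hqM) n = u q * sm v c 1 n := by
    intro q hq hqM n
    rw [hsmU, sg_U h Ξ u hQ hq (hu q hq), hsm1]
    ring
  have hunit : IsUnit (sm v c 1 1) := by
    rw [hsm1, sg_one h Ξ u hQ, mul_one]
    exact hC
  have hsplit : ∀ ℓ : ℕ, ℓ.Prime → ¬ ℓ ∣ M → ∀ P : (Ideal (𝓞 K))⁰,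
      Ideal.absNorm (P : Ideal (𝓞 K)) = ℓ →
      ∀ n, co Ξ (ℓ * n) + (if ℓ ∣ n then (ℓ : B) * co Ξ (n / ℓ) else 0) =
        (Ξ (ClassGroup.mk0 P) + Ξ (ClassGroup.mk0 P)⁻¹) * co Ξ n := fun ℓ hℓ hℓM P hP n =>
    co_hecke_split h Ξ hℓ (hℓ2 ℓ hℓM) (hℓN ℓ hℓM) P hP n
  have hinert : ∀ ℓ : ℕ, ℓ.Prime → ¬ ℓ ∣ M → ¬ IsSquare (-(N : ZMod ℓ)) →
      ∀ n, co Ξ (ℓ * n) + (if ℓ ∣ n then (ℓ : B) * co Ξ (n / ℓ) else 0) = 0 * co Ξ n := by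
    intro ℓ hℓ hℓM hin n
    rw [zero_mul]
    exact co_hecke_inert h Ξ hℓ (hℓ2 ℓ hℓM) hin n
  obtain ⟨f, hf⟩ := exists_ringHom (v := v) (c := c) h2 1 hunit (by
    rintro ⟨t, ht⟩ htg
    rcases htg with ⟨ℓ, hℓ, hℓM, rfl⟩ | ⟨q, hq, hqM, rfl⟩
    · by_cases hsq : IsSquare (-(N : ZMod ℓ))
      · obtain ⟨P, hP⟩ := exists_prime_of_isSquare h hℓ (hℓ2 ℓ hℓM) (hℓN ℓ hℓM) hsq
        exact ⟨_, hTeig ℓ hℓ hℓM _ (hsplit ℓ hℓ hℓM P hP)⟩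
      · exact ⟨_, hTeig ℓ hℓ hℓM _ (hinert ℓ hℓ hℓM hsq)⟩
    · exact ⟨_, hUeig q hq hqM⟩)
  have huniq : ∀ (t : TT M (↑Q : Set ℕ)) (b : B), (∀ n, sm v c t n = b * sm v c 1 n) →
      f t = b := by
    intro t b hb
    have h1 := hf t 1
    rw [hb 1] at h1
    exact (hunit.mul_right_cancel h1).symm
  refine ⟨f, fun ℓ hℓ hℓM => ⟨fun P hP => ?_, fun hin => ?_⟩, fun q hq hqM => ?_⟩
  · exact huniq _ _ (hTeig ℓ hℓ hℓM _ (hsplit ℓ hℓ hℓM P hP))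
  · exact huniq _ _ (hTeig ℓ hℓ hℓM _ (hinert ℓ hℓ hℓM hin))
  · exact huniq _ _ (hUeig q hq hqM)

end

end Fermat.Agent.LTF.Theta.HeckeEl
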