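import Fermat.Agent.LTF.Theta.Trans
import Fermat.Prelude.Def_FLTPrelim_Modularity
import Fermat.Prelude.Thm_CongruenceSubgroup_one_mem_strictPeriods_Gamma0

/-!
# Packaging products of binary theta series as modular forms of weight two (helper64)
-/

set_option autoImplicit false

noncomputable section

namespace Fermat.Agent.LTF.Theta

open UpperHalfPlane ModularForm MatrixGroups Complex Filter CongruenceSubgroup
open Matrix.SpecialLinearGroup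
open scoped Manifold Topology

/-! ### bundling -/

theorem slash_eq_of_inv {f : ℍ → ℂ} {g : SL(2, ℤ)}
    (h : ∀ z : ℍ, f (g • z) = (((g 1 0 : ℤ) : ℂ) * z + ((g 1 1 : ℤ) : ℂ)) ^ 2 * f z) :
    f ∣[(2 : ℤ)] g = f := by
  funext z
  have hd : denom g z ≠ 0 := denom_ne_zero g z
  rw [SL_slash_apply, h z]
  have hd' : denom g z = (((g 1 0 : ℤ) : ℂ) * z + ((g 1 1 : ℤ) : ℂ)) := by
    rw [ModularGroup.denom_apply]
  rw [← hd', zpow_neg]
  field_simp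

theorem exists_modularForm {M : ℕ} [NeZero M] (f : ℍ → ℂ) (hol : MDiff f)
    (inv : ∀ g : SL(2, ℤ), (M : ℤ) ∣ g 1 0 → f ∣[(2 : ℤ)] g = f)
    (bdd : ∀ g : SL(2, ℤ), IsBoundedAtImInfty (f ∣[(2 : ℤ)] g)) :
    ∃ F : ModularForm (Gamma0 M) 2, ⇑F = f :=
  ⟨{ toFun := f
     slash_action_eq' := by
      rintro _ ⟨γ, hγ, rfl⟩
      have hdvd : (M : ℤ) ∣ γ 1 0 := (ZMod.intCast_zmod_eq_zero_iff_dvd _ _).1 (Gamma0_mem.1 hγ)
      exact inv γ hdvd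
     holo' := hol
     bdd_at_cusps' := by
      intro c hc
      rw [Subgroup.IsArithmetic.isCusp_iff_isCusp_SL2Z] at hc
      rw [OnePoint.isBoundedAt_iff_forall_SL2Z hc]
      intro γ _
      exact bdd γ }, rfl⟩

theorem exists_cuspForm {M : ℕ} [NeZero M] (f : ℍ → ℂ) (hol : MDiff f)
    (inv : ∀ g : SL(2, ℤ), (M : ℤ) ∣ g 1 0 → f ∣[(2 : ℤ)] g = f)
    (zero : ∀ g : SL(2, ℤ), IsZeroAtImInfty (f ∣[(2 : ℤ)] g)) :
    ∃ F : CuspForm (Gamma0 M) 2, ⇑F = f :=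
  ⟨{ toFun := f
     slash_action_eq' := by
      rintro _ ⟨γ, hγ, rfl⟩
      have hdvd : (M : ℤ) ∣ γ 1 0 := (ZMod.intCast_zmod_eq_zero_iff_dvd _ _).1 (Gamma0_mem.1 hγ)
      exact inv γ hdvd
     holo' := hol
     zero_at_cusps' := by
      intro c hc
      rw [Subgroup.IsArithmetic.isCusp_iff_isCusp_SL2Z] at hc
      rw [OnePoint.isZeroAt_iff_forall_SL2Z hc]
      intro γ _
      exact zero γ }, rfl⟩

/-! ### representation numbers and q-expansions -/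

namespace BQ

/-- the number of representations of `n` by `Q` -/
def rep (Q : BQ) (n : ℕ) : ℕ := Nat.card {x : ℤ × ℤ // Q.ev x = n}

end BQ

theorem e_mul_nat (z : ℂ) (n : ℕ) : e (z * (n : ℂ)) = e z ^ n := by
  unfold e
  rw [← Complex.exp_nat_mul]
  congr 1
  ring

theorem e_eq_qParam (z : ℂ) : e z = Function.Periodic.qParam 1 z := by
  unfold e Function.Periodic.qParam
  congr 1
  push_cast
  ring

/-- the `q`-expansion of the theta series -/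
theorem hasSum_th (Q : BQ) (hQ : Q.Pos) (z : ℂ) (hz : 0 < z.im) :
    HasSum (fun n : ℕ => (Q.rep n : ℂ) * e z ^ n) (th Q z) := by
  have h := (summable_th Q hQ z hz).hasSum
  have h2 := h.tsum_fiberwise (fun x : ℤ × ℤ => (Q.ev x).toNat)
  suffices hfun : (fun n : ℕ => (Q.rep n : ℂ) * e z ^ n) =
      (fun n : ℕ => ∑' b : ((fun x : ℤ × ℤ => (Q.ev x).toNat) ⁻¹' {n}),
        e (z * ((Q.ev (b : ℤ × ℤ) : ℤ) : ℂ))) by
    rw [hfun]; exact h2
  funext n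
  have h3 : ∀ b : ((fun x : ℤ × ℤ => (Q.ev x).toNat) ⁻¹' {n}), e (z * ((Q.ev (b : ℤ × ℤ) : ℤ) : ℂ)) =
      e z ^ n := by
    rintro ⟨x, hx⟩
    have hx' : (Q.ev x).toNat = n := hx
    have h4 : (Q.ev x : ℤ) = (n : ℤ) := by
      rw [← hx', Int.toNat_of_nonneg (ev_nonneg hQ x)]
    rw [show ((Q.ev ((⟨x, hx⟩ : ((fun x : ℤ × ℤ => (Q.ev x).toNat) ⁻¹' {n})) : ℤ × ℤ) : ℤ) : ℂ) =
      (n : ℂ) by rw [show (Q.ev x : ℤ) = (n : ℤ) from h4]; simp, e_mul_nat]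
  rw [tsum_congr h3, tsum_const, nsmul_eq_mul]
  congr 2
  unfold BQ.rep
  refine Nat.card_congr (Equiv.subtypeEquivRight fun x => ?_)
  constructor
  · intro hx
    change (Q.ev x).toNat = n
    rw [hx]; simp
  · intro hx
    have hx' : (Q.ev x).toNat = n := hx
    rw [← hx', Int.toNat_of_nonneg (ev_nonneg hQ x)]

theorem summable_norm_th (Q : BQ) (hQ : Q.Pos) (z : ℂ) (hz : 0 < z.im) :
    Summable (fun n : ℕ => ‖(Q.rep n : ℂ) * e z ^ n‖) := by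
  have h := (hasSum_th Q hQ (Complex.I * z.im) (by simpa using hz)).summable
  have h5 : ∀ n : ℕ, ((Q.rep n : ℂ) * e (Complex.I * z.im) ^ n) = ((‖(Q.rep n : ℂ) * e z ^ n‖ : ℝ) : ℂ) := by
    intro n
    rw [norm_mul, norm_pow, norm_e]
    unfold e
    rw [show (2 * (Real.pi : ℂ) * Complex.I * (Complex.I * z.im)) = ((-(2 * Real.pi * z.im) : ℝ) : ℂ) by
      push_cast; ring_nf; rw [I_sq]; ring]
    rw [← ofReal_exp]
    push_cast
    simp
  rw [funext h5] at h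
  exact Complex.summable_ofReal.mp h

/-- Cauchy products with a dilation. -/
theorem hasSum_conv (a b : ℕ → ℂ) (q A B : ℂ) (c : ℕ) (hc : 0 < c)
    (ha : HasSum (fun n => a n * q ^ n) A) (hb : HasSum (fun n => b n * (q ^ c) ^ n) B)
    (ha' : Summable (fun n => ‖a n * q ^ n‖)) (hb' : Summable (fun n => ‖b n * (q ^ c) ^ n‖)) :
    HasSum (fun n : ℕ => (∑ k ∈ (Finset.range (n + 1)).filter (fun k => c * k ≤ n),
      a (n - c * k) * b k) * q ^ n) (A * B) := by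
  have hs : Summable (fun p : ℕ × ℕ => (a p.1 * q ^ p.1) * (b p.2 * (q ^ c) ^ p.2)) :=
    summable_mul_of_summable_norm (f := fun n => a n * q ^ n) (g := fun n => b n * (q ^ c) ^ n)
      ha' hb'
  have h3 : HasSum (fun p : ℕ × ℕ => (a p.1 * q ^ p.1) * (b p.2 * (q ^ c) ^ p.2)) (A * B) :=
    HasSum.mul (f := fun n => a n * q ^ n) (g := fun n => b n * (q ^ c) ^ n) ha hb hs
  have h4 := h3.tsum_fiberwise (fun p : ℕ × ℕ => p.1 + c * p.2)
  suffices hfun : (fun n : ℕ => (∑ k ∈ (Finset.range (n + 1)).filter (fun k => c * k ≤ n),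
      a (n - c * k) * b k) * q ^ n) =
      (fun n : ℕ => ∑' p : ((fun p : ℕ × ℕ => p.1 + c * p.2) ⁻¹' {n}),
        (a (p : ℕ × ℕ).1 * q ^ (p : ℕ × ℕ).1) * (b (p : ℕ × ℕ).2 * (q ^ c) ^ (p : ℕ × ℕ).2)) by
    rw [hfun]; exact h4
  funext n
  set S : Finset (ℕ × ℕ) := ((Finset.range (n + 1)).filter (fun k => c * k ≤ n)).image
    (fun k => (n - c * k, k)) with hS
  have hmem : ∀ p : ℕ × ℕ, p ∈ S ↔ p.1 + c * p.2 = n := by
    intro p
    rw [hS, Finset.mem_image]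
    constructor
    · rintro ⟨k, hk, rfl⟩
      rw [Finset.mem_filter] at hk
      simp only
      omega
    · intro hp
      refine ⟨p.2, ?_, ?_⟩
      · rw [Finset.mem_filter, Finset.mem_range]
        have : p.2 ≤ c * p.2 := Nat.le_mul_of_pos_left _ hc
        omega
      · ext
        · simp only; omega
        · rfl
  have hset : ((fun p : ℕ × ℕ => p.1 + c * p.2) ⁻¹' {n}) = (S : Set (ℕ × ℕ)) := by
    ext p
    rw [Finset.mem_coe, hmem]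
    rfl
  have hsum : (∑' p : ((fun p : ℕ × ℕ => p.1 + c * p.2) ⁻¹' {n}),
        (a (p : ℕ × ℕ).1 * q ^ (p : ℕ × ℕ).1) * (b (p : ℕ × ℕ).2 * (q ^ c) ^ (p : ℕ × ℕ).2)) =
      ∑ p ∈ S, (a p.1 * q ^ p.1) * (b p.2 * (q ^ c) ^ p.2) := by
    rw [hset]
    exact Finset.tsum_subtype' S (fun p : ℕ × ℕ =>
      (a p.1 * q ^ p.1) * (b p.2 * (q ^ c) ^ p.2))
  rw [hsum, hS, Finset.sum_image, Finset.sum_mul]
  · refine Finset.sum_congr rfl fun k hk => ?_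
    rw [Finset.mem_filter] at hk
    have h6 : q ^ n = q ^ (n - c * k) * q ^ (c * k) := by
      rw [← pow_add]; congr 1; omega
    rw [h6, ← pow_mul]
    ring
  · intro x _ y _ hxy
    simpa using congrArg Prod.snd hxy

/-- the coefficients of `th Q z * th R (c z)` -/
def cf (Q R : BQ) (c n : ℕ) : ℕ :=
  ∑ k ∈ (Finset.range (n + 1)).filter (fun k => c * k ≤ n), Q.rep (n - c * k) * R.rep k

theorem im_natCast_mul_pos {c : ℕ} (hc : 0 < c) {z : ℂ} (hz : 0 < z.im) :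
    0 < ((c : ℂ) * z).im := by
  rw [← ofReal_natCast, im_ofReal_mul]
  have : (0 : ℝ) < c := by exact_mod_cast hc
  positivity

theorem hasSum_mul (Q R : BQ) (hQ : Q.Pos) (hR : R.Pos) (c : ℕ) (hc : 0 < c) (z : ℂ)
    (hz : 0 < z.im) :
    HasSum (fun n : ℕ => (cf Q R c n : ℂ) * e z ^ n) (th Q z * th R (c * z)) := by
  have hcz := im_natCast_mul_pos hc hz
  have h5 : e ((c : ℂ) * z) = e z ^ c := by
    rw [mul_comm, e_mul_nat]
  have h := hasSum_conv (fun n => (Q.rep n : ℂ)) (fun n => (R.rep n : ℂ)) (e z) _ _ c hc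
    (hasSum_th Q hQ z hz) (h5 ▸ hasSum_th R hR (c * z) hcz) (summable_norm_th Q hQ z hz)
    (h5 ▸ summable_norm_th R hR (c * z) hcz)
  unfold cf
  push_cast
  exact h

/-! ### the modular forms -/

/-- the function `th Q z * th R (c z)` on `ℍ` -/
def pf (Q R : BQ) (c : ℕ) (z : ℍ) : ℂ := th Q z * th R (c * z)

theorem mdiff_pf {Q R : BQ} (hQ : DifferentiableOn ℂ (th Q) {z | 0 < z.im})
    (hR : DifferentiableOn ℂ (th R) {z | 0 < z.im}) {c : ℕ} (hc : 0 < c) : MDiff (pf Q R c) := by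
  rw [UpperHalfPlane.mdifferentiable_iff]
  have h1 : DifferentiableOn ℂ (fun z => th Q z * th R (c * z)) {z | 0 < z.im} := by
    refine hQ.mul (hR.comp (DifferentiableOn.const_mul differentiableOn_id _) ?_)
    intro z hz
    exact im_natCast_mul_pos hc hz
  refine h1.congr fun z hz => ?_
  simp only [Function.comp, pf]
  rw [ofComplex_apply_of_im_pos hz]

theorem slash_norm (f : ℍ → ℂ) (g : SL(2, ℤ)) (z : ℍ) :
    ‖(f ∣[(2 : ℤ)] g) z‖ = ‖f (g • z)‖ / ‖(((g 1 0 : ℤ) : ℂ) * z + ((g 1 1 : ℤ) : ℂ))‖ ^ 2 := by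
  rw [SL_slash_apply, norm_mul, norm_zpow, ModularGroup.denom_apply, zpow_neg]
  rfl

theorem coe_smul_eq (g : SL(2, ℤ)) (z : ℍ) : ((g • z : ℍ) : ℂ) =
    (((g 0 0 : ℤ) : ℂ) * z + ((g 0 1 : ℤ) : ℂ)) / (((g 1 0 : ℤ) : ℂ) * z + ((g 1 1 : ℤ) : ℂ)) := by
  rw [UpperHalfPlane.coe_specialLinearGroup_apply]
  simp

theorem denom_pos (g : SL(2, ℤ)) (z : ℍ) :
    0 < ‖(((g 1 0 : ℤ) : ℂ) * z + ((g 1 1 : ℤ) : ℂ))‖ := by
  rw [← ModularGroup.denom_apply, norm_pos_iff]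
  exact denom_ne_zero g z

/-- the growth hypothesis on theta series -/
def Growth (Q : BQ) : Prop := ∀ a b c d : ℤ, 0 < a * d - b * c → ∃ C : ℝ, ∀ z : ℂ, 1 ≤ z.im →
  ‖th Q ((a * z + b) / (c * z + d))‖ ≤ C * ‖(c * z + d : ℂ)‖

theorem Growth.smul {Q : BQ} (hQ : Growth Q) (g : SL(2, ℤ)) : ∃ C : ℝ, ∀ z : ℍ, 1 ≤ z.im →
    ‖th Q (g • z : ℍ)‖ ≤ C * ‖(((g 1 0 : ℤ) : ℂ) * z + ((g 1 1 : ℤ) : ℂ))‖ := by
  have hdet : 0 < (g 0 0 : ℤ) * g 1 1 - g 0 1 * g 1 0 := by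
    have := g.det_coe
    rw [Matrix.det_fin_two] at this
    rw [this]; norm_num
  obtain ⟨C, hC⟩ := hQ _ _ _ _ hdet
  refine ⟨C, fun z hz => ?_⟩
  rw [coe_smul_eq]
  exact hC z hz

theorem Growth.smul_mul {Q : BQ} (hQ : Growth Q) {c : ℕ} (hc : 0 < c) (g : SL(2, ℤ)) :
    ∃ C : ℝ, ∀ z : ℍ, 1 ≤ z.im →
    ‖th Q (c * (g • z : ℍ))‖ ≤ C * ‖(((g 1 0 : ℤ) : ℂ) * z + ((g 1 1 : ℤ) : ℂ))‖ := by
  have hdet : 0 < ((c : ℤ) * g 0 0 : ℤ) * g 1 1 - (c * g 0 1) * g 1 0 := by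
    have := g.det_coe
    rw [Matrix.det_fin_two] at this
    have h2 : ((c : ℤ) * g 0 0 : ℤ) * g 1 1 - (c * g 0 1) * g 1 0 =
      c * ((g 0 0 : ℤ) * g 1 1 - g 0 1 * g 1 0) := by ring
    rw [h2, this]
    simpa using hc
  obtain ⟨C, hC⟩ := hQ _ _ _ _ hdet
  refine ⟨C, fun z hz => ?_⟩
  have h := hC z hz
  rw [coe_smul_eq]
  convert h using 3
  push_cast
  ring

theorem bdd_pf {Q R : BQ} (hQ : Growth Q) (hR : Growth R) {c : ℕ} (hc : 0 < c) (g : SL(2, ℤ)) :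
    IsBoundedAtImInfty (pf Q R c ∣[(2 : ℤ)] g) := by
  obtain ⟨C, hC⟩ := hQ.smul g
  obtain ⟨C', hC'⟩ := hR.smul_mul hc g
  rw [UpperHalfPlane.isBoundedAtImInfty_iff]
  refine ⟨C * C', 1, fun z hz => ?_⟩
  have hd := denom_pos g z
  rw [slash_norm, div_le_iff₀ (by positivity)]
  unfold pf
  rw [norm_mul]
  calc _ ≤ (C * ‖(((g 1 0 : ℤ) : ℂ) * z + ((g 1 1 : ℤ) : ℂ))‖) *
      (C' * ‖(((g 1 0 : ℤ) : ℂ) * z + ((g 1 1 : ℤ) : ℂ))‖) :=
        mul_le_mul (hC z hz) (hC' z hz) (norm_nonneg _) ((norm_nonneg _).trans (hC z hz))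
    _ = _ := by ring

theorem zero_pf {Q Q' R : BQ} (hR : Growth R) {c : ℕ} (hc : 0 < c) (g : SL(2, ℤ))
    (h : Tendsto (fun z : ℍ => ‖th Q (g • z : ℍ) - th Q' (g • z : ℍ)‖ /
      ‖(((g 1 0 : ℤ) : ℂ) * z + ((g 1 1 : ℤ) : ℂ))‖) atImInfty (𝓝 0)) :
    IsZeroAtImInfty ((pf Q R c - pf Q' R c) ∣[(2 : ℤ)] g) := by
  obtain ⟨C', hC'⟩ := hR.smul_mul hc g
  have h2 : Tendsto (fun z : ℍ => C' * (‖th Q (g • z : ℍ) - th Q' (g • z : ℍ)‖ /
      ‖(((g 1 0 : ℤ) : ℂ) * z + ((g 1 1 : ℤ) : ℂ))‖)) atImInfty (𝓝 0) := by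
    simpa using h.const_mul C'
  have h3 : ∀ᶠ z : ℍ in atImInfty, ‖((pf Q R c - pf Q' R c) ∣[(2 : ℤ)] g) z‖ ≤
      C' * (‖th Q (g • z : ℍ) - th Q' (g • z : ℍ)‖ /
      ‖(((g 1 0 : ℤ) : ℂ) * z + ((g 1 1 : ℤ) : ℂ))‖) := by
    rw [atImInfty, Filter.eventually_comap]
    filter_upwards [Filter.eventually_ge_atTop (1 : ℝ)] with t ht z hz
    have hz1 : 1 ≤ z.im := by rw [hz]; exact ht
    have hd := denom_pos g z
    rw [slash_norm, div_le_iff₀ (by positivity)]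
    have h4 : (pf Q R c - pf Q' R c) (g • z) =
        (th Q (g • z : ℍ) - th Q' (g • z : ℍ)) * th R (c * (g • z : ℍ)) := by
      simp only [Pi.sub_apply, pf]
      ring
    rw [h4, norm_mul]
    calc _ ≤ ‖th Q (g • z : ℍ) - th Q' (g • z : ℍ)‖ *
        (C' * ‖(((g 1 0 : ℤ) : ℂ) * z + ((g 1 1 : ℤ) : ℂ))‖) :=
          mul_le_mul_of_nonneg_left (hC' z hz1) (norm_nonneg _)
      _ = _ := by field_simp
  exact squeeze_zero_norm' h3 h2

open ModularFormClass in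
theorem qCoeff_eq_of_hasSum {M : ℕ} {F : Type*} [FunLike F ℍ ℂ]
    [ModularFormClass F (Gamma0 M) 2] (f : F) (a : ℕ → ℂ)
    (h : ∀ z : ℍ, HasSum (fun n : ℕ => a n * e z ^ n) (f z)) (n : ℕ) : qCoeff f n = a n := by
  have hsum : ∀ τ : ℍ, HasSum (fun n : ℕ ↦ a n • Function.Periodic.qParam 1 τ ^ n) (f τ) := by
    intro τ
    have h1 := h τ
    rw [e_eq_qParam] at h1
    simpa only [smul_eq_mul] using h1
  exact (ModularFormClass.qExpansion_coeff_unique one_pos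
    (CongruenceSubgroup.one_mem_strictPeriods_Gamma0 M) (f := f) hsum n).symm

/-- the invariance hypothesis -/
def InvLaw (Q R : BQ) (c : ℕ) : Prop := ∀ g : SL(2, ℤ), (Q.disc * c : ℤ) ∣ g 1 0 → ∀ z : ℍ,
  th Q ↑(g • z) * th R (c * ↑(g • z)) = (g 1 0 * z + g 1 1) ^ 2 * (th Q z * th R (c * z))

theorem slash_pf {Q R : BQ} {c : ℕ} (h : InvLaw Q R c) {g : SL(2, ℤ)}
    (hg : (Q.disc * c : ℤ) ∣ g 1 0) : pf Q R c ∣[(2 : ℤ)] g = pf Q R c :=
  slash_eq_of_inv fun z => h g hg z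

open ModularFormClass in
/-- **the product of two theta series as a modular form** -/
theorem exists_prodMF {Q R : BQ} (hQ : Q.Pos) (hR : R.Pos) {c : ℕ} (hc : 0 < c)
    (hinv : InvLaw Q R c) (hdQ : DifferentiableOn ℂ (th Q) {z | 0 < z.im})
    (hdR : DifferentiableOn ℂ (th R) {z | 0 < z.im}) (hgQ : Growth Q) (hgR : Growth R)
    {M : ℕ} [NeZero M] (hM : (M : ℤ) = -Q.disc * c) :
    ∃ F : ModularForm (Gamma0 M) 2, ⇑F = pf Q R c ∧ ∀ n, qCoeff F n = (cf Q R c n : ℂ) := by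
  obtain ⟨F, hF⟩ := exists_modularForm (M := M) (pf Q R c) (mdiff_pf hdQ hdR hc)
    (fun g hg => slash_pf hinv (by
      rw [hM] at hg
      have : (Q.disc * c : ℤ) = -(-Q.disc * c) := by ring
      rw [this, neg_dvd]; exact hg)) (bdd_pf hgQ hgR hc)
  refine ⟨F, hF, qCoeff_eq_of_hasSum F _ fun z => ?_⟩
  rw [hF]
  exact hasSum_mul Q R hQ hR c hc z z.im_pos

open ModularFormClass in
/-- **differences inside a genus give cusp forms** -/
theorem exists_prodCF {Q Q' R : BQ} (hQ : Q.Pos) (hQ' : Q'.Pos) (hR : R.Pos)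
    (hdisc : Q'.disc = Q.disc) {c : ℕ} (hc : 0 < c)
    (hinv : InvLaw Q R c) (hinv' : InvLaw Q' R c)
    (hdQ : DifferentiableOn ℂ (th Q) {z | 0 < z.im})
    (hdQ' : DifferentiableOn ℂ (th Q') {z | 0 < z.im})
    (hdR : DifferentiableOn ℂ (th R) {z | 0 < z.im}) (hgR : Growth R)
    (hcusp : ∀ g : SL(2, ℤ), Tendsto (fun z : ℍ => ‖th Q (g • z : ℍ) - th Q' (g • z : ℍ)‖ /
      ‖(((g 1 0 : ℤ) : ℂ) * z + ((g 1 1 : ℤ) : ℂ))‖) atImInfty (𝓝 0))
    {M : ℕ} [NeZero M] (hM : (M : ℤ) = -Q.disc * c) (w : ℂ) :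
    ∃ F : CuspForm (Gamma0 M) 2, ∀ n, qCoeff F n = w * ((cf Q R c n : ℂ) - cf Q' R c n) := by
  have hs : ∀ g : SL(2, ℤ), (M : ℤ) ∣ g 1 0 → (pf Q R c - pf Q' R c) ∣[(2 : ℤ)] g =
      pf Q R c - pf Q' R c := by
    intro g hg
    rw [hM] at hg
    have h1 : (Q.disc * c : ℤ) ∣ g 1 0 := by
      have : (Q.disc * c : ℤ) = -(-Q.disc * c) := by ring
      rw [this, neg_dvd]; exact hg
    rw [sub_eq_add_neg, SlashAction.add_slash, SlashAction.neg_slash, slash_pf hinv h1,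
      slash_pf hinv' (by rw [hdisc]; exact h1)]
  obtain ⟨F, hF⟩ := exists_cuspForm (M := M) (pf Q R c - pf Q' R c)
    ((mdiff_pf hdQ hdR hc).sub (mdiff_pf hdQ' hdR hc)) hs (fun g => zero_pf hgR hc g (hcusp g))
  refine ⟨w • F, fun n => ?_⟩
  refine qCoeff_eq_of_hasSum (w • F) (fun n => w * ((cf Q R c n : ℂ) - cf Q' R c n))
    (fun z => ?_) n
  have h1 := (hasSum_mul Q R hQ hR c hc z z.im_pos).sub (hasSum_mul Q' R hQ' hR c hc z z.im_pos)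
  have h2 := h1.mul_left w
  have h3 : (w • F) z = w * (th Q z * th R (c * z) - th Q' z * th R (c * z)) := by
    change w * F z = _
    rw [hF]
    rfl
  rw [h3]
  have h4 : (fun n : ℕ => w * ((cf Q R c n : ℂ) - cf Q' R c n) * e z ^ n) =
      fun n : ℕ => w * ((cf Q R c n : ℂ) * e z ^ n - (cf Q' R c n : ℂ) * e z ^ n) := by
    funext n
    ring
  rw [h4]
  exact h2

end Fermat.Agent.LTF.Theta

end
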