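import Fermat.Agent.LTF.Pet3
import Fermat.Agent.S35_Separate
import Fermat.Agent.Oldforms.Basic

/-!
# The Hecke ring of the `±`-space and its characters

`T = ℤ[T_ℓ (ℓ ∤ M), U_q (q ∈ Q)]` acting on `pm M Q = {f ∈ S₂(Γ₀(M)) | U_q² f = f, q ∈ Q}` is a
commutative reduced ring, finite free over `ℤ`; its characters come from normalised eigenforms.
-/

set_option autoImplicit false
set_option linter.style.haveILetI false
set_option linter.unusedSectionVars false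

noncomputable section

open CongruenceSubgroup CuspForm ModularFormClass
open Fermat.Agent.GalRep FermatAgent.HeckeEigen

namespace Fermat.Agent.LTF.PmForms

open Fermat.Agent.LTF.Pet2 Fermat.Agent.LTF.Pet2.PetForm

variable {M : ℕ} [NeZero M] {Q : Set ℕ}

/-! ### The Hecke ring of the `±`-space -/

/-- The Hecke ring of the `±`-space. -/
abbrev TPm (M : ℕ) [NeZero M] (Q : Set ℕ) : Type := ↥(Algebra.adjoin ℤ (pmGen M Q))

instance instIsMulCommutative : IsMulCommutative (TPm M Q) :=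
  Algebra.isMulCommutative_adjoin ℤ fun _ hx _ hy => commute_pmGen hx hy

open scoped IsMulCommutative in
instance instCommRing : CommRing (TPm M Q) := inferInstance

/-- `T_ℓ` as an element of the Hecke ring. -/
def tT {ℓ : ℕ} (hℓ : ℓ.Prime) (hℓM : ¬ ℓ ∣ M) : TPm M Q :=
  ⟨Tpm hℓ hℓM, Algebra.subset_adjoin (Or.inl ⟨ℓ, hℓ, hℓM, rfl⟩)⟩

/-- `U_q` as an element of the Hecke ring. -/
def tU {q : ℕ} (hq : q ∈ Q) (hqM : q ∣ M) : TPm M Q :=
  ⟨Upm hqM, Algebra.subset_adjoin (Or.inr ⟨q, hq, hqM, rfl⟩)⟩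

theorem tU_mul_self {q : ℕ} (hq : q ∈ Q) (hqM : q ∣ M) : tU hq hqM * tU hq hqM = 1 := by
  apply Subtype.ext
  refine LinearMap.ext fun f => ?_
  exact Subtype.ext (mem_pm.1 f.2 q hq hqM)

/-- The index set of the generators. -/
abbrev Idx (M : ℕ) (Q : Set ℕ) : Type := {ℓ : ℕ // ℓ.Prime ∧ ¬ ℓ ∣ M} ⊕ {q : ℕ // q ∈ Q ∧ q ∣ M}

/-- The generators. -/
def tGen (M : ℕ) [NeZero M] (Q : Set ℕ) : Idx M Q → TPm M Q
  | Sum.inl ℓ => tT ℓ.2.1 ℓ.2.2
  | Sum.inr q => tU q.2.1 q.2.2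

/-- The Hecke ring is a quotient of the polynomial ring. -/
theorem aeval_tGen_surjective :
    Function.Surjective (MvPolynomial.aeval (R := ℤ) (tGen M Q)) := by
  rintro ⟨t, ht⟩
  refine Algebra.adjoin_induction
    (p := fun t ht => ∃ x, MvPolynomial.aeval (R := ℤ) (tGen M Q) x = ⟨t, ht⟩) ?_ ?_ ?_ ?_ ht
  · rintro T (⟨ℓ, hℓ, hℓM, rfl⟩ | ⟨q, hq, hqM, rfl⟩)
    · exact ⟨MvPolynomial.X (Sum.inl ⟨ℓ, hℓ, hℓM⟩), by rw [MvPolynomial.aeval_X]; rfl⟩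
    · exact ⟨MvPolynomial.X (Sum.inr ⟨q, hq, hqM⟩), by rw [MvPolynomial.aeval_X]; rfl⟩
  · intro r
    refine ⟨algebraMap ℤ _ r, ?_⟩
    rw [AlgHom.commutes]
    rfl
  · rintro x y hx hy ⟨a, ha⟩ ⟨b, hb⟩
    exact ⟨a + b, by rw [map_add, ha, hb]; rfl⟩
  · rintro x y hx hy ⟨a, ha⟩ ⟨b, hb⟩
    exact ⟨a * b, by rw [map_mul, ha, hb]; rfl⟩

/-- Two ring homomorphisms agreeing on the `T_ℓ` and `U_q` are equal. -/
theorem ringHom_ext {R : Type*} [Ring R] {f g : TPm M Q →+* R}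
    (hT : ∀ (ℓ : ℕ) (hℓ : ℓ.Prime) (hℓM : ¬ ℓ ∣ M), f (tT hℓ hℓM) = g (tT hℓ hℓM))
    (hU : ∀ (q : ℕ) (hq : q ∈ Q) (hqM : q ∣ M), f (tU hq hqM) = g (tU hq hqM)) : f = g := by
  refine RingHom.ext fun t => ?_
  obtain ⟨x, rfl⟩ := aeval_tGen_surjective t
  induction x using MvPolynomial.induction_on with
  | C a => rw [MvPolynomial.aeval_C, eq_intCast, map_intCast, map_intCast]
  | add p q hp hq => rw [map_add, map_add, map_add, hp, hq]
  | mul_X p i hp =>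
    rw [map_mul, map_mul, map_mul, hp, MvPolynomial.aeval_X]
    rcases i with ⟨ℓ, h1, h2⟩ | ⟨q, h1, h2⟩
    · exact congrArg _ (hT ℓ h1 h2)
    · exact congrArg _ (hU q h1 h2)

/-! ### Finiteness -/

variable (M Q) in
/-- The primes of the level outside `Q`. -/
def bad : Set ℕ := {v | v ∣ M ∧ v ∉ Q}

theorem mem_bad {v : ℕ} : v ∈ bad M Q ↔ v ∣ M ∧ v ∉ Q := Iff.rfl

theorem heckeAlgebra_mem_pm {t : Module.End ℂ (CuspForm (Gamma0 M) 2)}
    (ht : t ∈ heckeAlgebra M 2 (bad M Q)) {f : CuspForm (Gamma0 M) 2} (hf : f ∈ pm M Q) :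
    t f ∈ pm M Q := by
  induction ht using Algebra.adjoin_induction generalizing f with
  | mem x hx =>
    rcases hx with ⟨ℓ, hℓ, hℓM, -, rfl⟩ | ⟨q, hqM, hq, hqS, rfl⟩
    · exact T_mem_pm hℓ hℓM hf
    · exact U_mem_pm hqM hf
  | algebraMap r =>
    rw [Algebra.algebraMap_eq_smul_one, LinearMap.smul_apply, Module.End.one_apply]
    exact (pm M Q).toAddSubgroup.zsmul_mem hf r
  | add x y _ _ hx hy => exact add_mem (hx hf) (hy hf)
  | mul x y _ _ hx hy => exact hx (hy hf)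

/-- The restriction to the `±`-space. -/
def res0 : heckeAlgebra M 2 (bad M Q) →+* Module.End ℂ (pm M Q) where
  toFun t := (t : Module.End ℂ (CuspForm (Gamma0 M) 2)).restrict
    fun _ hf => heckeAlgebra_mem_pm t.2 hf
  map_one' := rfl
  map_mul' _ _ := rfl
  map_zero' := rfl
  map_add' _ _ := rfl

theorem res0_apply (t : heckeAlgebra M 2 (bad M Q)) (f : pm M Q) :
    ((res0 t f : pm M Q) : CuspForm (Gamma0 M) 2) =
      (t : Module.End ℂ (CuspForm (Gamma0 M) 2)) (f : CuspForm (Gamma0 M) 2) := rfl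

theorem res0_mem (t : heckeAlgebra M 2 (bad M Q)) :
    res0 t ∈ Algebra.adjoin ℤ (pmGen M Q) := by
  obtain ⟨t, ht⟩ := t
  refine Algebra.adjoin_induction
    (p := fun t ht => res0 (⟨t, ht⟩ : heckeAlgebra M 2 (bad M Q)) ∈ Algebra.adjoin ℤ (pmGen M Q))
    ?_ ?_ ?_ ?_ ht
  · rintro T (⟨ℓ, hℓ, hℓM, -, rfl⟩ | ⟨q, hqM, hq, hqS, rfl⟩)
    · exact Algebra.subset_adjoin (Or.inl ⟨ℓ, hℓ, hℓM, rfl⟩)
    · have hqQ : q ∈ Q := by
        by_contra h
        exact hqS ⟨hqM, h⟩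
      exact Algebra.subset_adjoin (Or.inr ⟨q, hqQ, hqM, rfl⟩)
  · intro r
    have : res0 (⟨algebraMap ℤ _ r, Subalgebra.algebraMap_mem _ r⟩ : heckeAlgebra M 2 (bad M Q)) =
        algebraMap ℤ _ r := by
      have h1 : (⟨algebraMap ℤ _ r, Subalgebra.algebraMap_mem _ r⟩ :
          heckeAlgebra M 2 (bad M Q)) = ((r : ℤ) : heckeAlgebra M 2 (bad M Q)) := by
        apply Subtype.ext
        simp
      rw [h1, map_intCast, eq_intCast]
    rw [this]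
    exact Subalgebra.algebraMap_mem _ r
  · intro x y hx hy h1 h2
    have := add_mem h1 h2
    rwa [← map_add] at this
  · intro x y hx hy h1 h2
    have := mul_mem h1 h2
    rwa [← map_mul] at this

/-- The restriction to the `±`-space. -/
def resT : heckeAlgebra M 2 (bad M Q) →+* TPm M Q :=
  res0.codRestrict (Algebra.adjoin ℤ (pmGen M Q)).toSubring res0_mem

theorem resT_T {ℓ : ℕ} (hℓ : ℓ.Prime) (hℓM : ¬ ℓ ∣ M) (hℓS : ℓ ∉ bad M Q) :
    resT (heckeAlgebra.T hℓ hℓM hℓS : heckeAlgebra M 2 (bad M Q)) = tT hℓ hℓM := rfl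

theorem resT_U {q : ℕ} (hq : q.Prime) (hqM : q ∣ M) (hqS : q ∉ bad M Q) (hqQ : q ∈ Q) :
    resT (heckeAlgebra.U hq hqM hqS : heckeAlgebra M 2 (bad M Q)) = tU hqQ hqM := rfl

theorem resT_surjective (hQ : ∀ q ∈ Q, q ∣ M → q.Prime) :
    Function.Surjective (resT (M := M) (Q := Q)) := by
  intro t
  obtain ⟨x, rfl⟩ := aeval_tGen_surjective t
  induction x using MvPolynomial.induction_on with
  | C a =>
    refine ⟨(a : heckeAlgebra M 2 (bad M Q)), ?_⟩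
    rw [map_intCast, MvPolynomial.aeval_C, eq_intCast]
  | add p q hp hq =>
    obtain ⟨a, ha⟩ := hp
    obtain ⟨b, hb⟩ := hq
    exact ⟨a + b, by rw [map_add, map_add, ha, hb]⟩
  | mul_X p i hp =>
    obtain ⟨a, ha⟩ := hp
    rcases i with ⟨ℓ, h1, h2⟩ | ⟨q, h1, h2⟩
    · have hℓS : ℓ ∉ bad M Q := fun h => h2 h.1
      refine ⟨a * heckeAlgebra.T h1 h2 hℓS, ?_⟩
      rw [map_mul, map_mul, ha, resT_T, MvPolynomial.aeval_X]
      rfl
    · have hqS : q ∉ bad M Q := fun h => h.2 h1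
      refine ⟨a * heckeAlgebra.U (hQ q h1 h2) h2 hqS, ?_⟩
      rw [map_mul, map_mul, ha, resT_U _ _ _ h1, MvPolynomial.aeval_X]
      rfl

theorem finite (hQ : ∀ q ∈ Q, q ∣ M → q.Prime) : Module.Finite ℤ (TPm M Q) := by
  haveI : Module.Finite ℤ (heckeAlgebra M 2 (bad M Q)) := Fermat.Agent.S22.result M 2 _
  exact Module.Finite.of_surjective (resT (M := M) (Q := Q)).toIntAlgHom.toLinearMap
    (resT_surjective hQ)

instance instIsAddTorsionFree : IsAddTorsionFree (TPm M Q) where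
  nsmul_right_injective n hn a b hab := by
    apply Subtype.ext
    have h : (n : ℂ) • (a : Module.End ℂ (pm M Q)) = (n : ℂ) • (b : Module.End ℂ (pm M Q)) := by
      simp only [Nat.cast_smul_eq_nsmul]
      exact congrArg Subtype.val hab
    exact smul_right_injective _ (Nat.cast_ne_zero.mpr hn) h

theorem free (hQ : ∀ q ∈ Q, q ∣ M → q.Prime) : Module.Free ℤ (TPm M Q) := by
  haveI := finite hQ
  exact Module.free_of_finite_type_torsion_free'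

instance instIsReduced : IsReduced (TPm M Q) where
  eq_zero := fun x ⟨n, hn⟩ => by
    apply Subtype.ext
    refine Pet2.eq_zero_of_isNilpotent_pm x.2 ⟨n, ?_⟩
    rw [← SubmonoidClass.coe_pow, hn]
    rfl

/-! ### Characters and eigenforms -/

theorem evS_X_eq' {N : ℕ} [NeZero N] (S : Set ℕ) (ℓ : {ℓ : Nat.Primes // (ℓ : ℕ) ∉ S}) :
    ((evS N S (MvPolynomial.X ℓ) : heckeAlgebra N 2 S) : Module.End ℂ _) =
      heckeOp N 2 ℓ.1 := by
  rw [evS, MvPolynomial.aeval_X, genS]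
  by_cases h : (ℓ.1 : ℕ) ∣ N
  · rw [dif_pos h, heckeOp_of_dvd h]; rfl
  · rw [dif_neg h, heckeOp_of_not_dvd h]; rfl

/-- A character of the Hecke algebra comes from a normalised eigenform. -/
theorem exists_eigenform (S : Set ℕ) (χ : heckeAlgebra M 2 S →+* ℂ) :
    ∃ F : CuspForm (Gamma0 M) 2, F.IsNormalizedEigenform ∧
      ∀ ℓ : {ℓ : Nat.Primes // (ℓ : ℕ) ∉ S},
        qCoeff ⇑F (ℓ.1 : ℕ) = χ (evS M S (MvPolynomial.X ℓ)) := by
  classical
  obtain ⟨v, hv0, hv⟩ := S35aux.exists_cuspForm_of_char M S χ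
  obtain ⟨F, hF, hFa⟩ := Oldforms.exists_eigenform_of_joint (N := M)
    {ℓ : Nat.Primes | (ℓ : ℕ) ∉ S}
    (fun ℓ => if h : (ℓ : ℕ) ∉ S then χ (evS M S (MvPolynomial.X ⟨ℓ, h⟩)) else 0) v hv0
    (fun ℓ (hℓ : (ℓ : ℕ) ∉ S) => by
      rw [dif_pos hℓ, ← hv, evS_X_eq'])
  refine ⟨F, hF, fun ℓ => ?_⟩
  have := hFa ℓ.1 ℓ.2
  rw [dif_pos ℓ.2] at this
  exact this

/-- **Characters of the Hecke ring of the `±`-space come from normalised eigenforms.** -/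
theorem exists_form (hQ : ∀ q ∈ Q, q ∣ M → q.Prime) (x : TPm M Q →+* ℂ) :
    ∃ f : CuspForm (Gamma0 M) 2, f.IsNormalizedEigenform ∧
      (∀ (ℓ : ℕ) (hℓ : ℓ.Prime) (hℓM : ¬ ℓ ∣ M), qCoeff ⇑f ℓ = x (tT hℓ hℓM)) ∧
      ∀ (q : ℕ) (hq : q ∈ Q) (hqM : q ∣ M), qCoeff ⇑f q = x (tU hq hqM) := by
  obtain ⟨F, hF, hFa⟩ := exists_eigenform (bad M Q) (x.comp resT)
  refine ⟨F, hF, fun ℓ hℓ hℓM => ?_, fun q hq hqM => ?_⟩
  · have hℓS : ℓ ∉ bad M Q := fun h => hℓM h.1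
    have h1 := hFa ⟨⟨ℓ, hℓ⟩, hℓS⟩
    rw [evS_X_of_not_dvd M _ ⟨⟨ℓ, hℓ⟩, hℓS⟩ hℓM] at h1
    exact h1
  · have hqS : q ∉ bad M Q := fun h => h.2 hq
    have h1 := hFa ⟨⟨q, hQ q hq hqM⟩, hqS⟩
    rw [evS, MvPolynomial.aeval_X, genS, dif_pos hqM] at h1
    exact h1

/-- The square of the `U_q`-eigenvalue is one. -/
theorem sq_eq_one (x : TPm M Q →+* ℂ) {q : ℕ} (hq : q ∈ Q) (hqM : q ∣ M) :
    x (tU hq hqM) ^ 2 = 1 := by
  rw [pow_two, ← map_mul, tU_mul_self, map_one]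

end Fermat.Agent.LTF.PmForms

end
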