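import Mathlib

/-!
# Two-dimensional Gaussian Poisson summation (helper93)
-/

set_option autoImplicit false

namespace Fermat.Agent.LTF.Theta

open Complex Real

/-- Gaussian summability with a real shift. -/
theorem summable_gauss (t u : ℝ) (ht : 0 < t) :
    Summable (fun n : ℤ => Real.exp (-(t * ((n : ℝ) + u) ^ 2))) := by
  have h := (summable_jacobiTheta₂_term_iff (I * ((t * u / π : ℝ) : ℂ))
    (I * ((t / π : ℝ) : ℂ))).mpr (by
      rw [I_mul_im, ofReal_re]; positivity)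
  have h2 := h.norm
  have h3 : Summable (fun n : ℤ => Real.exp (-(t * u ^ 2)) *
      ‖jacobiTheta₂_term n (I * ((t * u / π : ℝ) : ℂ)) (I * ((t / π : ℝ) : ℂ))‖) :=
    h2.mul_left _
  refine h3.congr fun n => ?_
  rw [norm_jacobiTheta₂_term, I_mul_im, I_mul_im, ofReal_re, ofReal_re, ← Real.exp_add]
  congr 1
  have hpi : (π : ℝ) ≠ 0 := Real.pi_ne_zero
  field_simp
  ring

/-- The quadratic form with real coefficients. -/
def qf (A B C : ℝ) (x y : ℝ) : ℝ := A * x ^ 2 + B * x * y + C * y ^ 2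

theorem qf_ge (A B C : ℝ) (hA : 0 < A) (hD : 0 < 4 * A * C - B ^ 2) (x y : ℝ) :
    (4 * A * C - B ^ 2) / (8 * C) * x ^ 2 + (4 * A * C - B ^ 2) / (8 * A) * y ^ 2 ≤
      qf A B C x y := by
  have hC : 0 < C := by
    by_contra h
    push Not at h
    have : 4 * A * C ≤ 0 := by nlinarith
    nlinarith [sq_nonneg B]
  have h1 : (4 * A * C - B ^ 2) / (4 * C) * x ^ 2 ≤ qf A B C x y := by
    have : qf A B C x y = (4 * A * C - B ^ 2) / (4 * C) * x ^ 2 +
        (2 * C * y + B * x) ^ 2 / (4 * C) := by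
      unfold qf
      field_simp
      ring
    rw [this]
    have : 0 ≤ (2 * C * y + B * x) ^ 2 / (4 * C) := by positivity
    linarith
  have h2 : (4 * A * C - B ^ 2) / (4 * A) * y ^ 2 ≤ qf A B C x y := by
    have : qf A B C x y = (4 * A * C - B ^ 2) / (4 * A) * y ^ 2 +
        (2 * A * x + B * y) ^ 2 / (4 * A) := by
      unfold qf
      field_simp
      ring
    rw [this]
    have : 0 ≤ (2 * A * x + B * y) ^ 2 / (4 * A) := by positivity
    linarith
  have e1 : (4 * A * C - B ^ 2) / (8 * C) * x ^ 2 =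
      ((4 * A * C - B ^ 2) / (4 * C) * x ^ 2) / 2 := by
    field_simp
    ring
  have e2 : (4 * A * C - B ^ 2) / (8 * A) * y ^ 2 =
      ((4 * A * C - B ^ 2) / (4 * A) * y ^ 2) / 2 := by
    field_simp
    ring
  rw [e1, e2]
  linarith

theorem C_pos (A B C : ℝ) (hA : 0 < A) (hD : 0 < 4 * A * C - B ^ 2) : 0 < C := by
  by_contra h
  push Not at h
  have : 4 * A * C ≤ 0 := by nlinarith
  nlinarith [sq_nonneg B]

/-- Real majorant for the two-dimensional theta series. -/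
theorem summable_exp_qf (A B C : ℝ) (hA : 0 < A) (hD : 0 < 4 * A * C - B ^ 2) (u v t : ℝ)
    (ht : 0 < t) :
    Summable (fun x : ℤ × ℤ =>
      Real.exp (-(t * qf A B C ((x.1 : ℝ) + u) ((x.2 : ℝ) + v)))) := by
  have hC := C_pos A B C hA hD
  have h1 := summable_gauss (t * ((4 * A * C - B ^ 2) / (8 * C))) u (by positivity)
  have h2 := summable_gauss (t * ((4 * A * C - B ^ 2) / (8 * A))) v (by positivity)
  have h3 := h1.mul_of_nonneg h2 (fun _ => (Real.exp_pos _).le) (fun _ => (Real.exp_pos _).le)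
  refine Summable.of_nonneg_of_le (fun _ => (Real.exp_pos _).le) (fun x => ?_) h3
  rw [← Real.exp_add]
  apply Real.exp_le_exp.mpr
  have := qf_ge A B C hA hD ((x.1 : ℝ) + u) ((x.2 : ℝ) + v)
  have h4 := mul_le_mul_of_nonneg_left this ht.le
  linarith [h4]

/-- Summability of the two-dimensional theta series with real shifts. -/
theorem summable_theta2 (A B C : ℝ) (hA : 0 < A) (hD : 0 < 4 * A * C - B ^ 2) (u v : ℝ)
    (w : ℂ) (hw : 0 < w.im) :
    Summable (fun x : ℤ × ℤ =>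
      cexp (2 * π * I * w * (qf A B C ((x.1 : ℝ) + u) ((x.2 : ℝ) + v) : ℝ))) := by
  have h := summable_exp_qf A B C hA hD u v (2 * π * w.im) (by positivity)
  refine Summable.of_norm (h.congr fun x => ?_)
  rw [Complex.norm_exp]
  congr 1
  have : (2 * π * I * w * ((qf A B C ((x.1 : ℝ) + u) ((x.2 : ℝ) + v) : ℝ) : ℂ)) =
      ((2 * π * qf A B C ((x.1 : ℝ) + u) ((x.2 : ℝ) + v) : ℝ) : ℂ) * (I * w) := by
    push_cast
    ring
  rw [this, re_ofReal_mul, I_mul_re]
  ring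

/-- One-dimensional Poisson summation in the form used below. -/
theorem poisson1 (a : ℂ) (ha : 0 < a.re) (b : ℂ) :
    (∑' n : ℤ, cexp (-π * a * n ^ 2 + 2 * π * b * n)) =
      1 / a ^ (1 / 2 : ℂ) * ∑' n : ℤ, cexp (-π / a * (n + I * b) ^ 2) :=
  Complex.tsum_exp_neg_quadratic ha b

theorem ofReal_mul_cpow {r : ℝ} (hr : 0 < r) {z : ℂ} (hz : z ≠ 0) (s : ℂ) :
    ((r : ℂ) * z) ^ s = (r : ℂ) ^ s * z ^ s := by
  have hr' : (r : ℂ) ≠ 0 := by exact_mod_cast hr.ne'
  rw [cpow_def_of_ne_zero (mul_ne_zero hr' hz), cpow_def_of_ne_zero hr', cpow_def_of_ne_zero hz,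
    Complex.log_ofReal_mul hr hz, ← Complex.exp_add, ofReal_log hr.le]
  congr 1
  ring

theorem sqrt_mul_sqrt (A D : ℝ) (hA : 0 < A) (hD : 0 < D) (w : ℂ) (hw : 0 < w.im) :
    ((-2 * I * A * w) ^ (1 / 2 : ℂ)) * ((-I * w * D / (2 * A)) ^ (1 / 2 : ℂ)) =
      (Real.sqrt D : ℂ) * (-I * w) := by
  have e1 : (-2 * I * A * w) = ((2 * A : ℝ) : ℂ) * (-I * w) := by push_cast; ring
  have e2 : (-I * w * D / (2 * A)) = ((D / (2 * A) : ℝ) : ℂ) * (-I * w) := by
    push_cast; ring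
  have hne : (-I * w) ≠ 0 := by
    intro h
    have h' : w = 0 := by
      rcases mul_eq_zero.mp h with h | h
      · simp at h
      · exact h
    rw [h'] at hw
    simp at hw
  rw [e1, e2, ofReal_mul_cpow (by positivity) hne, ofReal_mul_cpow (by positivity) hne]
  have h1 : (-I * w) ^ (1 / 2 : ℂ) * (-I * w) ^ (1 / 2 : ℂ) = -I * w := by
    rw [← cpow_add _ _ hne]
    norm_num
  have h2 : ((2 * A : ℝ) : ℂ) ^ (1 / 2 : ℂ) * ((D / (2 * A) : ℝ) : ℂ) ^ (1 / 2 : ℂ) =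
      (Real.sqrt D : ℂ) := by
    rw [← mul_cpow_ofReal_nonneg (by positivity) (by positivity), ← ofReal_mul,
      mul_div_cancel₀ D (by positivity : (2 * A) ≠ 0)]
    rw [show (1 / 2 : ℂ) = ((1 / 2 : ℝ) : ℂ) by push_cast; ring, ← ofReal_cpow hD.le,
      Real.sqrt_eq_rpow]
  calc _ = (((2 * A : ℝ) : ℂ) ^ (1 / 2 : ℂ) * ((D / (2 * A) : ℝ) : ℂ) ^ (1 / 2 : ℂ)) *
      ((-I * w) ^ (1 / 2 : ℂ) * (-I * w) ^ (1 / 2 : ℂ)) := by ring
    _ = _ := by rw [h1, h2]

/-- First Poisson step. -/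
theorem inner_x (A B C : ℝ) (hA : 0 < A) (u X2 : ℝ) (w : ℂ) (hw : 0 < w.im) :
    (∑' x : ℤ, cexp (2 * π * I * w * (qf A B C ((x : ℝ) + u) X2 : ℝ))) =
      1 / (-2 * I * A * w) ^ (1 / 2 : ℂ) *
        ∑' n : ℤ, cexp (-π * I * n ^ 2 / (2 * A * w) + 2 * π * I * n * u +
          π * I * n * B * X2 / A + 2 * π * I * w * ((4 * A * C - B ^ 2) / (4 * A)) * X2 ^ 2) := by
  have hw0 : w ≠ 0 := by
    intro h
    rw [h] at hw
    simp at hw
  have hA0 : (A : ℂ) ≠ 0 := by exact_mod_cast hA.ne'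
  have ha : 0 < (-2 * I * A * w).re := by
    have : (-2 * I * A * w) = ((-2 * A : ℝ) : ℂ) * (I * w) := by push_cast; ring
    rw [this, re_ofReal_mul, I_mul_re]
    nlinarith
  have h := poisson1 (-2 * I * A * w) ha (I * w * (2 * A * u + B * X2))
  have e1 : ∀ x : ℤ, cexp (2 * π * I * w * (qf A B C ((x : ℝ) + u) X2 : ℝ)) =
      cexp (-π * (-2 * I * A * w) * x ^ 2 + 2 * π * (I * w * (2 * A * u + B * X2)) * x) *
        cexp (2 * π * I * w * (A * u ^ 2 + B * u * X2 + C * X2 ^ 2)) := by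
    intro x
    rw [← Complex.exp_add]
    congr 1
    unfold qf
    push_cast
    ring
  rw [tsum_congr e1, tsum_mul_right, h, mul_assoc, ← tsum_mul_right]
  congr 1
  refine tsum_congr fun n => ?_
  rw [← Complex.exp_add]
  congr 1
  field_simp
  ring_nf
  simp only [I_sq, I_pow_four]
  ring

/-- Second Poisson step. -/
theorem inner_y (A B C : ℝ) (hA : 0 < A) (hD : 0 < 4 * A * C - B ^ 2) (u v : ℝ) (n : ℤ)
    (w : ℂ) (hw : 0 < w.im) :
    (∑' x : ℤ, cexp (-π * I * n ^ 2 / (2 * A * w) + 2 * π * I * n * u +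
          π * I * n * B * ((x : ℝ) + v : ℝ) / A +
          2 * π * I * w * ((4 * A * C - B ^ 2) / (4 * A)) * (((x : ℝ) + v : ℝ) : ℂ) ^ 2)) =
      1 / (-I * w * (4 * A * C - B ^ 2 : ℝ) / (2 * A)) ^ (1 / 2 : ℂ) *
        ∑' m : ℤ, cexp (2 * π * I * (n * u + m * v) -
          2 * π * I * (qf C (-B) A n m : ℝ) / (w * (4 * A * C - B ^ 2 : ℝ))) := by
  have hw0 : w ≠ 0 := by
    intro h
    rw [h] at hw
    simp at hw
  have hA0 : (A : ℂ) ≠ 0 := by exact_mod_cast hA.ne'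
  set D : ℝ := 4 * A * C - B ^ 2 with hDdef
  have hD0 : (D : ℂ) ≠ 0 := by exact_mod_cast hD.ne'
  have hDc : (D : ℂ) = 4 * A * C - B ^ 2 := by rw [hDdef]; push_cast; ring
  have ha : 0 < (-I * w * D / (2 * A)).re := by
    have : (-I * w * D / (2 * A)) = ((-D / (2 * A) : ℝ) : ℂ) * (I * w) := by push_cast; ring
    rw [this, re_ofReal_mul, I_mul_re]
    have : 0 < D / (2 * A) := by positivity
    have h2 : -D / (2 * A) * -w.im = D / (2 * A) * w.im := by ring
    rw [h2]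
    positivity
  have h := poisson1 (-I * w * D / (2 * A)) ha
    (-(-I * w * D / (2 * A)) * v + I * n * B / (2 * A))
  have e1 : ∀ x : ℤ, cexp (-π * I * n ^ 2 / (2 * A * w) + 2 * π * I * n * u +
          π * I * n * B * ((x : ℝ) + v : ℝ) / A +
          2 * π * I * w * ((4 * A * C - B ^ 2) / (4 * A)) * (((x : ℝ) + v : ℝ) : ℂ) ^ 2) =
      cexp (-π * (-I * w * D / (2 * A)) * x ^ 2 +
        2 * π * (-(-I * w * D / (2 * A)) * v + I * n * B / (2 * A)) * x) *
        cexp (-π * I * n ^ 2 / (2 * A * w) + 2 * π * I * n * u + π * I * n * B * v / A +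
          2 * π * I * w * (D / (4 * A)) * v ^ 2) := by
    intro x
    rw [← Complex.exp_add]
    congr 1
    push_cast
    rw [← hDc]
    field_simp
    ring
  rw [tsum_congr e1, tsum_mul_right, h, mul_assoc, ← tsum_mul_right]
  congr 1
  refine tsum_congr fun m => ?_
  rw [← Complex.exp_add]
  congr 1
  unfold qf
  push_cast
  field_simp
  rw [hDc]
  ring_nf
  simp only [I_sq, I_pow_four]
  ring

/-- The middle double series is absolutely convergent. -/
theorem summable_mid (A B C : ℝ) (hA : 0 < A) (hD : 0 < 4 * A * C - B ^ 2) (u v : ℝ)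
    (w : ℂ) (hw : 0 < w.im) :
    Summable (fun p : ℤ × ℤ => cexp (-π * I * p.1 ^ 2 / (2 * A * w) + 2 * π * I * p.1 * u +
          π * I * p.1 * B * (((p.2 : ℝ) + v : ℝ) : ℂ) / A +
          2 * π * I * w * ((4 * A * C - B ^ 2) / (4 * A)) *
            ((((p.2 : ℝ) + v : ℝ)) : ℂ) ^ 2)) := by
  have hw0 : w ≠ 0 := by
    intro h
    rw [h] at hw
    simp at hw
  have hpos : 0 < π * w.im / (2 * A * normSq w) := by
    have := normSq_pos.mpr hw0
    positivity
  have h1 := summable_gauss (π * w.im / (2 * A * normSq w)) 0 hpos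
  have h2 := summable_gauss (2 * π * w.im * ((4 * A * C - B ^ 2) / (4 * A))) v (by positivity)
  have h3 := h1.mul_of_nonneg h2 (fun _ => (Real.exp_pos _).le) (fun _ => (Real.exp_pos _).le)
  refine Summable.of_norm (h3.congr fun p => ?_)
  rw [Complex.norm_exp, ← Real.exp_add]
  congr 1
  have e1 : (-π * I * p.1 ^ 2 / (2 * A * w) : ℂ) =
      ((-π * p.1 ^ 2 / (2 * A) : ℝ) : ℂ) * (I * w⁻¹) := by
    push_cast
    field_simp
  have e2 : (2 * π * I * p.1 * u : ℂ) = ((2 * π * p.1 * u : ℝ) : ℂ) * I := by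
    push_cast; ring
  have e3 : (π * I * p.1 * B * ((((p.2 : ℝ) + v : ℝ)) : ℂ) / A : ℂ) =
      ((π * p.1 * B * ((p.2 : ℝ) + v) / A : ℝ) : ℂ) * I := by
    push_cast; ring
  have e4 : (2 * π * I * w * ((4 * A * C - B ^ 2) / (4 * A)) *
            ((((p.2 : ℝ) + v : ℝ)) : ℂ) ^ 2 : ℂ) =
      ((2 * π * ((4 * A * C - B ^ 2) / (4 * A)) * ((p.2 : ℝ) + v) ^ 2 : ℝ) : ℂ) * (I * w) := by
    push_cast; ring
  rw [e1, e2, e3, e4, add_re, add_re, add_re, re_ofReal_mul, re_ofReal_mul, re_ofReal_mul,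
    re_ofReal_mul, I_mul_re, I_mul_re, I_re, inv_im]
  have := (normSq_pos.mpr hw0).ne'
  field_simp
  ring

/-- **Two-dimensional Gaussian Poisson summation** for a positive definite binary form
`A x² + B x y + C y²` and a real shift `(u, v)`. -/
theorem poisson2 (A B C : ℝ) (hA : 0 < A) (hD : 0 < 4 * A * C - B ^ 2) (u v : ℝ)
    (w : ℂ) (hw : 0 < w.im) :
    (∑' x : ℤ × ℤ, cexp (2 * π * I * w * (qf A B C ((x.1 : ℝ) + u) ((x.2 : ℝ) + v) : ℝ))) =
      I / (w * (Real.sqrt (4 * A * C - B ^ 2) : ℝ)) *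
        ∑' y : ℤ × ℤ, cexp (2 * π * I * (y.1 * u + y.2 * v) -
          2 * π * I * (qf C (-B) A y.1 y.2 : ℝ) / (w * (4 * A * C - B ^ 2 : ℝ))) := by
  have hw0 : w ≠ 0 := by
    intro h
    rw [h] at hw
    simp at hw
  have hC := C_pos A B C hA hD
  have hs1 := summable_theta2 A B C hA hD u v w hw
  have hs2 := summable_mid A B C hA hD u v w hw
  have hs3 : Summable (fun y : ℤ × ℤ => cexp (2 * π * I * (y.1 * u + y.2 * v) -
          2 * π * I * (qf C (-B) A y.1 y.2 : ℝ) / (w * (4 * A * C - B ^ 2 : ℝ)))) := by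
    have hw' : 0 < (-(w * ((4 * A * C - B ^ 2 : ℝ) : ℂ))⁻¹).im := by
      rw [neg_im, inv_im, im_mul_ofReal]
      have h0 : (w * ((4 * A * C - B ^ 2 : ℝ) : ℂ)) ≠ 0 :=
        mul_ne_zero hw0 (by exact_mod_cast hD.ne')
      have := normSq_pos.mpr h0
      have h5 : 0 < w.im * (4 * A * C - B ^ 2) := by positivity
      have h6 : 0 < w.im * (4 * A * C - B ^ 2) / normSq (w * ((4 * A * C - B ^ 2 : ℝ) : ℂ)) := by
        positivity
      have h7 : -(-(w.im * (4 * A * C - B ^ 2)) / normSq (w * ((4 * A * C - B ^ 2 : ℝ) : ℂ))) =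
        w.im * (4 * A * C - B ^ 2) / normSq (w * ((4 * A * C - B ^ 2 : ℝ) : ℂ)) := by ring
      rw [h7]
      exact h6
    have h := (summable_theta2 C (-B) A hC (by nlinarith) 0 0 _ hw').norm
    refine Summable.of_norm (h.congr fun y => ?_)
    rw [Complex.norm_exp, Complex.norm_exp]
    congr 1
    have e1 : (2 * π * I * (y.1 * u + y.2 * v) : ℂ) =
        ((2 * π * (y.1 * u + y.2 * v) : ℝ) : ℂ) * I := by push_cast; ring
    rw [sub_re, e1, re_ofReal_mul, I_re, mul_zero, zero_sub, ← neg_re]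
    congr 1
    push_cast
    simp only [add_zero]
    field_simp
  calc (∑' x : ℤ × ℤ, cexp (2 * π * I * w * (qf A B C ((x.1 : ℝ) + u) ((x.2 : ℝ) + v) : ℝ)))
      = ∑' (x2 : ℤ) (x1 : ℤ), cexp (2 * π * I * w * (qf A B C ((x1 : ℝ) + u)
          ((x2 : ℝ) + v) : ℝ)) := by
        rw [hs1.tsum_prod]
        exact (Summable.tsum_comm (f := fun x1 x2 : ℤ => cexp (2 * π * I * w *
          (qf A B C ((x1 : ℝ) + u) ((x2 : ℝ) + v) : ℝ))) hs1).symm
    _ = ∑' x2 : ℤ, 1 / (-2 * I * A * w) ^ (1 / 2 : ℂ) *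
        ∑' n : ℤ, cexp (-π * I * n ^ 2 / (2 * A * w) + 2 * π * I * n * u +
          π * I * n * B * ((x2 : ℝ) + v : ℝ) / A +
          2 * π * I * w * ((4 * A * C - B ^ 2) / (4 * A)) * (((x2 : ℝ) + v : ℝ) : ℂ) ^ 2) :=
        tsum_congr fun x2 => inner_x A B C hA u ((x2 : ℝ) + v) w hw
    _ = 1 / (-2 * I * A * w) ^ (1 / 2 : ℂ) * ∑' (n : ℤ) (x2 : ℤ),
        cexp (-π * I * n ^ 2 / (2 * A * w) + 2 * π * I * n * u +
          π * I * n * B * ((x2 : ℝ) + v : ℝ) / A +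
          2 * π * I * w * ((4 * A * C - B ^ 2) / (4 * A)) * (((x2 : ℝ) + v : ℝ) : ℂ) ^ 2) := by
        rw [tsum_mul_left]
        congr 1
        exact hs2.tsum_comm
    _ = 1 / (-2 * I * A * w) ^ (1 / 2 : ℂ) * ∑' (n : ℤ),
        (1 / (-I * w * (4 * A * C - B ^ 2 : ℝ) / (2 * A)) ^ (1 / 2 : ℂ) *
        ∑' m : ℤ, cexp (2 * π * I * (n * u + m * v) -
          2 * π * I * (qf C (-B) A n m : ℝ) / (w * (4 * A * C - B ^ 2 : ℝ)))) := by
        congr 1
        exact tsum_congr fun n => inner_y A B C hA hD u v n w hw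
    _ = _ := by
        rw [tsum_mul_left, hs3.tsum_prod, ← mul_assoc]
        congr 1
        have h := sqrt_mul_sqrt A (4 * A * C - B ^ 2) hA hD w hw
        rw [div_mul_div_comm, one_mul, h]
        have h8 : (Real.sqrt (4 * A * C - B ^ 2) : ℂ) ≠ 0 := by
          exact_mod_cast (Real.sqrt_pos.mpr hD).ne'
        field_simp
        rw [I_sq]

end Fermat.Agent.LTF.Theta
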